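import Mathlib
import Fermat.Prelude.Def_ModularCurve_GenusNumerics

set_option autoImplicit false

/-!
# Coset combinatorics for `Γ₀(N)` (part (F) of the S20 plan)

For `G = SL(2, ℤ)` acting by left multiplication on `Ω = G ⧸ Γ₀(N)`:
* `index_Gamma0` : `(Gamma0 N).index = dedekindPsi N`
* `card_fixed_S` : the number of cosets fixed by `S` is `nuTwo N`
* `card_fixed_ST` : the number of cosets fixed by `S * T` is `nuThree N`
* `card_orbits_T` : the number of orbits of `⟨T⟩` is `cuspCount N`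
-/

open Matrix ModularGroup CongruenceSubgroup
open scoped MatrixGroups

namespace Fermat.Agent.S20.Cosets

variable (N : ℕ)

theorem inv_mul_one_zero (g g' : SL(2, ℤ)) :
    (g⁻¹ * g') 1 0 = g 0 0 * g' 1 0 - g 1 0 * g' 0 0 := by
  simp only [Matrix.SpecialLinearGroup.coe_mul, Matrix.SpecialLinearGroup.coe_inv,
    adjugate_fin_two, mul_apply, Fin.sum_univ_two, of_apply, cons_val', cons_val_zero,
    cons_val_one, cons_val_fin_one]
  ring

/-- Coset equality criterion in terms of first columns. -/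
theorem coset_eq_iff (g g' : SL(2, ℤ)) :
    (QuotientGroup.mk g : SL(2, ℤ) ⧸ Gamma0 N) = QuotientGroup.mk g' ↔
      (N : ℤ) ∣ g 0 0 * g' 1 0 - g 1 0 * g' 0 0 := by
  rw [QuotientGroup.eq, Gamma0_mem, ZMod.intCast_zmod_eq_zero_iff_dvd, inv_mul_one_zero]

theorem det_eq (g : SL(2, ℤ)) : g 0 0 * g 1 1 - g 0 1 * g 1 0 = 1 := by
  have := g.det_coe
  rw [Matrix.det_fin_two] at this
  exact this

theorem S_mul_col (g : SL(2, ℤ)) : (S * g) 0 0 = - g 1 0 ∧ (S * g) 1 0 = g 0 0 := by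
  simp [Matrix.SpecialLinearGroup.coe_mul, ModularGroup.coe_S, Matrix.mul_apply,
    Fin.sum_univ_two]

theorem T_mul_col (g : SL(2, ℤ)) : (T * g) 0 0 = g 0 0 + g 1 0 ∧ (T * g) 1 0 = g 1 0 := by
  simp [Matrix.SpecialLinearGroup.coe_mul, ModularGroup.coe_T, Matrix.mul_apply,
    Fin.sum_univ_two]

theorem T_zpow_mul_col (n : ℤ) (g : SL(2, ℤ)) :
    (T ^ n * g) 0 0 = g 0 0 + n * g 1 0 ∧ (T ^ n * g) 1 0 = g 1 0 := by
  simp [Matrix.SpecialLinearGroup.coe_mul, ModularGroup.coe_T_zpow, Matrix.mul_apply,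
    Fin.sum_univ_two]

theorem ST_mul_col (g : SL(2, ℤ)) :
    (S * T * g) 0 0 = - g 1 0 ∧ (S * T * g) 1 0 = g 0 0 + g 1 0 := by
  simp [Matrix.SpecialLinearGroup.coe_mul, ModularGroup.coe_S, ModularGroup.coe_T,
    Matrix.mul_apply, Fin.sum_univ_two]

/-- The matrix `!![x, -1; 1, 0]`. -/
def colMat (x : ℤ) : SL(2, ℤ) :=
  ⟨!![x, -1; 1, 0], by simp [Matrix.det_fin_two]⟩

@[simp] theorem colMat_zero_zero (x : ℤ) : colMat x 0 0 = x := rfl
@[simp] theorem colMat_one_zero (x : ℤ) : colMat x 1 0 = 1 := rfl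

/-! ### Fixed points of `S` -/

theorem S_smul_mk_eq_iff (g : SL(2, ℤ)) :
    S • (QuotientGroup.mk g : SL(2, ℤ) ⧸ Gamma0 N) = QuotientGroup.mk g ↔
      (N : ℤ) ∣ g 0 0 ^ 2 + g 1 0 ^ 2 := by
  rw [MulAction.Quotient.smul_mk, smul_eq_mul, coset_eq_iff, (S_mul_col g).1, (S_mul_col g).2]
  rw [← dvd_neg]
  ring_nf

theorem ST_smul_mk_eq_iff (g : SL(2, ℤ)) :
    (S * T) • (QuotientGroup.mk g : SL(2, ℤ) ⧸ Gamma0 N) = QuotientGroup.mk g ↔
      (N : ℤ) ∣ g 0 0 ^ 2 + g 0 0 * g 1 0 + g 1 0 ^ 2 := by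
  rw [MulAction.Quotient.smul_mk, smul_eq_mul, coset_eq_iff, (ST_mul_col g).1, (ST_mul_col g).2]
  rw [← dvd_neg]
  ring_nf

theorem card_fixed_S :
    Nat.card {w : SL(2, ℤ) ⧸ Gamma0 N // S • w = w} = ModularCurve.nuTwo N := by
  unfold ModularCurve.nuTwo
  symm
  refine Nat.card_congr (Equiv.ofBijective
    (fun x : {x : ZMod N // x ^ 2 + 1 = 0} =>
      (⟨QuotientGroup.mk (colMat x.1.cast), ?_⟩ : {w : SL(2, ℤ) ⧸ Gamma0 N // S • w = w}))
    ⟨?_, ?_⟩)
  · rw [S_smul_mk_eq_iff, ← ZMod.intCast_zmod_eq_zero_iff_dvd]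
    simpa using x.2
  · intro x y h
    have h1 := (coset_eq_iff N _ _).mp (Subtype.ext_iff.mp h)
    rw [← ZMod.intCast_zmod_eq_zero_iff_dvd] at h1
    simp at h1
    exact Subtype.ext (sub_eq_zero.mp h1)
  · rintro ⟨w, hw⟩
    obtain ⟨g, rfl⟩ := QuotientGroup.mk_surjective w
    rw [S_smul_mk_eq_iff, ← ZMod.intCast_zmod_eq_zero_iff_dvd] at hw
    push_cast at hw
    have hdet := congrArg (Int.cast : ℤ → ZMod N) (det_eq g)
    push_cast at hdet
    set a : ZMod N := ((g 0 0 : ℤ) : ZMod N) with ha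
    set c : ZMod N := ((g 1 0 : ℤ) : ZMod N) with hc
    set b : ZMod N := ((g 0 1 : ℤ) : ZMod N) with hb
    set d : ZMod N := ((g 1 1 : ℤ) : ZMod N) with hd
    have hcu : c * (-c * d ^ 2 - 2 * a * b * d + b ^ 2 * c) = 1 := by
      have h2 : (a * d - b * c) ^ 2 = 1 := by rw [hdet]; ring
      linear_combination h2 - d ^ 2 * hw
    set ci : ZMod N := -c * d ^ 2 - 2 * a * b * d + b ^ 2 * c with hci
    refine ⟨⟨a * ci, ?_⟩, ?_⟩
    · linear_combination (ci ^ 2) * hw - (c * ci + 1) * hcu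
    · apply Subtype.ext
      show (QuotientGroup.mk (colMat (a * ci).cast) : SL(2, ℤ) ⧸ Gamma0 N) = QuotientGroup.mk g
      rw [coset_eq_iff, ← ZMod.intCast_zmod_eq_zero_iff_dvd]
      simp only [colMat_zero_zero, colMat_one_zero, Int.cast_sub, Int.cast_mul, ZMod.intCast_cast,
        ZMod.cast_id', id_eq, one_mul]
      linear_combination a * hcu

theorem card_fixed_ST :
    Nat.card {w : SL(2, ℤ) ⧸ Gamma0 N // (S * T) • w = w} = ModularCurve.nuThree N := by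
  unfold ModularCurve.nuThree
  symm
  refine Nat.card_congr (Equiv.ofBijective
    (fun x : {x : ZMod N // x ^ 2 + x + 1 = 0} =>
      (⟨QuotientGroup.mk (colMat x.1.cast), ?_⟩ :
        {w : SL(2, ℤ) ⧸ Gamma0 N // (S * T) • w = w}))
    ⟨?_, ?_⟩)
  · rw [ST_smul_mk_eq_iff, ← ZMod.intCast_zmod_eq_zero_iff_dvd]
    simpa using x.2
  · intro x y h
    have h1 := (coset_eq_iff N _ _).mp (Subtype.ext_iff.mp h)
    rw [← ZMod.intCast_zmod_eq_zero_iff_dvd] at h1
    simp at h1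
    exact Subtype.ext (sub_eq_zero.mp h1)
  · rintro ⟨w, hw⟩
    obtain ⟨g, rfl⟩ := QuotientGroup.mk_surjective w
    rw [ST_smul_mk_eq_iff, ← ZMod.intCast_zmod_eq_zero_iff_dvd] at hw
    push_cast at hw
    have hdet := congrArg (Int.cast : ℤ → ZMod N) (det_eq g)
    push_cast at hdet
    set a : ZMod N := ((g 0 0 : ℤ) : ZMod N) with ha
    set c : ZMod N := ((g 1 0 : ℤ) : ZMod N) with hc
    set b : ZMod N := ((g 0 1 : ℤ) : ZMod N) with hb
    set d : ZMod N := ((g 1 1 : ℤ) : ZMod N) with hd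
    have hcu : c * (-a * d ^ 2 - c * d ^ 2 - 2 * a * b * d + b ^ 2 * c) = 1 := by
      have h2 : (a * d - b * c) ^ 2 = 1 := by rw [hdet]; ring
      linear_combination h2 - d ^ 2 * hw
    set ci : ZMod N := -a * d ^ 2 - c * d ^ 2 - 2 * a * b * d + b ^ 2 * c with hci
    refine ⟨⟨a * ci, ?_⟩, ?_⟩
    · linear_combination (ci ^ 2) * hw - (a * ci + 1 + c * ci) * hcu
    · apply Subtype.ext
      show (QuotientGroup.mk (colMat (a * ci).cast) : SL(2, ℤ) ⧸ Gamma0 N) = QuotientGroup.mk g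
      rw [coset_eq_iff, ← ZMod.intCast_zmod_eq_zero_iff_dvd]
      simp only [colMat_zero_zero, colMat_one_zero, Int.cast_sub, Int.cast_mul, ZMod.intCast_cast,
        ZMod.cast_id', id_eq, one_mul]
      linear_combination a * hcu

/-! ### The invariants `(gcd(c, N), a * (c / d)⁻¹ mod N / d)` -/

theorem unit_cross {R : Type*} [CommRing R] (a a' : R) (u u' : Rˣ) :
    a * u' - u * a' = 0 ↔ a * ((u⁻¹ : Rˣ) : R) = a' * ((u'⁻¹ : Rˣ) : R) := by
  have hu : (u : R) * ((u⁻¹ : Rˣ) : R) = 1 := Units.mul_inv u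
  have hu' : (u' : R) * ((u'⁻¹ : Rˣ) : R) = 1 := Units.mul_inv u'
  constructor
  · intro h
    linear_combination (((u⁻¹ : Rˣ) : R) * ((u'⁻¹ : Rˣ) : R)) * h - a * ((u⁻¹ : Rˣ) : R) * hu'
      + a' * ((u'⁻¹ : Rˣ) : R) * hu
  · intro h
    linear_combination ((u : R) * (u' : R)) * h - a * (u' : R) * hu + (u : R) * a' * hu'

theorem isCoprime_col (g : SL(2, ℤ)) : IsCoprime (g 0 0) (g 1 0) :=
  ⟨g 1 1, -g 0 1, by linear_combination det_eq g⟩

/-- The "denominator" invariant `gcd(c, N)` of a coset. -/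
def dg (g : SL(2, ℤ)) : ℕ := Int.gcd (g 1 0) N

theorem dg_dvd (g : SL(2, ℤ)) : dg N g ∣ N :=
  Int.natCast_dvd_natCast.mp (Int.gcd_dvd_right _ _)

theorem dg_dvd_col (g : SL(2, ℤ)) : (dg N g : ℤ) ∣ g 1 0 :=
  Int.gcd_dvd_left _ _

theorem dg_pos [NeZero N] (g : SL(2, ℤ)) : 0 < dg N g :=
  Nat.pos_of_dvd_of_pos (dg_dvd N g) (Nat.pos_of_ne_zero (NeZero.ne N))

theorem dg_dvd_dg_of_dvd {g g' : SL(2, ℤ)}
    (h : (N : ℤ) ∣ g 0 0 * g' 1 0 - g 1 0 * g' 0 0) : dg N g ∣ dg N g' := by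
  have h1 : (dg N g : ℤ) ∣ g' 1 0 := by
    have h2 : (dg N g : ℤ) ∣ g 0 0 * g' 1 0 := by
      have h3 : (dg N g : ℤ) ∣ g 0 0 * g' 1 0 - g 1 0 * g' 0 0 :=
        (Int.natCast_dvd_natCast.mpr (dg_dvd N g)).trans h
      have h4 : (dg N g : ℤ) ∣ g 1 0 * g' 0 0 := (dg_dvd_col N g).mul_right _
      have := dvd_add h3 h4
      simpa using this
    have hc : IsCoprime (dg N g : ℤ) (g 0 0) :=
      IsCoprime.of_isCoprime_of_dvd_left (isCoprime_col g).symm (dg_dvd_col N g)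
    exact hc.dvd_of_dvd_mul_left h2
  exact Int.natCast_dvd_natCast.mp
    (Int.dvd_coe_gcd h1 (Int.natCast_dvd_natCast.mpr (dg_dvd N g)))

theorem dg_eq_of_dvd {g g' : SL(2, ℤ)}
    (h : (N : ℤ) ∣ g 0 0 * g' 1 0 - g 1 0 * g' 0 0) : dg N g = dg N g' := by
  refine Nat.dvd_antisymm (dg_dvd_dg_of_dvd N h) (dg_dvd_dg_of_dvd N ?_)
  have h1 : g' 0 0 * g 1 0 - g' 1 0 * g 0 0 = -(g 0 0 * g' 1 0 - g 1 0 * g' 0 0) := by ring
  rw [h1, dvd_neg]
  exact h

/-- The second invariant, an element of `ZMod (N / d)`. -/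
noncomputable def xd (d : ℕ) (g : SL(2, ℤ)) : ZMod (N / d) :=
  ((g 0 0 : ℤ) : ZMod (N / d)) * ((g 1 0 / (d : ℤ) : ℤ) : ZMod (N / d))⁻¹

theorem isUnit_c0 [NeZero N] (g : SL(2, ℤ)) {d : ℕ} (hd : dg N g = d) :
    IsUnit ((g 1 0 / (d : ℤ) : ℤ) : ZMod (N / d)) := by
  subst hd
  rw [ZMod.coe_int_isUnit_iff_isCoprime, Int.isCoprime_iff_gcd_eq_one, Int.gcd_comm]
  have h := Int.gcd_div_gcd_div_gcd (i := g 1 0) (j := (N : ℤ)) (dg_pos N g)
  rw [Int.natCast_div]
  exact h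

theorem dvd_iff_xd_eq [NeZero N] {g g' : SL(2, ℤ)} {d : ℕ} (hd : dg N g = d)
    (hd' : dg N g' = d) :
    (N : ℤ) ∣ g 0 0 * g' 1 0 - g 1 0 * g' 0 0 ↔ xd N d g = xd N d g' := by
  have hu := isUnit_c0 N g hd
  have hu' := isUnit_c0 N g' hd'
  have hdpos : 0 < d := hd ▸ dg_pos N g
  have hdN : d ∣ N := hd ▸ dg_dvd N g
  have hc : g 1 0 = (d : ℤ) * (g 1 0 / (d : ℤ)) := by
    rw [Int.mul_ediv_cancel' (hd ▸ dg_dvd_col N g)]
  have hc' : g' 1 0 = (d : ℤ) * (g' 1 0 / (d : ℤ)) := by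
    rw [Int.mul_ediv_cancel' (hd' ▸ dg_dvd_col N g')]
  have hN : (N : ℤ) = (d : ℤ) * ((N / d : ℕ) : ℤ) := by
    rw [← Nat.cast_mul, Nat.mul_div_cancel' hdN]
  set c0 := g 1 0 / (d : ℤ) with hc0
  set c0' := g' 1 0 / (d : ℤ) with hc0'
  have key : g 0 0 * g' 1 0 - g 1 0 * g' 0 0 = (d : ℤ) * (g 0 0 * c0' - c0 * g' 0 0) := by
    rw [hc, hc']; ring
  rw [key, hN, Int.mul_dvd_mul_iff_left (by exact_mod_cast hdpos.ne'),
    ← ZMod.intCast_zmod_eq_zero_iff_dvd]
  unfold xd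
  rw [← hc0, ← hc0']
  push_cast
  obtain ⟨u, hu⟩ := hu
  obtain ⟨u', hu'⟩ := hu'
  rw [← hu, ← hu', ZMod.inv_coe_unit, ZMod.inv_coe_unit]
  exact unit_cross _ _ u u'

theorem exists_coprime_add_mul (v M d : ℕ) (hd : d ≠ 0) (h : Nat.Coprime (Nat.gcd v M) d) :
    ∃ t, Nat.Coprime (v + t * M) d := by
  refine ⟨∏ p ∈ d.primeFactors.filter (fun p => ¬ p ∣ v), p, ?_⟩
  apply Nat.coprime_of_dvd
  intro p hp hpv hpd
  by_cases hv : p ∣ v
  · -- then p ∤ M and p ∤ t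
    have hM : ¬ p ∣ M := by
      intro hM
      have h1 : p ∣ Nat.gcd (Nat.gcd v M) d := Nat.dvd_gcd (Nat.dvd_gcd hv hM) hpd
      rw [h] at h1
      exact hp.one_lt.ne' (Nat.dvd_one.mp h1)
    have ht : ¬ p ∣ ∏ q ∈ d.primeFactors.filter (fun q => ¬ q ∣ v), q := by
      intro ht
      rw [Prime.dvd_finsetProd_iff hp.prime] at ht
      obtain ⟨q, hq, hpq⟩ := ht
      rw [Finset.mem_filter, Nat.mem_primeFactors] at hq
      have : p = q := (Nat.prime_dvd_prime_iff_eq hp hq.1.1).mp hpq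
      exact hq.2 (this ▸ hv)
    have h2 : p ∣ (∏ q ∈ d.primeFactors.filter (fun q => ¬ q ∣ v), q) * M :=
      (Nat.dvd_add_right hv).mp hpv
    rcases (Nat.Prime.dvd_mul hp).mp h2 with h3 | h3
    · exact ht h3
    · exact hM h3
  · have ht : p ∣ ∏ q ∈ d.primeFactors.filter (fun q => ¬ q ∣ v), q := by
      apply Finset.dvd_prod_of_mem
      rw [Finset.mem_filter, Nat.mem_primeFactors]
      exact ⟨⟨hp, hpd, hd⟩, hv⟩
    exact hv ((Nat.dvd_add_left (ht.mul_right M)).mp hpv)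

/-- The invariant with a prescribed `d`. -/
noncomputable def inv' (d : ℕ) (g : SL(2, ℤ)) : (_ : ℕ) × ℕ := ⟨d, (xd N d g).val⟩

/-- The complete invariant of a coset. -/
noncomputable def inv (g : SL(2, ℤ)) : (_ : ℕ) × ℕ := inv' N (dg N g) g

theorem neZero_div [NeZero N] {d : ℕ} (hd : d ∣ N) : NeZero (N / d) :=
  ⟨(Nat.div_pos (Nat.le_of_dvd (Nat.pos_of_ne_zero (NeZero.ne N)) hd)
    (Nat.pos_of_dvd_of_pos hd (Nat.pos_of_ne_zero (NeZero.ne N)))).ne'⟩

theorem coset_eq_iff_inv [NeZero N] (g g' : SL(2, ℤ)) :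
    (QuotientGroup.mk g : SL(2, ℤ) ⧸ Gamma0 N) = QuotientGroup.mk g' ↔ inv N g = inv N g' := by
  rw [coset_eq_iff]
  constructor
  · intro h
    have e := dg_eq_of_dvd N h
    have h2 := (dvd_iff_xd_eq N rfl e.symm).mp h
    unfold inv
    rw [← e]
    unfold inv'
    rw [h2]
  · intro h
    unfold inv inv' at h
    have e : dg N g = dg N g' := congrArg Sigma.fst h
    rw [← e] at h
    have h2 : (xd N (dg N g) g).val = (xd N (dg N g) g').val := by
      simpa using h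
    have := neZero_div N (dg_dvd N g)
    exact (dvd_iff_xd_eq N rfl e.symm).mpr (ZMod.val_injective _ h2)


/-- The finite set of possible invariants. -/
def invSet : Finset ((_ : ℕ) × ℕ) :=
  N.divisors.sigma fun d => (Finset.range (N / d)).filter fun v => (Nat.gcd d (N / d)).Coprime v

theorem inv_mem_invSet [NeZero N] (g : SL(2, ℤ)) : inv N g ∈ invSet N := by
  have hdN := dg_dvd N g
  have := neZero_div N hdN
  unfold invSet inv inv'
  rw [Finset.mem_sigma, Finset.mem_filter, Finset.mem_range, Nat.mem_divisors]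
  refine ⟨⟨hdN, NeZero.ne N⟩, ZMod.val_lt _, ?_⟩
  set d := dg N g with hd
  set M := N / d with hM
  have hgM : Nat.gcd d M ∣ M := Nat.gcd_dvd_right _ _
  have hu := isUnit_c0 N g hd.symm
  -- image in `ZMod (gcd d M)` is a unit
  have h1 : IsUnit (ZMod.castHom hgM (ZMod (Nat.gcd d M)) (xd N d g)) := by
    unfold xd
    rw [map_mul]
    refine IsUnit.mul ?_ (IsUnit.map _ (ZMod.isUnit_inv hu))
    rw [map_intCast, ZMod.coe_int_isUnit_iff_isCoprime]
    have h2 : ((Nat.gcd d M : ℕ) : ℤ) ∣ g 1 0 :=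
      (Int.natCast_dvd_natCast.mpr (Nat.gcd_dvd_left d M)).trans (dg_dvd_col N g)
    exact IsCoprime.of_isCoprime_of_dvd_left (isCoprime_col g).symm h2
  rw [ZMod.castHom_apply, ← ZMod.natCast_val, ZMod.isUnit_iff_coprime] at h1
  exact h1.symm

theorem exists_inv_eq [NeZero N] {d v : ℕ} (hd : d ∣ N) (hv : v < N / d)
    (hc : (Nat.gcd d (N / d)).Coprime v) : ∃ g : SL(2, ℤ), inv N g = ⟨d, v⟩ := by
  have hd0 : d ≠ 0 := fun h => NeZero.ne N (by simpa [h] using hd)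
  have := neZero_div N hd
  obtain ⟨t, ht⟩ := exists_coprime_add_mul v (N / d) d hd0 (by
    rw [Nat.Coprime, Nat.gcd_assoc, Nat.gcd_comm (N / d) d, Nat.gcd_comm]
    exact hc)
  have hcop : IsCoprime ((v + t * (N / d) : ℕ) : ℤ) (d : ℤ) := Nat.isCoprime_iff_coprime.mpr ht
  obtain ⟨u, w, huw⟩ := hcop
  let g : SL(2, ℤ) := ⟨!![((v + t * (N / d) : ℕ) : ℤ), -w; (d : ℤ), u], by
    rw [Matrix.det_fin_two_of]; linear_combination huw⟩
  have hg00 : g 0 0 = ((v + t * (N / d) : ℕ) : ℤ) := rfl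
  have hg10 : g 1 0 = (d : ℤ) := rfl
  have hdg : dg N g = d := by
    unfold dg
    rw [hg10, Int.gcd_natCast_natCast]
    exact Nat.gcd_eq_left hd
  refine ⟨g, ?_⟩
  unfold inv
  rw [hdg]
  unfold inv' xd
  rw [hg00, hg10, Int.ediv_self (by exact_mod_cast hd0)]
  congr 1
  simp only [Nat.cast_add, Nat.cast_mul, Int.cast_add, Int.cast_natCast, Int.cast_mul,
    ZMod.natCast_self, mul_zero, add_zero, Int.cast_one, ZMod.inv_one, mul_one]
  exact ZMod.val_cast_of_lt hv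


theorem card_eq_of_inj_range {α β : Type*} (f : α → β) (s : Finset β)
    (hinj : Function.Injective f) (hrange : ∀ b, b ∈ s ↔ ∃ a, f a = b) :
    Nat.card α = s.card := by
  have h1 : Set.range f = (s : Set β) := by
    ext b
    simp only [Set.mem_range, Finset.mem_coe]
    exact (hrange b).symm
  rw [← Nat.card_range_of_injective hinj, h1]
  exact Nat.card_eq_finsetCard s

theorem inv_out [NeZero N] (g : SL(2, ℤ)) :
    inv N (Quotient.out (QuotientGroup.mk g : SL(2, ℤ) ⧸ Gamma0 N)) = inv N g :=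
  (coset_eq_iff_inv N _ _).mp (QuotientGroup.out_eq' _)

theorem card_quotient [NeZero N] : Nat.card (SL(2, ℤ) ⧸ Gamma0 N) = (invSet N).card := by
  refine card_eq_of_inj_range (fun w : SL(2, ℤ) ⧸ Gamma0 N => inv N (Quotient.out w)) _ ?_ ?_
  · intro w w' h
    have := (coset_eq_iff_inv N _ _).mpr h
    rwa [QuotientGroup.out_eq', QuotientGroup.out_eq'] at this
  · rintro ⟨d, v⟩
    constructor
    · intro h
      unfold invSet at h
      rw [Finset.mem_sigma, Finset.mem_filter, Finset.mem_range, Nat.mem_divisors] at h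
      obtain ⟨g, hg⟩ := exists_inv_eq N h.1.1 h.2.1 h.2.2
      exact ⟨QuotientGroup.mk g, by rw [← hg]; exact inv_out N g⟩
    · rintro ⟨w, hw⟩
      rw [← hw]
      exact inv_mem_invSet N _

/-! ### Counting: the index formula -/

theorem count_coprime_range (g k : ℕ) :
    ((Finset.range (g * k)).filter fun v => g.Coprime v).card = k * g.totient := by
  induction k with
  | zero => simp
  | succ k ih =>
    have h1 : Finset.range (g * (k + 1)) =
        Finset.range (g * k) ∪ Finset.Ico (g * k) (g * k + g) := by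
      rw [Finset.range_eq_Ico, Finset.range_eq_Ico, mul_add, mul_one,
        Finset.Ico_union_Ico_eq_Ico (Nat.zero_le _) (Nat.le_add_right _ _)]
    rw [h1, Finset.filter_union, Finset.card_union_of_disjoint, ih,
      Nat.filter_coprime_Ico_eq_totient]
    · ring
    · apply Finset.disjoint_filter_filter
      rw [Finset.range_eq_Ico]
      exact Finset.Ico_disjoint_Ico_consecutive 0 (g * k) (g * k + g)

theorem count_coprime_range' {g M : ℕ} (h : g ∣ M) :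
    ((Finset.range M).filter fun v => g.Coprime v).card = M / g * g.totient := by
  obtain ⟨k, rfl⟩ := h
  rw [count_coprime_range]
  rcases Nat.eq_zero_or_pos g with h0 | h0
  · subst h0; simp
  · rw [Nat.mul_div_cancel_left _ h0]

/-- The summand in the coset count. -/
def psiTerm (n d : ℕ) : ℕ := (n / d / Nat.gcd d (n / d)) * (Nat.gcd d (n / d)).totient

theorem card_invSet : (invSet N).card = ∑ d ∈ N.divisors, psiTerm N d := by
  unfold invSet
  rw [Finset.card_sigma]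
  refine Finset.sum_congr rfl fun d _ => ?_
  exact count_coprime_range' (Nat.gcd_dvd_right d (N / d))


theorem sum_divisors_mul_coprime {a b : ℕ} (hab : a.Coprime b) (F : ℕ → ℕ) :
    ∑ d ∈ (a * b).divisors, F d = ∑ d₁ ∈ a.divisors, ∑ d₂ ∈ b.divisors, F (d₁ * d₂) := by
  rw [Nat.Coprime.divisors_mul hab, Finset.sum_map]
  exact (Finset.sum_attach (a.divisors ×ˢ b.divisors) (fun p : ℕ × ℕ => F (p.1 * p.2))).trans
    (Finset.sum_product _ _ _)

theorem psiTerm_mul {a b d₁ d₂ : ℕ} (hab : a.Coprime b) (h₁ : d₁ ∣ a) (h₂ : d₂ ∣ b) :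
    psiTerm (a * b) (d₁ * d₂) = psiTerm a d₁ * psiTerm b d₂ := by
  unfold psiTerm
  have hA : a / d₁ ∣ a := Nat.div_dvd_of_dvd h₁
  have hB : b / d₂ ∣ b := Nat.div_dvd_of_dvd h₂
  have e1 : a * b / (d₁ * d₂) = a / d₁ * (b / d₂) := Nat.mul_div_mul_comm h₁ h₂
  have cAB : (a / d₁).Coprime (b / d₂) := (hab.coprime_dvd_left hA).coprime_dvd_right hB
  have c1 : d₂.Coprime (a / d₁) := (hab.coprime_dvd_left hA).symm.coprime_dvd_left h₂
  have c2 : d₁.Coprime (b / d₂) := (hab.coprime_dvd_left h₁).coprime_dvd_right hB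
  have e2 : Nat.gcd (d₁ * d₂) (a / d₁ * (b / d₂)) =
      Nat.gcd d₁ (a / d₁) * Nat.gcd d₂ (b / d₂) := by
    rw [Nat.Coprime.gcd_mul _ cAB, Nat.Coprime.gcd_mul_right_cancel _ c1,
      Nat.Coprime.gcd_mul_left_cancel _ c2]
  have cg : (Nat.gcd d₁ (a / d₁)).Coprime (Nat.gcd d₂ (b / d₂)) :=
    (cAB.coprime_dvd_left (Nat.gcd_dvd_right _ _)).coprime_dvd_right (Nat.gcd_dvd_right _ _)
  rw [e1, e2, Nat.totient_mul cg,
    Nat.mul_div_mul_comm (Nat.gcd_dvd_right _ _) (Nat.gcd_dvd_right _ _)]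
  ring

/-- The summand of `dedekindPsi`. -/
def sqTerm (n d : ℕ) : ℕ := if Squarefree d then n / d else 0

theorem dedekindPsi_eq_sum (n : ℕ) :
    ModularCurve.dedekindPsi n = ∑ d ∈ n.divisors, sqTerm n d := by
  unfold ModularCurve.dedekindPsi sqTerm
  rw [Finset.sum_filter]

theorem sqTerm_mul {a b d₁ d₂ : ℕ} (hab : a.Coprime b) (h₁ : d₁ ∣ a) (h₂ : d₂ ∣ b) :
    sqTerm (a * b) (d₁ * d₂) = sqTerm a d₁ * sqTerm b d₂ := by
  unfold sqTerm
  have c : d₁.Coprime d₂ := (hab.coprime_dvd_left h₁).coprime_dvd_right h₂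
  rw [Nat.mul_div_mul_comm h₁ h₂]
  by_cases hs1 : Squarefree d₁ <;> by_cases hs2 : Squarefree d₂ <;>
    simp [Nat.squarefree_mul c, hs1, hs2]

theorem sum_mul_of_mul {F : ℕ → ℕ → ℕ}
    (hF : ∀ {a b d₁ d₂ : ℕ}, a.Coprime b → d₁ ∣ a → d₂ ∣ b →
      F (a * b) (d₁ * d₂) = F a d₁ * F b d₂) {a b : ℕ} (hab : a.Coprime b) :
    ∑ d ∈ (a * b).divisors, F (a * b) d =
      (∑ d ∈ a.divisors, F a d) * ∑ d ∈ b.divisors, F b d := by
  rw [sum_divisors_mul_coprime hab, Finset.sum_mul_sum]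
  refine Finset.sum_congr rfl fun d₁ h₁ => Finset.sum_congr rfl fun d₂ h₂ => ?_
  exact hF hab (Nat.dvd_of_mem_divisors h₁) (Nat.dvd_of_mem_divisors h₂)


theorem sum_sqTerm_prime_pow {p k : ℕ} (hp : p.Prime) (hk : 0 < k) :
    ∑ d ∈ (p ^ k).divisors, sqTerm (p ^ k) d = p ^ k + p ^ (k - 1) := by
  obtain ⟨m, rfl⟩ : ∃ m, k = m + 1 := ⟨k - 1, by omega⟩
  rw [Nat.sum_divisors_prime_pow hp, Finset.sum_range_succ', Finset.sum_range_succ']
  have h0 : ∀ j ∈ Finset.range m, sqTerm (p ^ (m + 1)) (p ^ (j + 1 + 1)) = 0 := by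
    intro j _
    unfold sqTerm
    rw [if_neg]
    rw [Nat.squarefree_pow_iff hp.ne_one (by omega)]
    omega
  rw [Finset.sum_eq_zero h0]
  unfold sqTerm
  rw [if_pos (by simpa using hp.squarefree), if_pos (by simp)]
  simp only [zero_add, pow_one, pow_zero, Nat.div_one, Nat.add_sub_cancel]
  rw [pow_succ, Nat.mul_div_cancel _ hp.pos]
  ring

theorem psiTerm_prime_pow_mid {p k j : ℕ} (hp : p.Prime) (hj : 0 < j) (hjk : j < k) :
    psiTerm (p ^ k) (p ^ j) + p ^ (k - j - 1) = p ^ (k - j) := by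
  unfold psiTerm
  rw [Nat.pow_div hjk.le hp.pos]
  obtain ⟨q, hq⟩ : ∃ q, p = q + 1 := ⟨p - 1, by have := hp.pos; omega⟩
  rcases le_or_gt j (k - j) with h | h
  · rw [Nat.gcd_eq_left (pow_dvd_pow p h), Nat.pow_div h hp.pos, Nat.totient_prime_pow hp hj]
    obtain ⟨i, rfl⟩ : ∃ i, j = i + 1 := ⟨j - 1, by omega⟩
    obtain ⟨e, he⟩ : ∃ e, k = (i + 1) + (i + 1) + e := ⟨k - (i + 1) - (i + 1), by omega⟩
    subst he
    have e1 : i + 1 + (i + 1) + e - (i + 1) - (i + 1) = e := by omega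
    have e2 : i + 1 + (i + 1) + e - (i + 1) - 1 = i + e := by omega
    have e3 : i + 1 + (i + 1) + e - (i + 1) = i + 1 + e := by omega
    have e4 : p - 1 = q := by omega
    rw [e1, e2, e3, e4, Nat.add_sub_cancel, hq]
    ring
  · have hr : 0 < k - j := by omega
    rw [Nat.gcd_eq_right (pow_dvd_pow p h.le), Nat.div_self (pow_pos hp.pos _),
      Nat.totient_prime_pow hp hr]
    obtain ⟨r, hr'⟩ : ∃ r, k - j = r + 1 := ⟨k - j - 1, by omega⟩
    have e4 : p - 1 = q := by omega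
    rw [hr', e4, Nat.add_sub_cancel, hq]
    ring

theorem sum_psiTerm_prime_pow {p k : ℕ} (hp : p.Prime) (hk : 0 < k) :
    ∑ d ∈ (p ^ k).divisors, psiTerm (p ^ k) d = p ^ k + p ^ (k - 1) := by
  rw [Nat.sum_divisors_prime_pow hp]
  -- partial sums
  have key : ∀ m, m < k →
      ∑ j ∈ Finset.Ico 1 (m + 1), psiTerm (p ^ k) (p ^ j) + p ^ (k - (m + 1)) = p ^ (k - 1) := by
    intro m
    induction m with
    | zero => intro _; simp
    | succ m ih =>
      intro hm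
      have h1 := ih (by omega)
      rw [Finset.sum_Ico_succ_top (by omega), add_assoc]
      have h2 := psiTerm_prime_pow_mid (k := k) (j := m + 1) hp (by omega) hm
      have e : k - (m + 1) - 1 = k - (m + 1 + 1) := by omega
      rw [e] at h2
      rw [h2]
      exact h1
  have hlast := key (k - 1) (by omega)
  have e : k - 1 + 1 = k := by omega
  rw [e, Nat.sub_self, pow_zero] at hlast
  rw [Finset.sum_range_succ, Finset.range_eq_Ico, Finset.sum_eq_sum_Ico_succ_bot hk]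
  have t0 : psiTerm (p ^ k) (p ^ 0) = p ^ k := by
    unfold psiTerm
    simp
  have tk : psiTerm (p ^ k) (p ^ k) = 1 := by
    unfold psiTerm
    rw [Nat.div_self (pow_pos hp.pos _)]
    simp
  rw [t0, tk, zero_add, add_assoc, hlast]


theorem sum_psiTerm_eq_dedekindPsi (n : ℕ) :
    ∑ d ∈ n.divisors, psiTerm n d = ModularCurve.dedekindPsi n := by
  rw [dedekindPsi_eq_sum]
  induction n using Nat.recOnPosPrimePosCoprime with
  | prime_pow p k hp hk => rw [sum_psiTerm_prime_pow hp hk, sum_sqTerm_prime_pow hp hk]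
  | zero => simp
  | one => simp [psiTerm, sqTerm]
  | coprime a b _ _ hab iha ihb =>
    rw [sum_mul_of_mul (F := psiTerm) psiTerm_mul hab, sum_mul_of_mul (F := sqTerm) sqTerm_mul hab,
      iha, ihb]

/-- **(F1)** The index of `Γ₀(N)` in `SL(2, ℤ)` is `ψ(N)`. -/
theorem index_Gamma0 [NeZero N] : (Gamma0 N).index = ModularCurve.dedekindPsi N := by
  rw [Subgroup.index, card_quotient, card_invSet, sum_psiTerm_eq_dedekindPsi]

theorem card_quotient_eq [NeZero N] :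
    Nat.card (SL(2, ℤ) ⧸ Gamma0 N) = ModularCurve.dedekindPsi N :=
  index_Gamma0 N

/-! ### Orbits of `T` -/

theorem dg_T_zpow_mul (n : ℤ) (g : SL(2, ℤ)) : dg N (T ^ n * g) = dg N g := by
  unfold dg
  rw [(T_zpow_mul_col n g).2]

theorem xd_T_zpow_mul [NeZero N] (n : ℤ) (g : SL(2, ℤ)) {d : ℕ} (hd : dg N g = d) :
    xd N d (T ^ n * g) = xd N d g + (n : ZMod (N / d)) * (d : ZMod (N / d)) := by
  have hu := isUnit_c0 N g hd
  unfold xd
  rw [(T_zpow_mul_col n g).1, (T_zpow_mul_col n g).2]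
  have hc : g 1 0 = (d : ℤ) * (g 1 0 / (d : ℤ)) := by
    rw [Int.mul_ediv_cancel' (hd ▸ dg_dvd_col N g)]
  set c0 := g 1 0 / (d : ℤ) with hc0
  have h1 : ((g 0 0 + n * g 1 0 : ℤ) : ZMod (N / d)) =
      ((g 0 0 : ℤ) : ZMod (N / d)) + (n : ZMod (N / d)) * (d : ZMod (N / d)) * (c0 : ZMod (N / d)) := by
    rw [hc]; push_cast; ring
  rw [h1, add_mul, mul_assoc, mul_assoc, ZMod.mul_inv_of_unit _ hu, mul_one]

/-- Reduction of the invariant modulo the `T`-action. -/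
def red : ((_ : ℕ) × ℕ) → ((_ : ℕ) × ℕ) := fun x => ⟨x.1, x.2 % Nat.gcd x.1 (N / x.1)⟩

/-- The complete invariant of a `T`-orbit of cosets. -/
noncomputable def inv2 (g : SL(2, ℤ)) : (_ : ℕ) × ℕ := red N (inv N g)

theorem val_mod_eq_of_add [NeZero N] {d : ℕ} (hd : d ∣ N) (x : ZMod (N / d)) (n : ZMod (N / d)) :
    (x + n * (d : ZMod (N / d))).val % Nat.gcd d (N / d) = x.val % Nat.gcd d (N / d) := by
  have := neZero_div N hd
  have hgM : Nat.gcd d (N / d) ∣ N / d := Nat.gcd_dvd_right _ _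
  have key : ∀ y : ZMod (N / d), (y.cast : ZMod (Nat.gcd d (N / d))) =
      ZMod.castHom hgM (ZMod (Nat.gcd d (N / d))) y := fun y => rfl
  rw [← ZMod.natCast_eq_natCast_iff', ZMod.natCast_val, ZMod.natCast_val,
    key, key, map_add, map_mul, map_natCast,
    (ZMod.natCast_eq_zero_iff d (Nat.gcd d (N / d))).mpr (Nat.gcd_dvd_left _ _), mul_zero,
    add_zero]

theorem inv2_T_zpow_mul [NeZero N] (n : ℤ) (g : SL(2, ℤ)) : inv2 N (T ^ n * g) = inv2 N g := by
  unfold inv2 inv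
  rw [dg_T_zpow_mul]
  unfold inv' red
  simp only
  rw [xd_T_zpow_mul N n g rfl, val_mod_eq_of_add N (dg_dvd N g)]

theorem exists_zpow_of_inv2_eq [NeZero N] {g g' : SL(2, ℤ)} (h : inv2 N g = inv2 N g') :
    ∃ n : ℤ, inv N (T ^ n * g) = inv N g' := by
  unfold inv2 inv inv' red at h
  simp only at h
  have e : dg N g = dg N g' := congrArg Sigma.fst h
  rw [← e] at h
  have h2 : (xd N (dg N g) g).val % Nat.gcd (dg N g) (N / dg N g) =
      (xd N (dg N g) g').val % Nat.gcd (dg N g) (N / dg N g) := by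
    simpa using h
  set d := dg N g with hd
  have hdN : d ∣ N := dg_dvd N g
  have := neZero_div N hdN
  set M := N / d with hM
  set gg := Nat.gcd d M with hgg
  -- x' - x is a multiple of gg in ZMod M
  obtain ⟨k, hk⟩ : ∃ k : ℤ, ((xd N d g').val : ℤ) - ((xd N d g).val : ℤ) = (gg : ℤ) * k := by
    have h3 : ((xd N d g).val : ℤ) ≡ ((xd N d g').val : ℤ) [ZMOD (gg : ℤ)] := by
      exact Int.natCast_modEq_iff.mpr h2
    exact h3.dvd
  have hk' : xd N d g' - xd N d g = (gg : ZMod M) * (k : ZMod M) := by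
    have := congrArg (Int.cast : ℤ → ZMod M) hk
    push_cast at this
    rwa [ZMod.natCast_zmod_val, ZMod.natCast_zmod_val] at this
  have hbez : (gg : ZMod M) = (d : ZMod M) * ((Nat.gcdA d M : ℤ) : ZMod M) := by
    have h4 := Nat.gcd_eq_gcd_ab d M
    have := congrArg (Int.cast : ℤ → ZMod M) h4
    push_cast at this
    rw [ZMod.natCast_self, zero_mul, add_zero] at this
    exact this
  refine ⟨Nat.gcdA d M * k, ?_⟩
  unfold inv
  rw [dg_T_zpow_mul, ← e]
  unfold inv'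
  rw [xd_T_zpow_mul N _ g rfl]
  have : xd N d g + ((Nat.gcdA d M * k : ℤ) : ZMod M) * (d : ZMod M) = xd N d g' := by
    push_cast
    linear_combination -(k : ZMod M) * hbez - hk'
  rw [← hd, this]


/-- The finite set of invariants of `T`-orbits. -/
def cuspSet : Finset ((_ : ℕ) × ℕ) :=
  N.divisors.sigma fun d =>
    (Finset.range (Nat.gcd d (N / d))).filter fun r => (Nat.gcd d (N / d)).Coprime r

theorem card_cuspSet : (cuspSet N).card = ModularCurve.cuspCount N := by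
  unfold cuspSet ModularCurve.cuspCount
  rw [Finset.card_sigma]
  refine Finset.sum_congr rfl fun d _ => ?_
  rw [Nat.totient_eq_card_coprime]

theorem red_mem_cuspSet [NeZero N] {x : (_ : ℕ) × ℕ} (hx : x ∈ invSet N) : red N x ∈ cuspSet N := by
  obtain ⟨d, v⟩ := x
  unfold invSet at hx
  rw [Finset.mem_sigma, Finset.mem_filter, Finset.mem_range, Nat.mem_divisors] at hx
  unfold cuspSet red
  rw [Finset.mem_sigma, Finset.mem_filter, Finset.mem_range, Nat.mem_divisors]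
  have hd0 : 0 < d := Nat.pos_of_dvd_of_pos hx.1.1 (Nat.pos_of_ne_zero hx.1.2)
  have hg0 : 0 < Nat.gcd d (N / d) := Nat.gcd_pos_of_pos_left _ hd0
  refine ⟨hx.1, Nat.mod_lt _ hg0, ?_⟩
  have h1 : Nat.gcd (v % Nat.gcd d (N / d)) (Nat.gcd d (N / d)) = Nat.gcd v (Nat.gcd d (N / d)) :=
    (Nat.mod_modEq v _).gcd_eq
  have h2 : Nat.gcd v (Nat.gcd d (N / d)) = 1 := Nat.Coprime.symm hx.2.2
  exact Nat.Coprime.symm (h1.trans h2)

theorem exists_inv2_eq [NeZero N] {x : (_ : ℕ) × ℕ} (hx : x ∈ cuspSet N) :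
    ∃ g : SL(2, ℤ), inv2 N g = x := by
  obtain ⟨d, r⟩ := x
  unfold cuspSet at hx
  rw [Finset.mem_sigma, Finset.mem_filter, Finset.mem_range, Nat.mem_divisors] at hx
  have := neZero_div N hx.1.1
  have hle : Nat.gcd d (N / d) ≤ N / d :=
    Nat.le_of_dvd (Nat.pos_of_ne_zero (NeZero.ne _)) (Nat.gcd_dvd_right _ _)
  obtain ⟨g, hg⟩ := exists_inv_eq N hx.1.1 (lt_of_lt_of_le hx.2.1 hle) hx.2.2
  refine ⟨g, ?_⟩
  unfold inv2
  rw [hg]
  unfold red
  simp only
  rw [Nat.mod_eq_of_lt hx.2.1]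

/-- The orbit invariant on cosets. -/
noncomputable def inv2Q (w : SL(2, ℤ) ⧸ Gamma0 N) : (_ : ℕ) × ℕ := inv2 N (Quotient.out w)

theorem inv2Q_mk [NeZero N] (g : SL(2, ℤ)) : inv2Q N (QuotientGroup.mk g) = inv2 N g := by
  unfold inv2Q inv2
  rw [inv_out]

theorem orbitRel_iff [NeZero N] (w w' : SL(2, ℤ) ⧸ Gamma0 N) :
    MulAction.orbitRel (Subgroup.zpowers T) (SL(2, ℤ) ⧸ Gamma0 N) w w' ↔
      inv2Q N w = inv2Q N w' := by
  obtain ⟨g, rfl⟩ := QuotientGroup.mk_surjective w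
  obtain ⟨g', rfl⟩ := QuotientGroup.mk_surjective w'
  rw [inv2Q_mk, inv2Q_mk, MulAction.orbitRel_apply, MulAction.mem_orbit_iff]
  constructor
  · rintro ⟨⟨t, n, rfl⟩, hn⟩
    have h1 : (QuotientGroup.mk (T ^ n * g') : SL(2, ℤ) ⧸ Gamma0 N) = QuotientGroup.mk g := hn
    have h2 := (coset_eq_iff_inv N _ _).mp h1
    have h3 : inv2 N (T ^ n * g') = inv2 N g := by unfold inv2; rw [h2]
    rw [← h3, inv2_T_zpow_mul]
  · intro h
    obtain ⟨n, hn⟩ := exists_zpow_of_inv2_eq N h.symm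
    exact ⟨⟨T ^ n, n, rfl⟩, (coset_eq_iff_inv N _ _).mpr hn⟩

/-- **(F4)** The number of orbits of `⟨T⟩` on `SL(2, ℤ) ⧸ Γ₀(N)` is `cuspCount N`. -/
theorem card_orbits_T [NeZero N] :
    Nat.card (MulAction.orbitRel.Quotient (Subgroup.zpowers T) (SL(2, ℤ) ⧸ Gamma0 N)) =
      ModularCurve.cuspCount N := by
  rw [← card_cuspSet]
  refine card_eq_of_inj_range
    (fun q : MulAction.orbitRel.Quotient (Subgroup.zpowers T) (SL(2, ℤ) ⧸ Gamma0 N) =>
      inv2Q N (Quotient.out q)) _ ?_ ?_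
  · intro q q' h
    have h1 := (orbitRel_iff N _ _).mpr h
    have h2 : (Quotient.mk _ (Quotient.out q) :
        MulAction.orbitRel.Quotient (Subgroup.zpowers T) (SL(2, ℤ) ⧸ Gamma0 N)) =
        Quotient.mk _ (Quotient.out q') := Quotient.sound h1
    rwa [Quotient.out_eq, Quotient.out_eq] at h2
  · intro x
    constructor
    · intro hx
      obtain ⟨g, hg⟩ := exists_inv2_eq N hx
      refine ⟨Quotient.mk _ (QuotientGroup.mk g), ?_⟩
      have h1 : MulAction.orbitRel (Subgroup.zpowers T) (SL(2, ℤ) ⧸ Gamma0 N)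
          (Quotient.out (Quotient.mk (MulAction.orbitRel (Subgroup.zpowers T)
            (SL(2, ℤ) ⧸ Gamma0 N)) (QuotientGroup.mk g))) (QuotientGroup.mk g) :=
        Quotient.exact (Quotient.out_eq _)
      show inv2Q N (Quotient.out (Quotient.mk _ (QuotientGroup.mk g))) = x
      rw [(orbitRel_iff N _ _).mp h1, inv2Q_mk, hg]
    · rintro ⟨q, hq⟩
      rw [← hq]
      exact red_mem_cuspSet N (inv_mem_invSet N _)

/-- `T ^ N` acts trivially on `SL(2, ℤ) ⧸ Γ₀(N)`. -/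
theorem T_pow_smul (w : SL(2, ℤ) ⧸ Gamma0 N) : (T ^ (N : ℤ)) • w = w := by
  obtain ⟨g, rfl⟩ := QuotientGroup.mk_surjective w
  rw [MulAction.Quotient.smul_mk, smul_eq_mul, coset_eq_iff, (T_zpow_mul_col _ g).1,
    (T_zpow_mul_col _ g).2]
  exact ⟨g 1 0 * g 1 0, by ring⟩

end Fermat.Agent.S20.Cosets
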