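import Fermat.Agent.S20.CuspData

/-!
# S20 library: definitions at the cusp

`T` acts on the coset space `Ω = SL(2,ℤ) ⧸ Γ`; the vector of translates `V_f(z) = (tr Γ k f q z)_q`
satisfies `V_f(z+1) = V_f(z) ∘ (T⁻¹ • ·)`.  We diagonalize this permutation action by a constant
matrix `C` (eigenvalues `e^{2πi θ_q}`, `0 ≤ θ_q < 1`), so that
`cuspFun q z = e^{-2πi θ_q z} (C V_f(z))_q` is `1`-periodic and `O(|e^{2πiz}|^{-θ_q})`, hence has a
limit `cuspVec q` at `i∞` (removable singularity in `e^{2πiz}`).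
-/

open UpperHalfPlane ModularForm Filter Matrix
open scoped MatrixGroups ModularForm Manifold Topology Real

namespace Fermat.Agent.S20

/-- `C`-coordinates of the vector of translates, with the exponential factor removed. -/
noncomputable def cuspFun (Γ : Subgroup SL(2, ℤ)) [Γ.FiniteIndex] (k : ℤ) (f : ℍ → ℂ)
    (q : SL(2, ℤ) ⧸ Γ) (z : ℍ) : ℂ :=
  Complex.exp (-(2 * π * Complex.I * (cuspData Γ).θ q * z)) *
    ((cuspData Γ).C *ᵥ fun q' => tr Γ k f q' z) q

/-- the "value at the cusp" of `f`, in `C`-coordinates -/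
noncomputable def cuspVec (Γ : Subgroup SL(2, ℤ)) [Γ.FiniteIndex] (k : ℤ) (f : ℍ → ℂ)
    (q : SL(2, ℤ) ⧸ Γ) : ℂ :=
  limUnder atImInfty (cuspFun Γ k f q)

end Fermat.Agent.S20
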