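import Fermat.Agent.S20.LevelOneDefs
import Fermat.Agent.S20.CuspDefs

/-!
# S20 library: structure at the cusp   (OWNER: helper16)

`T` acts on the coset space `Ω = SL(2,ℤ) ⧸ Γ`; the vector of translates `V_f(z) = (tr Γ k f q z)_q`
satisfies `V_f(z+1) = V_f(z) ∘ (T⁻¹ • ·)`.  We diagonalize this permutation action by a constant
matrix `C` (eigenvalues `e^{2πi θ_q}`, `0 ≤ θ_q < 1`), so that
`cuspFun q z = e^{-2πi θ_q z} (C V_f(z))_q` is `1`-periodic and `O(|e^{2πiz}|^{-θ_q})`, hence has a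
limit `cuspVec q` at `i∞` (removable singularity in `e^{2πiz}`).

Implementation: `e^{2πiz} · cuspFun` is `1`-periodic, holomorphic and tends to `0` at `i∞`
(as `θ_q < 1`), hence is `O(e^{-2π Im z})` by Mathlib's `q`-expansion principle; so `cuspFun` itself
is bounded at `i∞`, and the `q`-expansion principle applies to it.
-/

open UpperHalfPlane ModularForm Filter Matrix
open scoped MatrixGroups ModularForm Manifold Topology Real

namespace Fermat.Agent.S20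

variable {Γ : Subgroup SL(2, ℤ)} [Γ.FiniteIndex] {k l : ℤ} {f g : ℍ → ℂ}

namespace Cusp

theorem denom_T (z : ℍ) : denom ModularGroup.T z = 1 := by
  rw [ModularGroup.denom_apply]
  simp [ModularGroup.T]

/-- translates under `z ↦ z + 1` -/
theorem tr_T_smul {Γ : Subgroup SL(2, ℤ)} {k : ℤ} {f : ℍ → ℂ} (hf : ∀ γ ∈ Γ, f ∣[k] γ = f)
    (q : SL(2, ℤ) ⧸ Γ) (z : ℍ) :
    tr Γ k f q (ModularGroup.T • z) = tr Γ k f (ModularGroup.T⁻¹ • q) z := by
  rw [tr_smul_apply hf, denom_T, _root_.one_zpow, one_mul]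

theorem cuspFun_T_smul (hf : ∀ γ ∈ Γ, f ∣[k] γ = f) (q : SL(2, ℤ) ⧸ Γ) (z : ℍ) :
    cuspFun Γ k f q (ModularGroup.T • z) = cuspFun Γ k f q z := by
  unfold cuspFun
  have e := (cuspData Γ).eigen (fun q'' => tr Γ k f q'' z) q
  have h1 : (fun q' => tr Γ k f q' (ModularGroup.T • z))
      = fun q' => tr Γ k f (ModularGroup.T⁻¹ • q') z := funext fun q' => tr_T_smul hf q' z
  rw [h1, show ((cuspData Γ).C *ᵥ fun q' => tr Γ k f (ModularGroup.T⁻¹ • q') z) q = _ from e,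
    ← mul_assoc, ← Complex.exp_add]
  congr 2
  rw [UpperHalfPlane.modular_T_smul, UpperHalfPlane.coe_vadd]
  push_cast
  ring

/-- `T`-invariant functions on `ℍ` are `1`-periodic -/
theorem periodic_of_T_smul {G : ℍ → ℂ} (h : ∀ z : ℍ, G (ModularGroup.T • z) = G z) :
    Function.Periodic (G ∘ ofComplex) ((1 : ℝ) : ℂ) := by
  intro w
  by_cases hw : 0 < w.im
  · have hw' : 0 < (w + ((1 : ℝ) : ℂ)).im := by simpa using hw
    simp only [Function.comp_apply, ofComplex_apply_of_im_pos hw', ofComplex_apply_of_im_pos hw]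
    rw [← h ⟨w, hw⟩]
    congr 1
    ext
    rw [UpperHalfPlane.modular_T_smul, UpperHalfPlane.coe_vadd]
    simp [add_comm]
  · have hw0 : w.im ≤ 0 := not_lt.mp hw
    have hw' : (w + ((1 : ℝ) : ℂ)).im ≤ 0 := by simpa using hw0
    rw [Function.comp_apply, Function.comp_apply, ofComplex_apply_of_im_nonpos hw',
      ofComplex_apply_of_im_nonpos hw0]

theorem cuspFun_periodic (hf : ∀ γ ∈ Γ, f ∣[k] γ = f) (q : SL(2, ℤ) ⧸ Γ) :
    Function.Periodic (cuspFun Γ k f q ∘ ofComplex) ((1 : ℝ) : ℂ) :=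
  periodic_of_T_smul (cuspFun_T_smul hf q)

/-- the `C`-coordinates of the vector of translates -/
noncomputable def cvec (Γ : Subgroup SL(2, ℤ)) [Γ.FiniteIndex] (k : ℤ) (f : ℍ → ℂ)
    (q : SL(2, ℤ) ⧸ Γ) : ℍ → ℂ :=
  fun z => ((cuspData Γ).C *ᵥ fun q' => tr Γ k f q' z) q

theorem cvec_eq_sum (q : SL(2, ℤ) ⧸ Γ) :
    cvec Γ k f q = ∑ q', (cuspData Γ).C q q' • tr Γ k f q' := by
  funext z
  simp [cvec, Matrix.mulVec, dotProduct]

theorem mdiff_cvec (hf : IsMF Γ k f) (q : SL(2, ℤ) ⧸ Γ) : MDiff (cvec Γ k f q) := by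
  rw [cvec_eq_sum]
  exact MDifferentiable.sum fun q' _ => (hf.tr_holo q').const_smul _

theorem bdd_cvec (hf : IsMF Γ k f) (q : SL(2, ℤ) ⧸ Γ) : IsBoundedAtImInfty (cvec Γ k f q) := by
  rw [cvec_eq_sum]
  exact (Filter.boundedFilterSubmodule ℂ atImInfty).sum_mem fun q' _ =>
    Filter.BoundedAtFilter.smul _ (hf.tr_bdd q')

theorem mdiff_exp (c : ℂ) : MDiff (fun z : ℍ => Complex.exp (c * z)) := by
  have h : Differentiable ℂ (fun w : ℂ => Complex.exp (c * w)) := by fun_prop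
  exact h.mdifferentiable.comp mdifferentiable_coe

theorem cuspFun_eq (q : SL(2, ℤ) ⧸ Γ) :
    cuspFun Γ k f q = (fun z : ℍ => Complex.exp (-(2 * π * Complex.I * (cuspData Γ).θ q) * z))
      * cvec Γ k f q := by
  funext z
  simp [cuspFun, cvec]

theorem mdiff_cuspFun (hf : IsMF Γ k f) (q : SL(2, ℤ) ⧸ Γ) : MDiff (cuspFun Γ k f q) := by
  rw [cuspFun_eq]
  exact (mdiff_exp _).mul (mdiff_cvec hf q)

theorem tendsto_exp_mul {c : ℝ} (hc : 0 < c) :
    Tendsto (fun z : ℍ => Complex.exp (2 * π * Complex.I * c * z)) atImInfty (𝓝 0) := by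
  have h := UpperHalfPlane.qParam_tendsto_atImInfty (h := c⁻¹) (inv_pos.mpr hc)
  refine h.congr fun z => ?_
  simp only [Function.Periodic.qParam]
  congr 1
  push_cast
  field_simp


/-- `e^{2πiz} · cuspFun` -/
noncomputable def qcf (Γ : Subgroup SL(2, ℤ)) [Γ.FiniteIndex] (k : ℤ) (f : ℍ → ℂ)
    (q : SL(2, ℤ) ⧸ Γ) : ℍ → ℂ :=
  fun z => Function.Periodic.qParam 1 z * cuspFun Γ k f q z

theorem qParam_T_smul (z : ℍ) :
    Function.Periodic.qParam 1 ((ModularGroup.T • z : ℍ) : ℂ) = Function.Periodic.qParam 1 z := by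
  rw [UpperHalfPlane.modular_T_smul, UpperHalfPlane.coe_vadd]
  simp only [Function.Periodic.qParam]
  rw [show 2 * (π : ℂ) * Complex.I * (((1 : ℝ) : ℂ) + (z : ℂ)) / ((1 : ℝ) : ℂ)
    = 2 * π * Complex.I * z / ((1 : ℝ) : ℂ) + 2 * π * Complex.I by push_cast; ring]
  exact Complex.exp_periodic _

theorem qcf_periodic (hf : ∀ γ ∈ Γ, f ∣[k] γ = f) (q : SL(2, ℤ) ⧸ Γ) :
    Function.Periodic (qcf Γ k f q ∘ ofComplex) ((1 : ℝ) : ℂ) :=
  periodic_of_T_smul fun z => by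
    unfold qcf
    rw [qParam_T_smul, cuspFun_T_smul hf]

theorem mdiff_qcf (hf : IsMF Γ k f) (q : SL(2, ℤ) ⧸ Γ) : MDiff (qcf Γ k f q) := by
  have h1 : MDiff (fun z : ℍ => Function.Periodic.qParam 1 (z : ℂ)) :=
    (Function.Periodic.differentiable_qParam (h := 1)).mdifferentiable.comp mdifferentiable_coe
  exact h1.mul (mdiff_cuspFun hf q)

theorem qcf_eq (q : SL(2, ℤ) ⧸ Γ) :
    qcf Γ k f q = (fun z : ℍ => Complex.exp (2 * π * Complex.I * ((1 - (cuspData Γ).θ q : ℝ)) * z))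
      * cvec Γ k f q := by
  funext z
  simp only [qcf, cuspFun, cvec, Pi.mul_apply, Function.Periodic.qParam]
  rw [← mul_assoc, ← Complex.exp_add]
  congr 2
  push_cast
  ring

theorem zero_qcf (hf : IsMF Γ k f) (q : SL(2, ℤ) ⧸ Γ) : IsZeroAtImInfty (qcf Γ k f q) := by
  rw [qcf_eq]
  exact Filter.ZeroAtFilter.mul_boundedAtFilter
    (tendsto_exp_mul (sub_pos.mpr ((cuspData Γ).θ_lt_one q))) (bdd_cvec hf q)

theorem bdd_cuspFun (hf : IsMF Γ k f) (q : SL(2, ℤ) ⧸ Γ) :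
    IsBoundedAtImInfty (cuspFun Γ k f q) := by
  have hO := (zero_qcf hf q).exp_decay_atImInfty one_pos (qcf_periodic hf.inv q) (mdiff_qcf hf q)
    (zero_qcf hf q).isBoundedAtImInfty
  obtain ⟨c, hc⟩ := hO.bound
  obtain ⟨A, hA⟩ := (atImInfty_mem _).mp hc
  rw [isBoundedAtImInfty_iff]
  refine ⟨c, A, fun z hz => ?_⟩
  have h := hA z hz
  simp only [Set.mem_ofPred_eq, qcf, norm_mul, Function.Periodic.norm_qParam, Real.norm_eq_abs,
    Real.abs_exp] at h
  rw [mul_comm c] at h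
  exact le_of_mul_le_mul_left h (Real.exp_pos _)

theorem isBigO_cuspFun_sub (hf : IsMF Γ k f) (q : SL(2, ℤ) ⧸ Γ) :
    (fun z => cuspFun Γ k f q z - valueAtInfty (cuspFun Γ k f q))
      =O[atImInfty] fun z : ℍ => Real.exp (-2 * π * z.im / 1) :=
  exp_decay_sub_atImInfty one_pos (cuspFun_periodic hf.inv q) (mdiff_cuspFun hf q)
    (bdd_cuspFun hf q)

theorem tendsto_exp_neg : Tendsto (fun z : ℍ => Real.exp (-2 * π * z.im / 1)) atImInfty (𝓝 0) := by
  have h : Tendsto (fun z : ℍ => -2 * π * z.im / 1) atImInfty atBot := by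
    have h1 : Tendsto (fun z : ℍ => z.im) atImInfty atTop := tendsto_comap
    have h2 : Tendsto (fun z : ℍ => (2 * π) * z.im) atImInfty atTop :=
      h1.const_mul_atTop (by positivity)
    have h3 := tendsto_neg_atTop_atBot.comp h2
    refine h3.congr fun z => ?_
    simp only [Function.comp_apply]
    ring
  exact Real.tendsto_exp_atBot.comp h

theorem tendsto_cuspFun_valueAtInfty (hf : IsMF Γ k f) (q : SL(2, ℤ) ⧸ Γ) :
    Tendsto (cuspFun Γ k f q) atImInfty (𝓝 (valueAtInfty (cuspFun Γ k f q))) := by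
  have h := (isBigO_cuspFun_sub hf q).trans_tendsto tendsto_exp_neg
  have h2 := h.add_const (valueAtInfty (cuspFun Γ k f q))
  simpa using h2


end Cusp

/-- (C2) the limit at `i∞` exists. -/
theorem exists_tendsto_cuspFun (hf : IsMF Γ k f) (q : SL(2, ℤ) ⧸ Γ) :
    ∃ c : ℂ, Tendsto (cuspFun Γ k f q) atImInfty (𝓝 c) :=
  ⟨_, Cusp.tendsto_cuspFun_valueAtInfty hf q⟩

theorem tendsto_cuspFun (hf : IsMF Γ k f) (q : SL(2, ℤ) ⧸ Γ) :
    Tendsto (cuspFun Γ k f q) atImInfty (𝓝 (cuspVec Γ k f q)) := by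
  obtain ⟨c, hc⟩ := exists_tendsto_cuspFun hf q
  exact tendsto_nhds_limUnder ⟨c, hc⟩

/-- (C2) if the limit vanishes, `cuspFun` decays like `e^{-2π Im z}`. -/
theorem cuspFun_bound_of_cuspVec_eq_zero (hf : IsMF Γ k f) (q : SL(2, ℤ) ⧸ Γ)
    (h0 : cuspVec Γ k f q = 0) :
    ∃ M A : ℝ, ∀ z : ℍ, A ≤ z.im → ‖cuspFun Γ k f q z‖ ≤ M * Real.exp (-(2 * π * z.im)) := by
  have hO := Cusp.isBigO_cuspFun_sub hf q
  have hv : valueAtInfty (cuspFun Γ k f q) = 0 := h0
  rw [hv] at hO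
  obtain ⟨c, hc⟩ := hO.bound
  obtain ⟨A, hA⟩ := (atImInfty_mem _).mp hc
  refine ⟨c, A, fun z hz => ?_⟩
  have h := hA z hz
  simp only [Set.mem_ofPred_eq, sub_zero, Real.norm_eq_abs, Real.abs_exp] at h
  convert h using 3
  ring

/-! (C3) consequences -/

theorem cuspVec_add (hf : IsMF Γ k f) (hg : IsMF Γ k g) :
    cuspVec Γ k (f + g) = cuspVec Γ k f + cuspVec Γ k g := by
  funext q
  have h1 := (tendsto_cuspFun hf q).add (tendsto_cuspFun hg q)
  have h2 : cuspFun Γ k (f + g) q = fun z => cuspFun Γ k f q z + cuspFun Γ k g q z := by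
    funext z
    simp only [cuspFun]
    rw [← mul_add]
    congr 1
    have h3 : (fun q' => tr Γ k (f + g) q' z)
        = (fun q' => tr Γ k f q' z) + (fun q' => tr Γ k g q' z) := by
      funext q'
      rw [tr_add]
      rfl
    rw [h3, Matrix.mulVec_add]
    rfl
  rw [← h2] at h1
  exact h1.limUnder_eq

theorem cuspVec_smul (c : ℂ) (hf : IsMF Γ k f) : cuspVec Γ k (c • f) = c • cuspVec Γ k f := by
  funext q
  have h1 := (tendsto_cuspFun hf q).const_mul c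
  have h2 : cuspFun Γ k (c • f) q = fun z => c * cuspFun Γ k f q z := by
    funext z
    simp only [cuspFun]
    have h3 : (fun q' => tr Γ k (c • f) q' z) = c • (fun q' => tr Γ k f q' z) := by
      funext q'
      rw [tr_smul]
      rfl
    rw [h3, Matrix.mulVec_smul, Pi.smul_apply, smul_eq_mul]
    ring
  rw [← h2] at h1
  exact h1.limUnder_eq

/-- multiplication by a level-one form multiplies the cusp vector by its value at `i∞` -/
theorem cuspVec_mul_top (hg : IsMF ⊤ l g) {c : ℂ} (hc : Tendsto g atImInfty (𝓝 c))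
    (hf : IsMF Γ k f) : cuspVec Γ (l + k) (g * f) = c • cuspVec Γ k f := by
  funext q
  have h1 := hc.mul (tendsto_cuspFun hf q)
  have h2 : cuspFun Γ (l + k) (g * f) q = fun z => g z * cuspFun Γ k f q z := by
    funext z
    simp only [cuspFun]
    have h3 : (fun q' => tr Γ (l + k) (g * f) q' z) = g z • (fun q' => tr Γ k f q' z) := by
      funext q'
      rw [tr_mul, tr_of_top hg]
      rfl
    rw [h3, Matrix.mulVec_smul, Pi.smul_apply, smul_eq_mul]
    ring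
  rw [← h2] at h1
  exact h1.limUnder_eq

namespace Cusp

theorem tendsto_Dl_div_q :
    Tendsto (fun z : ℍ => Dl z / Function.Periodic.qParam 1 z) atImInfty (𝓝 1) := by
  refine tendsto_atImInfty_tprod_one_sub_eta_q_pow.congr fun z => ?_
  rw [Dl, discriminant_eq_q_prod z, mul_div_cancel_left₀ _ (Function.Periodic.qParam_ne_zero _)]

/-- lower bound for `Δ` near the cusp -/
theorem exists_Dl_lower :
    ∃ A : ℝ, ∀ z : ℍ, A ≤ z.im → Real.exp (-(2 * π * z.im)) ≤ 2 * ‖Dl z‖ := by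
  have h := tendsto_Dl_div_q.norm
  rw [norm_one] at h
  have h2 := h.eventually_const_lt (show (1 / 2 : ℝ) < 1 by norm_num)
  obtain ⟨A, hA⟩ := (atImInfty_mem _).mp h2
  refine ⟨A, fun z hz => ?_⟩
  have h3 := hA z hz
  simp only [Set.mem_ofPred_eq, norm_div, Function.Periodic.norm_qParam] at h3
  rw [lt_div_iff₀ (Real.exp_pos _)] at h3
  have h4 : Real.exp (-2 * π * (z : ℂ).im / 1) = Real.exp (-(2 * π * z.im)) := by
    congr 1
    rw [UpperHalfPlane.coe_im]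
    ring
  rw [h4] at h3
  linarith

/-- translates in terms of `cuspFun` -/
theorem tr_eq_sum (q' : SL(2, ℤ) ⧸ Γ) (z : ℍ) :
    tr Γ k f q' z = ∑ q, (cuspData Γ).Cinv q' q *
      (Complex.exp (2 * π * Complex.I * (cuspData Γ).θ q * z) * cuspFun Γ k f q z) := by
  have h1 : ∀ q, Complex.exp (2 * π * Complex.I * (cuspData Γ).θ q * z) * cuspFun Γ k f q z
      = ((cuspData Γ).C *ᵥ fun q'' => tr Γ k f q'' z) q := by
    intro q
    simp only [cuspFun]
    rw [← mul_assoc, ← Complex.exp_add, add_neg_cancel, Complex.exp_zero, one_mul]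
  simp_rw [h1]
  have h2 : ((cuspData Γ).Cinv *ᵥ ((cuspData Γ).C *ᵥ fun q'' => tr Γ k f q'' z)) q'
      = tr Γ k f q' z := by
    rw [Matrix.mulVec_mulVec, (cuspData Γ).inv_mul, Matrix.one_mulVec]
  exact h2.symm

/-- all translates decay when the cusp vector vanishes -/
theorem tr_bound_of_cuspVec_eq_zero (hf : IsMF Γ k f) (h0 : cuspVec Γ k f = 0)
    (q' : SL(2, ℤ) ⧸ Γ) :
    ∃ M A : ℝ, ∀ z : ℍ, A ≤ z.im → ‖tr Γ k f q' z‖ ≤ M * Real.exp (-(2 * π * z.im)) := by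
  choose M A hMA using fun q => cuspFun_bound_of_cuspVec_eq_zero hf q (congrFun h0 q)
  refine ⟨∑ q, ‖(cuspData Γ).Cinv q' q‖ * |M q|, ∑ q, |A q|, fun z hz => ?_⟩
  rw [tr_eq_sum q' z, Finset.sum_mul]
  refine (norm_sum_le (E := ℂ) _ _).trans (Finset.sum_le_sum fun q _ => ?_)
  rw [norm_mul, norm_mul, mul_assoc ‖(cuspData Γ).Cinv q' q‖ |M q|]
  refine mul_le_mul_of_nonneg_left ?_ (norm_nonneg ((cuspData Γ).Cinv q' q))
  have hAq : A q ≤ z.im :=
    le_trans ((le_abs_self _).trans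
      (Finset.single_le_sum (fun i _ => abs_nonneg (A i)) (Finset.mem_univ q))) hz
  have h1 := hMA q z hAq
  have h2 : ‖Complex.exp (2 * π * Complex.I * (cuspData Γ).θ q * z)‖ ≤ 1 := by
    rw [Complex.norm_exp, Real.exp_le_one_iff]
    have h3 : (2 * π * Complex.I * (cuspData Γ).θ q * z).re = -(2 * π * (cuspData Γ).θ q * z.im) := by
      simp
    rw [h3]
    have h4 := (cuspData Γ).θ_nonneg q
    have h5 := z.im_pos
    have h6 := Real.pi_pos
    have : 0 ≤ 2 * π * (cuspData Γ).θ q * z.im := by positivity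
    linarith
  calc ‖Complex.exp (2 * π * Complex.I * (cuspData Γ).θ q * z)‖ * ‖cuspFun Γ k f q z‖
      ≤ 1 * (M q * Real.exp (-(2 * π * z.im))) :=
        mul_le_mul h2 h1 (norm_nonneg _) zero_le_one
    _ ≤ |M q| * Real.exp (-(2 * π * z.im)) := by
        rw [one_mul]
        exact mul_le_mul_of_nonneg_right (le_abs_self _) (Real.exp_pos _).le

theorem slash_div_Dl (f : ℍ → ℂ) (k : ℤ) (g : SL(2, ℤ)) :
    (fun z => f z / Dl z) ∣[k - 12] g = fun z => (f ∣[k] g) z / Dl z := by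
  have hD : Dl ∣[(12 : ℤ)] g = Dl := isCF_Dl.isMF.slash_eq_of_top g
  have hf : f = Dl * (fun z => f z / Dl z) := by
    funext z
    simp only [Pi.mul_apply]
    rw [mul_div_cancel₀ _ (Dl_ne_zero z)]
  have h1 := mul_slash_SL2 12 (k - 12) g Dl (fun z => f z / Dl z)
  rw [show (12 : ℤ) + (k - 12) = k by ring, ← hf, hD] at h1
  funext z
  rw [h1, Pi.mul_apply, mul_div_cancel_left₀ _ (Dl_ne_zero z)]

theorem mdiff_div_Dl {f : ℍ → ℂ} (hf : MDiff f) : MDiff (fun z => f z / Dl z) := by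
  rw [UpperHalfPlane.mdifferentiable_iff] at hf ⊢
  have hD : DifferentiableOn ℂ (Dl ∘ ofComplex) {z | 0 < z.im} :=
    UpperHalfPlane.mdifferentiable_iff.mp isCF_Dl.holo
  exact hf.div hD (fun z _ => Dl_ne_zero _)

end Cusp

/-- the kernel of the cusp map is `Δ · M_{k-12}(Γ)` -/
theorem dvd_Dl_of_cuspVec_eq_zero (hf : IsMF Γ k f) (h0 : cuspVec Γ k f = 0) :
    ∃ f', IsMF Γ (k - 12) f' ∧ f = Dl * f' := by
  refine ⟨fun z => f z / Dl z, ⟨Cusp.mdiff_div_Dl hf.holo, fun γ hγ => ?_, fun g => ?_⟩, ?_⟩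
  · rw [Cusp.slash_div_Dl, hf.inv γ hγ]
  · rw [Cusp.slash_div_Dl]
    have htr : f ∣[k] g = tr Γ k f ((g⁻¹ : SL(2, ℤ)) : SL(2, ℤ) ⧸ Γ) := by
      rw [tr_mk hf.inv, inv_inv]
    rw [htr]
    obtain ⟨M, A, hMA⟩ := Cusp.tr_bound_of_cuspVec_eq_zero hf h0 ((g⁻¹ : SL(2, ℤ)) : SL(2, ℤ) ⧸ Γ)
    obtain ⟨A', hA'⟩ := Cusp.exists_Dl_lower
    rw [isBoundedAtImInfty_iff]
    refine ⟨2 * |M|, max A A', fun z hz => ?_⟩
    have h1 := hMA z ((le_max_left _ _).trans hz)
    have h2 := hA' z ((le_max_right _ _).trans hz)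
    rw [norm_div, div_le_iff₀ (norm_pos_iff.mpr (Dl_ne_zero z))]
    calc ‖tr Γ k f ((g⁻¹ : SL(2, ℤ)) : SL(2, ℤ) ⧸ Γ) z‖ ≤ M * Real.exp (-(2 * π * z.im)) := h1
      _ ≤ |M| * Real.exp (-(2 * π * z.im)) :=
        mul_le_mul_of_nonneg_right (le_abs_self _) (Real.exp_pos _).le
      _ ≤ |M| * (2 * ‖Dl z‖) := mul_le_mul_of_nonneg_left h2 (abs_nonneg _)
      _ = 2 * |M| * ‖Dl z‖ := by ring
  · funext z
    simp only [Pi.mul_apply]
    rw [mul_div_cancel₀ _ (Dl_ne_zero z)]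

end Fermat.Agent.S20
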