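import Mathlib

/-!
# S20 library: level-one facts for bundled forms `ModularForm 𝒮ℒ k`

* limits at `i∞` (`tendsto_coeffZero`, `tendsto_E4`, `tendsto_E6`, `tendsto_discriminant_mul_exp`,
  `tendsto_deriv_zero`);
* generation by `E₄`, `E₆` (`exists_E4_mul_add_E6_mul`);
* the bracket `2 E₄ E₆' - 3 E₄' E₆` vanishes nowhere (`bracket_ne_zero`).
-/

open UpperHalfPlane ModularForm EisensteinSeries Filter Topology
open scoped MatrixGroups ModularForm Manifold

namespace Fermat.Agent.S20.LevelOne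

/-! ### Limits at `i∞` -/

/-- A level-one modular form tends to its constant `q`-coefficient at `i∞`. -/
theorem tendsto_coeffZero {k : ℤ} (f : ModularForm 𝒮ℒ k) :
    Tendsto (fun z : ℍ => f z) atImInfty (𝓝 ((qExpansion 1 f).coeff 0)) := by
  have han := ModularFormClass.analyticAt_cuspFunction_zero f one_pos one_mem_strictPeriods_SL
  have hper := SlashInvariantFormClass.periodic_comp_ofComplex f one_mem_strictPeriods_SL
  have h0 : (qExpansion 1 f).coeff 0 = cuspFunction 1 f 0 := by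
    simp [qExpansion_coeff]
  rw [h0]
  have : (cuspFunction 1 f ∘ fun τ : ℍ ↦ Function.Periodic.qParam 1 τ : ℍ → ℂ) = f := by
    funext τ
    simpa using eq_cuspFunction τ one_ne_zero hper
  have h2 := han.continuousAt.tendsto.comp (qParam_tendsto_atImInfty one_pos)
  rw [this] at h2
  exact h2

theorem tendsto_E4 : Tendsto (fun z : ℍ => E₄ z) atImInfty (𝓝 1) := by
  have := tendsto_coeffZero E₄
  rwa [E_qExpansion_coeff_zero _ ⟨2, rfl⟩] at this

theorem tendsto_E6 : Tendsto (fun z : ℍ => E₆ z) atImInfty (𝓝 1) := by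
  have := tendsto_coeffZero E₆
  rwa [E_qExpansion_coeff_zero _ ⟨3, rfl⟩] at this

theorem tendsto_discriminant_mul_exp :
    Tendsto (fun z : ℍ => discriminant z * Complex.exp (-(2 * Real.pi * Complex.I * z)))
      atImInfty (𝓝 1) := by
  have h := tendsto_atImInfty_tprod_one_sub_eta_q_pow
  refine h.congr fun z => ?_
  rw [discriminant_eq_q_prod, Function.Periodic.qParam]
  have : Complex.exp (2 * Real.pi * Complex.I * (z : ℂ) / (1 : ℝ)) *
      Complex.exp (-(2 * Real.pi * Complex.I * z)) = 1 := by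
    rw [← Complex.exp_add]; simp
  rw [mul_right_comm, this, one_mul]

theorem tendsto_discriminant : Tendsto (fun z : ℍ => discriminant z) atImInfty (𝓝 0) :=
  discriminant_isZeroAtImInfty

theorem differentiableAt_comp_ofComplex {k : ℤ} (f : ModularForm 𝒮ℒ k) {w : ℂ} (hw : 0 < w.im) :
    DifferentiableAt ℂ (f ∘ ofComplex) w :=
  UpperHalfPlane.mdifferentiableAt_iff.mp (f.holo' ⟨w, hw⟩)

/-- The derivative of a level-one modular form tends to `0` at `i∞`. -/
theorem tendsto_deriv_zero {k : ℤ} (f : ModularForm 𝒮ℒ k) :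
    Tendsto (fun z : ℍ => deriv (f ∘ ofComplex) z) atImInfty (𝓝 0) := by
  set c := (qExpansion 1 f).coeff 0 with hc
  have hlim := tendsto_coeffZero f
  rw [Metric.tendsto_nhds] at hlim ⊢
  intro ε hε
  have h1 := hlim (ε / 2) (half_pos hε)
  rw [Filter.Eventually, atImInfty_mem] at h1 ⊢
  obtain ⟨A, hA⟩ := h1
  refine ⟨max A 0 + 2, fun z hz => ?_⟩
  have him : ∀ w ∈ Metric.closedBall (z : ℂ) 1, max A 0 + 1 ≤ w.im := by
    intro w hw
    have h1 : |(w - z).im| ≤ ‖w - (z : ℂ)‖ := Complex.abs_im_le_norm _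
    have h2 : ‖w - (z : ℂ)‖ ≤ 1 := by simpa [dist_eq_norm] using hw
    have h3 : (w - z).im = w.im - z.im := by simp
    have h4 := abs_le.mp (h1.trans h2)
    have hz' : max A 0 + 2 ≤ (z : ℂ).im := hz
    rw [h3] at h4
    have : (z : ℂ).im = z.im := rfl
    linarith [h4.1]
  have hpos : ∀ w ∈ Metric.closedBall (z : ℂ) 1, 0 < w.im := fun w hw =>
    lt_of_lt_of_le (by positivity) (him w hw)
  have hdiff : DifferentiableOn ℂ (fun w => (f ∘ ofComplex) w - c)
      (closure (Metric.ball (z : ℂ) 1)) := by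
    rw [closure_ball _ one_ne_zero]
    intro w hw
    exact ((differentiableAt_comp_ofComplex f (hpos w hw)).sub_const c).differentiableWithinAt
  have hbound : ∀ w ∈ Metric.sphere (z : ℂ) 1, ‖(f ∘ ofComplex) w - c‖ ≤ ε / 2 := by
    intro w hw
    have hw' : w ∈ Metric.closedBall (z : ℂ) 1 := Metric.sphere_subset_closedBall hw
    have hwpos := hpos w hw'
    have := hA ⟨w, hwpos⟩ (by
      have := him w hw'
      change A ≤ w.im
      linarith [le_max_left A 0])
    simp only [Set.mem_setOf_eq, dist_eq_norm] at this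
    simp only [Function.comp_apply, ofComplex_apply_of_im_pos hwpos]
    exact this.le
  have := Complex.norm_deriv_le_of_forall_mem_sphere_norm_le one_pos hdiff.diffContOnCl hbound
  rw [deriv_sub_const] at this
  simp only [Set.mem_setOf_eq, dist_zero_right]
  linarith

/-! ### Generation by `E₄` and `E₆` -/

theorem coeffZero_E4 : (qExpansion 1 E₄).coeff 0 = 1 := E_qExpansion_coeff_zero _ ⟨2, rfl⟩
theorem coeffZero_E6 : (qExpansion 1 E₆).coeff 0 = 1 := E_qExpansion_coeff_zero _ ⟨3, rfl⟩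

/-- For every even weight `k ≥ 4` there is a level-one form with constant term `1` lying in the
ideal `(E₄, E₆)`. -/
theorem exists_monomial {k : ℤ} (hk : 4 ≤ k) (hk2 : Even k) :
    ∃ (m : ModularForm 𝒮ℒ k) (a : ModularForm 𝒮ℒ (k - 4)) (b : ModularForm 𝒮ℒ (k - 6)),
      (qExpansion 1 m).coeff 0 = 1 ∧ ∀ z, m z = E₄ z * a z + E₆ z * b z := by
  obtain ⟨r, hr⟩ := hk2
  rcases Int.even_or_odd r with ⟨s, hs⟩ | ⟨s, hs⟩
  · -- k = 4 s, s ≥ 1
    obtain ⟨n, rfl⟩ : ∃ n : ℕ, s = n + 1 := ⟨(s - 1).toNat, by omega⟩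
    refine ⟨mcast (by omega) (E₄.pow (n + 1)), mcast (by omega) (E₄.pow n), 0, ?_, ?_⟩
    · rw [ModularForm.qExpansion_mcast, ModularForm.qExpansion_pow one_pos one_mem_strictPeriods_SL,
        PowerSeries.coeff_zero_eq_constantCoeff, map_pow,
        ← PowerSeries.coeff_zero_eq_constantCoeff, coeffZero_E4, one_pow]
    · intro z
      simp only [coe_mcast, coe_pow, Pi.pow_apply, zero_apply, mul_zero, add_zero]
      ring
  · -- k = 4 s + 2, s ≥ 1
    obtain ⟨n, rfl⟩ : ∃ n : ℕ, s = n + 1 := ⟨(s - 1).toNat, by omega⟩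
    refine ⟨mcast (by omega) (E₆.mul (E₄.pow n)), 0, mcast (by omega) (E₄.pow n), ?_, ?_⟩
    · rw [ModularForm.qExpansion_mcast, ModularForm.qExpansion_mul one_pos one_mem_strictPeriods_SL,
        ModularForm.qExpansion_pow one_pos one_mem_strictPeriods_SL,
        PowerSeries.coeff_zero_eq_constantCoeff, map_mul, map_pow,
        ← PowerSeries.coeff_zero_eq_constantCoeff, coeffZero_E4, coeffZero_E6, one_pow, one_mul]
    · intro z
      simp

/-- (L1) Every level-one modular form of positive weight lies in the ideal `(E₄, E₆)`. -/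
theorem exists_E4_mul_add_E6_mul {k : ℤ} (hk : 0 < k) (f : ModularForm 𝒮ℒ k) :
    ∃ (a : ModularForm 𝒮ℒ (k - 4)) (b : ModularForm 𝒮ℒ (k - 6)),
      ∀ z, f z = E₄ z * a z + E₆ z * b z := by
  rcases Int.even_or_odd k with hk2 | hk2
  · by_cases h4 : 4 ≤ k
    · obtain ⟨m, a₀, b₀, hm, hmab⟩ := exists_monomial h4 hk2
      obtain ⟨g, hg⟩ := sub_smul_isCuspForm f m hm
      set c := (qExpansion 1 f).coeff 0 with hc
      set h := CuspForm.discriminantEquiv g with hh
      have hgz : ∀ z, discriminant z * h z = f z - c * m z := by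
        intro z
        rw [hh, discriminant_mul_discriminantEquiv_apply]
        have := congrArg (fun F : ModularForm 𝒮ℒ k => F z) hg
        simpa using this
      refine ⟨c • a₀ + (1 / 1728 : ℂ) • mcast (by ring) ((E₄.pow 2).mul h),
        c • b₀ - (1 / 1728 : ℂ) • mcast (by ring) (E₆.mul h), fun z => ?_⟩
      have h1 := hgz z
      have h2 := hmab z
      rw [discriminant_eq_E₄_cube_sub_E₆_sq] at h1
      simp only [add_apply, smul_apply, sub_apply, coe_mcast, coe_mul, coe_pow, Pi.mul_apply,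
        Pi.pow_apply, smul_eq_mul]
      linear_combination (-1 : ℂ) * h1 + c * h2
    · -- k = 2
      have hk' : k = 2 := by
        obtain ⟨r, hr⟩ := hk2
        omega
      subst hk'
      have := rank_zero_iff_forall_zero.mp levelOne_weight_two_rank_zero f
      refine ⟨0, 0, fun z => ?_⟩
      simp [this]
  · have := levelOne_odd_weight_eq_zero hk2 f
    refine ⟨0, 0, fun z => ?_⟩
    simp [this]

/-! ### The bracket -/

/-- The first Rankin–Cohen bracket of `E₄` and `E₆` (not normalised). -/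
noncomputable def bracket (z : ℍ) : ℂ :=
  2 * E₄ z * deriv (E₆ ∘ ofComplex) z - 3 * deriv (E₄ ∘ ofComplex) z * E₆ z

open Derivative in
/-- The bracket expressed through Serre derivatives, normalised by `(2πi)⁻¹`. -/
noncomputable def bracketS : ℍ → ℂ :=
  (2 : ℂ) • ((E₄ : ℍ → ℂ) * serreDerivative 6 E₆) - (3 : ℂ) • (serreDerivative 4 E₄ * (E₆ : ℍ → ℂ))

open Derivative in
theorem bracketS_apply (z : ℍ) :
    bracketS z = (2 * Real.pi * Complex.I)⁻¹ * bracket z := by
  simp only [bracketS, bracket, Pi.sub_apply, Pi.smul_apply, Pi.mul_apply, smul_eq_mul,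
    serreDerivative_apply, normalizedDerivOfComplex]
  ring

theorem bracket_eq (z : ℍ) : bracket z = (2 * Real.pi * Complex.I) * bracketS z := by
  rw [bracketS_apply, ← mul_assoc, mul_inv_cancel₀, one_mul]
  exact Complex.two_pi_I_ne_zero

theorem tendsto_bracket : Tendsto bracket atImInfty (𝓝 0) := by
  have h := ((tendsto_E4.const_mul 2).mul (tendsto_deriv_zero E₆)).sub
    (((tendsto_deriv_zero E₄).const_mul 3).mul tendsto_E6)
  have h0 : (2 : ℂ) * 1 * 0 - 3 * 0 * 1 = 0 := by ring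
  rw [h0] at h
  exact h

theorem tendsto_bracketS : Tendsto bracketS atImInfty (𝓝 0) := by
  have h := tendsto_bracket.const_mul (2 * Real.pi * Complex.I)⁻¹
  simp only [mul_zero] at h
  exact h.congr fun z => (bracketS_apply z).symm

open Derivative in
theorem bracketS_slash (γ : SL(2, ℤ)) : bracketS ∣[(12 : ℤ)] γ = bracketS := by
  have hγ : (γ : GL (Fin 2) ℝ) ∈ 𝒮ℒ := ⟨γ, rfl⟩
  have h4 : (E₄ : ℍ → ℂ) ∣[(4 : ℤ)] γ = E₄ := by
    rw [SL_slash]; exact SlashInvariantForm.slash_action_eqn E₄ _ hγ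
  have h6 : (E₆ : ℍ → ℂ) ∣[(6 : ℤ)] γ = E₆ := by
    rw [SL_slash]; exact SlashInvariantForm.slash_action_eqn E₆ _ hγ
  have hs4 : serreDerivative ((4 : ℤ) : ℂ) E₄ ∣[(4 + 2 : ℤ)] γ = serreDerivative ((4 : ℤ) : ℂ) E₄ :=
    serreDerivative_slash_invariant E₄.holo' h4
  have hs6 : serreDerivative ((6 : ℤ) : ℂ) E₆ ∣[(6 + 2 : ℤ)] γ = serreDerivative ((6 : ℤ) : ℂ) E₆ :=
    serreDerivative_slash_invariant E₆.holo' h6
  have e1 : ((E₄ : ℍ → ℂ) * serreDerivative 6 E₆) ∣[(12 : ℤ)] γ
      = (E₄ : ℍ → ℂ) * serreDerivative 6 E₆ := by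
    have := mul_slash_SL2 4 (6 + 2) γ (E₄ : ℍ → ℂ) (serreDerivative 6 E₆)
    rw [h4] at this
    have hs6' : serreDerivative (6 : ℂ) E₆ ∣[(6 + 2 : ℤ)] γ = serreDerivative (6 : ℂ) E₆ := by
      simpa using hs6
    rw [hs6'] at this
    exact this
  have e2 : (serreDerivative 4 E₄ * (E₆ : ℍ → ℂ)) ∣[(12 : ℤ)] γ
      = serreDerivative 4 E₄ * (E₆ : ℍ → ℂ) := by
    have := mul_slash_SL2 (4 + 2) 6 γ (serreDerivative 4 E₄) (E₆ : ℍ → ℂ)
    rw [h6] at this
    have hs4' : serreDerivative (4 : ℂ) E₄ ∣[(4 + 2 : ℤ)] γ = serreDerivative (4 : ℂ) E₄ := by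
      simpa using hs4
    rw [hs4'] at this
    exact this
  rw [bracketS, sub_eq_add_neg, SlashAction.add_slash, SlashAction.neg_slash, SL_smul_slash,
    SL_smul_slash, e1, e2, ← sub_eq_add_neg]


theorem mdiff_bracketS : MDiff bracketS := by
  have h4 : MDiff (E₄ : ℍ → ℂ) := E₄.holo'
  have h6 : MDiff (E₆ : ℍ → ℂ) := E₆.holo'
  have hs4 := Derivative.serreDerivative_mdifferentiable 4 h4
  have hs6 := Derivative.serreDerivative_mdifferentiable 6 h6
  exact ((h4.mul hs6).const_smul (2 : ℂ)).sub ((hs4.mul h6).const_smul (3 : ℂ))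

/-- The bracket as a cusp form of weight 12. -/
noncomputable def bracketCF : CuspForm 𝒮ℒ 12 where
  toFun := bracketS
  slash_action_eq' := by
    rintro _ ⟨γ, rfl⟩
    exact bracketS_slash γ
  holo' := mdiff_bracketS
  zero_at_cusps' {c} hc := by
    rw [OnePoint.isZeroAt_iff_forall_SL2Z hc]
    intro γ _
    rw [bracketS_slash γ]
    exact tendsto_bracketS

theorem bracketCF_apply (z : ℍ) : bracketCF z = bracketS z := rfl


theorem E4_cube_sub_E6_sq_ne_zero (z : ℍ) : E₄ z ^ 3 - E₆ z ^ 2 ≠ 0 := by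
  have := discriminant_ne_zero z
  rw [discriminant_eq_E₄_cube_sub_E₆_sq] at this
  intro h
  apply this
  rw [h, zero_div]

theorem bracket_not_identically_zero : ¬ ∀ z : ℍ, bracket z = 0 := by
  intro hB
  set e4 : ℂ → ℂ := E₄ ∘ ofComplex with he4
  set e6 : ℂ → ℂ := E₆ ∘ ofComplex with he6
  let G : ℂ → ℂ := fun w => e6 w ^ 2 / (e4 w ^ 3 - e6 w ^ 2)
  have hden : ∀ w : ℂ, 0 < w.im → e4 w ^ 3 - e6 w ^ 2 ≠ 0 := by
    intro w hw
    have := E4_cube_sub_E6_sq_ne_zero ⟨w, hw⟩
    simpa [he4, he6, ofComplex_apply_of_im_pos hw] using this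
  have hderiv : ∀ w : ℂ, 0 < w.im → HasDerivAt G 0 w := by
    intro w hw
    have d4 := (differentiableAt_comp_ofComplex E₄ hw).hasDerivAt
    have d6 := (differentiableAt_comp_ofComplex E₆ hw).hasDerivAt
    have hB' : 2 * e4 w * deriv e6 w - 3 * deriv e4 w * e6 w = 0 := by
      have := hB ⟨w, hw⟩
      simpa [bracket, he4, he6, ofComplex_apply_of_im_pos hw] using this
    have hq := (d6.pow 2).div ((d4.pow 3).sub (d6.pow 2)) (hden w hw)
    have hz : ((2 : ℕ) * e6 w ^ (2 - 1) * deriv e6 w * (e4 w ^ 3 - e6 w ^ 2) -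
        e6 w ^ 2 * ((3 : ℕ) * e4 w ^ (3 - 1) * deriv e4 w - (2 : ℕ) * e6 w ^ (2 - 1) * deriv e6 w)) /
        (e4 w ^ 3 - e6 w ^ 2) ^ 2 = 0 := by
      rw [div_eq_zero_iff]
      left
      push_cast
      simp only [Nat.add_one_sub_one, pow_one]
      linear_combination e4 w ^ 2 * e6 w * hB'
    rw [← hz]
    exact hq
  have hconst : ∀ w : ℂ, 0 < w.im → G w = G Complex.I := by
    intro w hw
    refine IsOpen.is_const_of_deriv_eq_zero (s := {c : ℂ | 0 < c.im})
      (isOpen_lt continuous_const Complex.continuous_im)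
      (convex_halfSpace_im_gt 0).isPreconnected ?_ ?_ hw (by simp)
    · intro x hx
      exact (hderiv x hx).differentiableAt.differentiableWithinAt
    · intro x hx
      exact (hderiv x hx).deriv
  set κ := G Complex.I with hκ
  have hrel : ∀ z : ℍ, E₆ z ^ 2 = κ * (E₄ z ^ 3 - E₆ z ^ 2) := by
    intro z
    have h1 := hconst z z.im_pos
    have h2 := hden z z.im_pos
    have h3 : G z = e6 z ^ 2 / (e4 z ^ 3 - e6 z ^ 2) := rfl
    rw [h3, div_eq_iff h2] at h1
    simpa [he4, he6] using h1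
  have hl : Tendsto (fun z : ℍ => E₆ z ^ 2) atImInfty (𝓝 (1 ^ 2)) := tendsto_E6.pow 2
  have hr : Tendsto (fun z : ℍ => κ * (E₄ z ^ 3 - E₆ z ^ 2)) atImInfty (𝓝 (κ * (1 ^ 3 - 1 ^ 2))) :=
    ((tendsto_E4.pow 3).sub (tendsto_E6.pow 2)).const_mul κ
  have := tendsto_nhds_unique (hl.congr hrel) hr
  norm_num at this

theorem bracket_ne_zero (z : ℍ) : bracket z ≠ 0 := by
  obtain ⟨c, hc⟩ := CuspForm.exists_smul_discriminant_of_weight_eq_twelve bracketCF
  have hcz : ∀ w : ℍ, c * discriminant w = bracketS w := by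
    intro w
    have := congrArg (fun F : CuspForm 𝒮ℒ 12 => F w) hc
    simpa [bracketCF_apply] using this
  have hc0 : c ≠ 0 := by
    rintro rfl
    apply bracket_not_identically_zero
    intro w
    rw [bracket_eq, ← hcz w]
    simp
  rw [bracket_eq, ← hcz z]
  exact mul_ne_zero Complex.two_pi_I_ne_zero (mul_ne_zero hc0 (discriminant_ne_zero z))

end Fermat.Agent.S20.LevelOne
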