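import Fermat.Agent.S20.Defs

/-!
# S20 library: level-one toolkit (function level)

Facts about `IsMF ⊤ k f` (level-one modular forms as functions), built on Mathlib's level-one
theory: limits at `i∞`, vanishing in small weight, division of cusp forms by `Δ`, generation by
`E₄`, `E₆`, and divisibility by `E₄` / `E₆` / `Δ(z₀) E₄³ - E₄(z₀)³ Δ` of forms vanishing at a point.
-/

open UpperHalfPlane ModularForm Filter
open scoped MatrixGroups ModularForm Manifold Topology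

namespace Fermat.Agent.S20

local notation "𝕢" => Function.Periodic.qParam
local notation "Δ" => ModularForm.discriminant

variable {Γ : Subgroup SL(2, ℤ)} {k l : ℤ} {f g : ℍ → ℂ}

/-! ### Generic additions to `Defs` -/

theorem IsMF.one_fun : IsMF Γ 0 (1 : ℍ → ℂ) := IsMF.const 1

theorem IsMF.npow (hf : IsMF Γ k f) (n : ℕ) : IsMF Γ (n * k) (f ^ n) := by
  induction n with
  | zero => simpa using (IsMF.one_fun : IsMF Γ 0 (1 : ℍ → ℂ))
  | succ n ih =>
    rw [pow_succ]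
    exact (ih.mul hf).congr_weight (by push_cast; ring)

/-! ### The basic level-one forms -/

theorem isMF_E₄ : IsMF ⊤ 4 ⇑E₄ := isMF_top_of_modularForm E₄

theorem isMF_E₆ : IsMF ⊤ 6 ⇑E₆ := isMF_top_of_modularForm E₆

theorem isCF_discriminant : IsCF ⊤ 12 Δ := isCF_top_of_cuspForm CuspForm.discriminant

theorem isMF_discriminant : IsMF ⊤ 12 Δ := isCF_discriminant.isMF

/-- `1728 Δ = E₄³ - E₆²` as functions -/
theorem discriminant_fun_eq : (1728 : ℂ) • Δ = ⇑E₄ ^ 3 - ⇑E₆ ^ 2 := by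
  ext z
  simp only [Pi.smul_apply, smul_eq_mul, Pi.sub_apply, Pi.pow_apply]
  rw [discriminant_eq_E₄_cube_sub_E₆_sq z]
  ring

/-! ### Limits at `i∞` -/

/-- a level-one modular form has a limit at `i∞` -/
theorem IsMF.tendsto_valueAtInfty (hf : IsMF ⊤ k f) :
    Tendsto f atImInfty (𝓝 (valueAtInfty f)) := by
  have han : AnalyticAt ℂ (cuspFunction 1 f) 0 :=
    ModularFormClass.analyticAt_cuspFunction_zero hf.toLevelOne one_pos one_mem_strictPeriods_SL
  have hper : Function.Periodic (f ∘ ofComplex) (1 : ℝ) :=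
    SlashInvariantFormClass.periodic_comp_ofComplex hf.toLevelOne one_mem_strictPeriods_SL
  have h0 : cuspFunction 1 f 0 = valueAtInfty f := cuspFunction_apply_zero one_pos han hper
  have : (cuspFunction 1 f ∘ fun τ : ℍ ↦ 𝕢 1 τ : ℍ → ℂ) = f := by
    funext τ
    simpa using eq_cuspFunction τ one_ne_zero hper
  rw [← h0]
  simpa [this] using han.continuousAt.tendsto.comp (qParam_tendsto_atImInfty one_pos)

theorem IsMF.valueAtInfty_eq_coeff_zero (hf : IsMF ⊤ k f) :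
    valueAtInfty f = (qExpansion 1 f).coeff 0 := by
  have han : AnalyticAt ℂ (cuspFunction 1 f) 0 :=
    ModularFormClass.analyticAt_cuspFunction_zero hf.toLevelOne one_pos one_mem_strictPeriods_SL
  have hper : Function.Periodic (f ∘ ofComplex) (1 : ℝ) :=
    SlashInvariantFormClass.periodic_comp_ofComplex hf.toLevelOne one_mem_strictPeriods_SL
  exact (qExpansion_coeff_zero one_pos han hper).symm

theorem tendsto_E₄ : Tendsto ⇑E₄ atImInfty (𝓝 1) := by
  have h := isMF_E₄.tendsto_valueAtInfty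
  rwa [isMF_E₄.valueAtInfty_eq_coeff_zero,
    EisensteinSeries.E_qExpansion_coeff_zero _ ⟨2, rfl⟩] at h

theorem tendsto_E₆ : Tendsto ⇑E₆ atImInfty (𝓝 1) := by
  have h := isMF_E₆.tendsto_valueAtInfty
  rwa [isMF_E₆.valueAtInfty_eq_coeff_zero,
    EisensteinSeries.E_qExpansion_coeff_zero _ ⟨3, rfl⟩] at h

theorem qParam_one_ne_zero (z : ℍ) : 𝕢 1 z ≠ 0 := by
  simp [Function.Periodic.qParam]

/-- `Δ(z) / q(z) → 1` at `i∞` -/
theorem tendsto_discriminant_div_q : Tendsto (fun z : ℍ => Δ z / 𝕢 1 z) atImInfty (𝓝 1) := by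
  refine tendsto_atImInfty_tprod_one_sub_eta_q_pow.congr fun z => ?_
  rw [discriminant_eq_q_prod z, mul_div_cancel_left₀ _ (qParam_one_ne_zero z)]

theorem tendsto_discriminant : Tendsto Δ atImInfty (𝓝 0) := discriminant_isZeroAtImInfty

/-- a level-one modular form tending to `0` at `i∞` is a cusp form -/
theorem IsMF.isCF_of_tendsto_zero (hf : IsMF ⊤ k f) (h0 : Tendsto f atImInfty (𝓝 0)) :
    IsCF ⊤ k f :=
  ⟨hf.holo, hf.inv, fun g => by rw [hf.slash_eq_of_top g]; exact h0⟩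

theorem IsCF.tendsto_zero (hf : IsCF Γ k f) : Tendsto f atImInfty (𝓝 0) := by
  have := hf.zero 1
  rwa [SlashAction.slash_one] at this

/-! ### Small weights -/

theorem IsMF.top_eq_zero_of_odd (hf : IsMF ⊤ k f) (hk : Odd k) : f = 0 := by
  have := ModularForm.levelOne_odd_weight_eq_zero hk hf.toLevelOne
  simpa using congrArg (fun F : ModularForm 𝒮ℒ k => (⇑F : ℍ → ℂ)) this

theorem IsMF.top_eq_zero_of_weight_two (hf : IsMF ⊤ 2 f) : f = 0 := by
  have := rank_zero_iff_forall_zero.mp ModularForm.levelOne_weight_two_rank_zero hf.toLevelOne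
  simpa using congrArg (fun F : ModularForm 𝒮ℒ 2 => (⇑F : ℍ → ℂ)) this

/-- a level-one cusp form is `Δ` times a level-one modular form of weight `k - 12` -/
theorem IsCF.exists_eq_discriminant_mul (hf : IsCF ⊤ k f) :
    ∃ g, IsMF ⊤ (k - 12) g ∧ f = Δ * g :=
  ⟨⇑(CuspForm.discriminantEquiv hf.toLevelOne), isMF_top_of_modularForm _,
    (discriminant_mul_discriminantEquiv hf.toLevelOne).symm⟩

/-- a level-one form `f` and a level-one form `G` of the same weight with `G(i∞) = 1`: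
`f = f(i∞) G + Δ g`. -/
theorem IsMF.exists_eq_smul_add_discriminant_mul {G : ℍ → ℂ} (hf : IsMF ⊤ k f) (hG : IsMF ⊤ k G)
    (hG1 : Tendsto G atImInfty (𝓝 1)) :
    ∃ g, IsMF ⊤ (k - 12) g ∧ f = valueAtInfty f • G + Δ * g := by
  have h1 : IsMF ⊤ k (f - valueAtInfty f • G) := hf.sub (hG.smul _)
  have h2 : Tendsto (f - valueAtInfty f • G) atImInfty (𝓝 0) := by
    have := hf.tendsto_valueAtInfty.sub (hG1.const_smul (valueAtInfty f))
    rw [smul_eq_mul, mul_one, sub_self] at this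
    exact this
  obtain ⟨g, hg, hfg⟩ := (h1.isCF_of_tendsto_zero h2).exists_eq_discriminant_mul
  exact ⟨g, hg, by rw [← hfg]; ring⟩

/-! ### Monomials in `E₄`, `E₆` -/

theorem isMF_monomial (x y : ℕ) : IsMF ⊤ (4 * x + 6 * y) (⇑E₄ ^ x * ⇑E₆ ^ y) :=
  ((isMF_E₄.npow x).mul (isMF_E₆.npow y)).congr_weight (by ring)

theorem tendsto_monomial (x y : ℕ) : Tendsto (⇑E₄ ^ x * ⇑E₆ ^ y) atImInfty (𝓝 1) := by
  have h := (tendsto_E₄.pow x).mul (tendsto_E₆.pow y)
  rw [one_pow, one_pow, one_mul] at h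
  exact h

/-- even weights `≥ 0`, `≠ 2` are of the form `4x + 6y` -/
theorem exists_weight_decomp (hk : Even k) (h0 : 0 ≤ k) (h2 : k ≠ 2) :
    ∃ x y : ℕ, k = 4 * x + 6 * y := by
  obtain ⟨m, rfl⟩ := hk
  rcases Int.even_or_odd m with ⟨n, rfl⟩ | ⟨n, rfl⟩
  · exact ⟨n.toNat, 0, by omega⟩
  · exact ⟨(n - 1).toNat, 1, by omega⟩

/-- a level-one form of weight `≤ 0` vanishing somewhere is zero -/
theorem IsMF.top_eq_zero_of_nonpos {z0 : ℍ} (hf : IsMF ⊤ k f) (hk : k ≤ 0) (h0 : f z0 = 0) :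
    f = 0 := by
  rcases lt_or_eq_of_le hk with hlt | rfl
  · exact hf.eq_zero_of_neg hlt
  · obtain ⟨c, rfl⟩ := hf.eq_const_of_weight_zero
    have : c = 0 := h0
    subst this; rfl

/-- **(L1) generation**: a level-one form of positive weight is `E₄ a + E₆ b`. -/
theorem IsMF.top_generation (hf : IsMF ⊤ k f) (hk : 0 < k) :
    ∃ a b, IsMF ⊤ (k - 4) a ∧ IsMF ⊤ (k - 6) b ∧ f = ⇑E₄ * a + ⇑E₆ * b := by
  rcases Int.even_or_odd k with hev | hodd
  swap
  · exact ⟨0, 0, IsMF.zero_fun, IsMF.zero_fun, by rw [hf.top_eq_zero_of_odd hodd]; simp⟩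
  by_cases h2 : k = 2
  · subst h2
    exact ⟨0, 0, IsMF.zero_fun, IsMF.zero_fun, by rw [hf.top_eq_zero_of_weight_two]; simp⟩
  by_cases h6 : k = 6
  · subst h6
    obtain ⟨g, hg, hfg⟩ := hf.exists_eq_smul_add_discriminant_mul isMF_E₆ tendsto_E₆
    have hg0 : g = 0 := hg.eq_zero_of_neg (by norm_num)
    generalize valueAtInfty f = c at hfg
    refine ⟨0, fun _ => c, IsMF.zero_fun, IsMF.const _, ?_⟩
    rw [hfg, hg0]
    ext z
    simp [mul_comm]
  have hk4 : 4 ≤ k := by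
    obtain ⟨m, rfl⟩ := hev
    omega
  obtain ⟨x, y, hxy⟩ := exists_weight_decomp (k := k - 4)
    (by obtain ⟨m, rfl⟩ := hev; exact ⟨m - 2, by ring⟩) (by omega) (by omega)
  have hG' : IsMF ⊤ (k - 4) (⇑E₄ ^ x * ⇑E₆ ^ y) := (isMF_monomial x y).congr_weight hxy.symm
  have hG : IsMF ⊤ k (⇑E₄ * (⇑E₄ ^ x * ⇑E₆ ^ y)) := (isMF_E₄.mul hG').congr_weight (by ring)
  have hG1 : Tendsto (⇑E₄ * (⇑E₄ ^ x * ⇑E₆ ^ y)) atImInfty (𝓝 1) := by
    have h := tendsto_E₄.mul (tendsto_monomial x y)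
    rw [one_mul] at h
    exact h
  obtain ⟨g, hg, hfg⟩ := hf.exists_eq_smul_add_discriminant_mul hG hG1
  generalize valueAtInfty f = c at hfg
  refine ⟨c • (⇑E₄ ^ x * ⇑E₆ ^ y) + (1728 : ℂ)⁻¹ • (⇑E₄ * (⇑E₄ * g)),
    -((1728 : ℂ)⁻¹ • (⇑E₆ * g)), ?_, ?_, ?_⟩
  · exact (hG'.smul _).add (((isMF_E₄.mul (isMF_E₄.mul hg)).congr_weight (by ring)).smul _)
  · exact (((isMF_E₆.mul hg).congr_weight (by ring)).smul _).neg
  · ext z
    have hΔ := discriminant_eq_E₄_cube_sub_E₆_sq z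
    rw [hfg]
    simp only [Pi.add_apply, Pi.mul_apply, Pi.smul_apply, Pi.neg_apply, smul_eq_mul, Pi.pow_apply]
    rw [hΔ]
    ring

/-! ### Zeros of `E₄`, `E₆` and divisibility -/

theorem E₄_ne_zero_of_E₆_eq_zero {z0 : ℍ} (h : E₆ z0 = 0) : E₄ z0 ≠ 0 := by
  intro h4
  have := discriminant_eq_E₄_cube_sub_E₆_sq z0
  rw [h, h4] at this
  exact discriminant_ne_zero z0 (by simpa using this)

theorem E₆_ne_zero_of_E₄_eq_zero {z0 : ℍ} (h : E₄ z0 = 0) : E₆ z0 ≠ 0 := by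
  intro h6
  have := discriminant_eq_E₄_cube_sub_E₆_sq z0
  rw [h, h6] at this
  exact discriminant_ne_zero z0 (by simpa using this)

/-- **(L3, zeros of `E₆`)**: a level-one form vanishing at a zero of `E₆` is divisible by `E₆`. -/
theorem IsMF.exists_eq_E₆_mul {z0 : ℍ} (hz : E₆ z0 = 0) (hf : IsMF ⊤ k f) (h0 : f z0 = 0) :
    ∃ g, IsMF ⊤ (k - 6) g ∧ f = ⇑E₆ * g := by
  suffices H : ∀ n : ℕ, ∀ (k : ℤ) (f : ℍ → ℂ), k ≤ n → IsMF ⊤ k f → f z0 = 0 →
      ∃ g, IsMF ⊤ (k - 6) g ∧ f = ⇑E₆ * g from H k.toNat k f (Int.self_le_toNat k) hf h0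
  intro n
  induction n with
  | zero =>
    intro k f hk hf h0
    exact ⟨0, IsMF.zero_fun, by rw [hf.top_eq_zero_of_nonpos (by exact_mod_cast hk) h0]; simp⟩
  | succ n ih =>
    intro k f hk hf h0
    by_cases hk0 : k ≤ 0
    · exact ⟨0, IsMF.zero_fun, by rw [hf.top_eq_zero_of_nonpos hk0 h0]; simp⟩
    obtain ⟨a, b, ha, hb, hfab⟩ := hf.top_generation (by omega)
    have ha0 : a z0 = 0 := by
      have := congrFun hfab z0
      simp only [Pi.add_apply, Pi.mul_apply, hz, zero_mul, add_zero, h0] at this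
      exact (mul_eq_zero.mp this.symm).resolve_left (E₄_ne_zero_of_E₆_eq_zero hz)
    obtain ⟨a', ha', haa'⟩ := ih (k - 4) a (by push_cast at hk ⊢; omega) ha ha0
    refine ⟨⇑E₄ * a' + b, ((isMF_E₄.mul ha').congr_weight (by ring)).add hb, ?_⟩
    rw [hfab, haa']
    ring

/-- **(L3, zeros of `E₄`)**: a level-one form vanishing at a zero of `E₄` is divisible by `E₄`. -/
theorem IsMF.exists_eq_E₄_mul {z0 : ℍ} (hz : E₄ z0 = 0) (hf : IsMF ⊤ k f) (h0 : f z0 = 0) :
    ∃ g, IsMF ⊤ (k - 4) g ∧ f = ⇑E₄ * g := by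
  suffices H : ∀ n : ℕ, ∀ (k : ℤ) (f : ℍ → ℂ), k ≤ n → IsMF ⊤ k f → f z0 = 0 →
      ∃ g, IsMF ⊤ (k - 4) g ∧ f = ⇑E₄ * g from H k.toNat k f (Int.self_le_toNat k) hf h0
  intro n
  induction n with
  | zero =>
    intro k f hk hf h0
    exact ⟨0, IsMF.zero_fun, by rw [hf.top_eq_zero_of_nonpos (by exact_mod_cast hk) h0]; simp⟩
  | succ n ih =>
    intro k f hk hf h0
    by_cases hk0 : k ≤ 0
    · exact ⟨0, IsMF.zero_fun, by rw [hf.top_eq_zero_of_nonpos hk0 h0]; simp⟩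
    obtain ⟨a, b, ha, hb, hfab⟩ := hf.top_generation (by omega)
    have hb0 : b z0 = 0 := by
      have := congrFun hfab z0
      simp only [Pi.add_apply, Pi.mul_apply, hz, zero_mul, zero_add, h0] at this
      exact (mul_eq_zero.mp this.symm).resolve_left (E₆_ne_zero_of_E₄_eq_zero hz)
    obtain ⟨b', hb', hbb'⟩ := ih (k - 6) b (by push_cast at hk ⊢; omega) hb hb0
    refine ⟨a + ⇑E₆ * b', ha.add ((isMF_E₆.mul hb').congr_weight (by ring)), ?_⟩
    rw [hfab, hbb']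
    ring

/-- level-one forms of weight `≢ 0 mod 4` vanish at the zeros of `E₆` -/
theorem IsMF.eq_zero_at_of_E₆_eq_zero {z0 : ℍ} (hz : E₆ z0 = 0) (hf : IsMF ⊤ k f)
    (hk : ¬ (4 : ℤ) ∣ k) : f z0 = 0 := by
  suffices H : ∀ n : ℕ, ∀ (k : ℤ) (f : ℍ → ℂ), k ≤ n → IsMF ⊤ k f → ¬ (4 : ℤ) ∣ k →
      f z0 = 0 from H k.toNat k f (Int.self_le_toNat k) hf hk
  intro n
  induction n with
  | zero =>
    intro k f hk hf hk4
    have hk' : k ≤ 0 := by exact_mod_cast hk
    rcases lt_or_eq_of_le hk' with hlt | rfl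
    · rw [hf.eq_zero_of_neg hlt]; rfl
    · exact absurd (dvd_zero _) hk4
  | succ n ih =>
    intro k f hk hf hk4
    by_cases hk0 : k ≤ 0
    · rcases lt_or_eq_of_le hk0 with hlt | rfl
      · rw [hf.eq_zero_of_neg hlt]; rfl
      · exact absurd (dvd_zero _) hk4
    obtain ⟨a, b, ha, hb, hfab⟩ := hf.top_generation (by omega)
    have ha0 : a z0 = 0 := ih (k - 4) a (by push_cast at hk ⊢; omega) ha
      (fun h => hk4 (by simpa using dvd_add h (dvd_refl 4)))
    rw [hfab]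
    simp [ha0, hz]

/-- level-one forms of weight `≢ 0 mod 6` vanish at the zeros of `E₄` -/
theorem IsMF.eq_zero_at_of_E₄_eq_zero {z0 : ℍ} (hz : E₄ z0 = 0) (hf : IsMF ⊤ k f)
    (hk : ¬ (6 : ℤ) ∣ k) : f z0 = 0 := by
  suffices H : ∀ n : ℕ, ∀ (k : ℤ) (f : ℍ → ℂ), k ≤ n → IsMF ⊤ k f → ¬ (6 : ℤ) ∣ k →
      f z0 = 0 from H k.toNat k f (Int.self_le_toNat k) hf hk
  intro n
  induction n with
  | zero =>
    intro k f hk hf hk6
    have hk' : k ≤ 0 := by exact_mod_cast hk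
    rcases lt_or_eq_of_le hk' with hlt | rfl
    · rw [hf.eq_zero_of_neg hlt]; rfl
    · exact absurd (dvd_zero _) hk6
  | succ n ih =>
    intro k f hk hf hk6
    by_cases hk0 : k ≤ 0
    · rcases lt_or_eq_of_le hk0 with hlt | rfl
      · rw [hf.eq_zero_of_neg hlt]; rfl
      · exact absurd (dvd_zero _) hk6
    obtain ⟨a, b, ha, hb, hfab⟩ := hf.top_generation (by omega)
    have hb0 : b z0 = 0 := ih (k - 6) b (by push_cast at hk ⊢; omega) hb
      (fun h => hk6 (by simpa using dvd_add h (dvd_refl 6)))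
    rw [hfab]
    simp [hb0, hz]

/-! ### The generic point form -/

/-- the weight 12 level-one form `Δ(z₀) E₄³ - E₄(z₀)³ Δ`, vanishing at `z₀` -/
noncomputable def genForm (z0 : ℍ) : ℍ → ℂ := Δ z0 • ⇑E₄ ^ 3 - E₄ z0 ^ 3 • Δ

theorem isMF_genForm (z0 : ℍ) : IsMF ⊤ 12 (genForm z0) :=
  (((isMF_E₄.npow 3).congr_weight (by norm_num)).smul _).sub (isMF_discriminant.smul _)

theorem genForm_self (z0 : ℍ) : genForm z0 z0 = 0 := by
  simp only [genForm, Pi.sub_apply, Pi.smul_apply, Pi.pow_apply, smul_eq_mul]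
  ring

theorem monomial_ne_zero {z0 : ℍ} (h4 : E₄ z0 ≠ 0) (h6 : E₆ z0 ≠ 0) (x y : ℕ) :
    (⇑E₄ ^ x * ⇑E₆ ^ y) z0 ≠ 0 := by
  simp only [Pi.mul_apply, Pi.pow_apply]
  exact mul_ne_zero (pow_ne_zero _ h4) (pow_ne_zero _ h6)

/-- **(L3, generic point)**: a level-one form vanishing at `z₀` (not a zero of `E₄`, `E₆`) is
divisible by `genForm z₀`. -/
theorem IsMF.exists_eq_genForm_mul {z0 : ℍ} (h4 : E₄ z0 ≠ 0) (h6 : E₆ z0 ≠ 0) (hf : IsMF ⊤ k f)
    (h0 : f z0 = 0) : ∃ g, IsMF ⊤ (k - 12) g ∧ f = genForm z0 * g := by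
  suffices H : ∀ n : ℕ, ∀ (k : ℤ) (f : ℍ → ℂ), k ≤ n → IsMF ⊤ k f → f z0 = 0 →
      ∃ g, IsMF ⊤ (k - 12) g ∧ f = genForm z0 * g from H k.toNat k f (Int.self_le_toNat k) hf h0
  intro n
  induction n using Nat.strong_induction_on with
  | _ n ih =>
    intro k f hk hf h0
    have hzero : f = 0 → ∃ g, IsMF ⊤ (k - 12) g ∧ f = genForm z0 * g := fun h =>
      ⟨0, IsMF.zero_fun, by rw [h]; simp⟩
    by_cases hk0 : k ≤ 0
    · exact hzero (hf.top_eq_zero_of_nonpos hk0 h0)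
    rcases Int.even_or_odd k with hev | hodd
    swap
    · exact hzero (hf.top_eq_zero_of_odd hodd)
    by_cases h2 : k = 2
    · subst h2
      exact hzero hf.top_eq_zero_of_weight_two
    have hk4 : 4 ≤ k := by
      obtain ⟨m, rfl⟩ := hev
      omega
    have hΔ0 : Δ z0 ≠ 0 := discriminant_ne_zero z0
    by_cases hsmall : k < 12 ∨ k = 14
    · obtain ⟨x, y, hxy⟩ := exists_weight_decomp hev (by omega) h2
      have hG : IsMF ⊤ k (⇑E₄ ^ x * ⇑E₆ ^ y) := (isMF_monomial x y).congr_weight hxy.symm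
      obtain ⟨g, hg, hfg⟩ := hf.exists_eq_smul_add_discriminant_mul hG (tendsto_monomial x y)
      generalize valueAtInfty f = c at hfg
      have hg0 : g = 0 := by
        rcases hsmall with h | h
        · exact hg.eq_zero_of_neg (by omega)
        · exact (hg.congr_weight (by omega)).top_eq_zero_of_weight_two
      rw [hg0, mul_zero, add_zero] at hfg
      have hc : c = 0 := by
        have := congrFun hfg z0
        rw [h0, Pi.smul_apply, smul_eq_mul] at this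
        exact (mul_eq_zero.mp this.symm).resolve_right (monomial_ne_zero h4 h6 x y)
      exact hzero (by rw [hfg, hc, zero_smul])
    · have hk12 : 12 ≤ k := by omega
      obtain ⟨x, y, hxy⟩ := exists_weight_decomp (k := k - 12)
        (by obtain ⟨m, rfl⟩ := hev; exact ⟨m - 6, by ring⟩) (by omega) (by omega)
      have hG' : IsMF ⊤ (k - 12) (⇑E₄ ^ x * ⇑E₆ ^ y) :=
        (isMF_monomial x y).congr_weight hxy.symm
      have hG : IsMF ⊤ k (⇑E₄ ^ 3 * (⇑E₄ ^ x * ⇑E₆ ^ y)) :=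
        ((isMF_E₄.npow 3).mul hG').congr_weight (by push_cast; ring)
      have hG1 : Tendsto (⇑E₄ ^ 3 * (⇑E₄ ^ x * ⇑E₆ ^ y)) atImInfty (𝓝 1) := by
        have h := (tendsto_E₄.pow 3).mul (tendsto_monomial x y)
        rw [one_pow, one_mul] at h
        exact h
      obtain ⟨g, hg, hfg⟩ := hf.exists_eq_smul_add_discriminant_mul hG hG1
      generalize valueAtInfty f = c at hfg
      generalize (⇑E₄ ^ x * ⇑E₆ ^ y : ℍ → ℂ) = G' at hG' hfg
      have hg' : IsMF ⊤ (k - 12) ((c * E₄ z0 ^ 3 / Δ z0) • G' + g) := (hG'.smul _).add hg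
      have key : f = (c / Δ z0) • (genForm z0 * G') + Δ * ((c * E₄ z0 ^ 3 / Δ z0) • G' + g) := by
        rw [hfg]
        ext z
        simp only [genForm, Pi.add_apply, Pi.mul_apply, Pi.smul_apply, Pi.sub_apply, smul_eq_mul,
          Pi.pow_apply]
        field_simp
        ring
      have hg'0 : ((c * E₄ z0 ^ 3 / Δ z0) • G' + g) z0 = 0 := by
        have := congrFun key z0
        rw [h0, Pi.add_apply, Pi.smul_apply, Pi.mul_apply, genForm_self, zero_mul, smul_zero,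
          zero_add, Pi.mul_apply] at this
        exact (mul_eq_zero.mp this.symm).resolve_left hΔ0
      obtain ⟨g'', hg'', hgg⟩ := ih (k - 12).toNat (by omega) (k - 12) _ (Int.self_le_toNat _)
        hg' hg'0
      refine ⟨(c / Δ z0) • G' + Δ * g'', (hG'.smul _).add
        ((isMF_discriminant.mul hg'').congr_weight (by ring)), ?_⟩
      rw [key, hgg]
      ext z
      simp only [Pi.add_apply, Pi.mul_apply, Pi.smul_apply, smul_eq_mul]
      ring

end Fermat.Agent.S20
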