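import Fermat.Agent.S20.LevelOneDefs
import Fermat.Agent.S20.LevelOneMF
import Fermat.Agent.S20.LevelOneTools

/-!
# S20 library: level-one facts (the 15 blueprint interface statements, in the `E4 E6 Dl` names)

`Fermat.Agent.S20.LevelOneAPI` re-exports this module together with `LevelOneTools`.
-/

open UpperHalfPlane ModularForm EisensteinSeries Filter
open scoped MatrixGroups ModularForm Manifold Topology Real

namespace Fermat.Agent.S20

variable {k : ℤ} {f : ℍ → ℂ}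

/-- (L0) every level-one form has a limit at `i∞`. -/
theorem IsMF.exists_tendsto_top (h : IsMF ⊤ k f) : ∃ c : ℂ, Tendsto f atImInfty (𝓝 c) :=
  ⟨_, LevelOne.tendsto_coeffZero h.toLevelOne⟩

theorem tendsto_E4 : Tendsto E4 atImInfty (𝓝 1) := LevelOne.tendsto_E4

theorem tendsto_E6 : Tendsto E6 atImInfty (𝓝 1) := LevelOne.tendsto_E6

/-- `Δ(z) e^{-2πiz} → 1`. -/
theorem tendsto_Dl_mul_exp :
    Tendsto (fun z : ℍ => Dl z * Complex.exp (-(2 * π * Complex.I * z))) atImInfty (𝓝 1) :=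
  LevelOne.tendsto_discriminant_mul_exp

/-- a level-one form which tends to `0` at `i∞` is a cusp form -/
theorem LevelOne.isCF_of_tendsto_zero (h : IsMF ⊤ k f) (h0 : Tendsto f atImInfty (𝓝 0)) :
    IsCF ⊤ k f :=
  ⟨h.holo, h.inv, fun g => by rw [h.slash_eq_of_top g]; exact h0⟩

/-- (L1) a level-one form vanishing at `i∞` is `Δ` times a level-one form (Mathlib
`CuspForm.discriminantEquiv`). -/
theorem dvd_Dl_top (h : IsMF ⊤ k f) (h0 : Tendsto f atImInfty (𝓝 0)) :
    ∃ f', IsMF ⊤ (k - 12) f' ∧ f = Dl * f' := by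
  set F : CuspForm 𝒮ℒ k := (LevelOne.isCF_of_tendsto_zero h h0).toLevelOne with hF
  refine ⟨⇑(CuspForm.discriminantEquiv F), isMF_top_of_modularForm _, ?_⟩
  funext z
  have := discriminant_mul_discriminantEquiv_apply F z
  simp only [Pi.mul_apply, Dl]
  rw [this]
  rfl

/-- (L1) level-one forms of weight `2` vanish. -/
theorem eq_zero_of_weight_two (h : IsMF ⊤ 2 f) : f = 0 := by
  have := rank_zero_iff_forall_zero.mp levelOne_weight_two_rank_zero h.toLevelOne
  have h2 := congrArg (fun F : ModularForm 𝒮ℒ 2 => (⇑F : ℍ → ℂ)) this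
  simpa using h2

/-- (L1) level-one forms of odd weight vanish. -/
theorem eq_zero_of_odd_top (h : IsMF ⊤ k f) (hk : Odd k) : f = 0 := by
  have := levelOne_odd_weight_eq_zero hk h.toLevelOne
  have h2 := congrArg (fun F : ModularForm 𝒮ℒ k => (⇑F : ℍ → ℂ)) this
  simpa using h2

/-- (L1) generation by `E₄`, `E₆` in positive weight. -/
theorem gen_E4_E6 (hk : 0 < k) (h : IsMF ⊤ k f) :
    ∃ a b, IsMF ⊤ (k - 4) a ∧ IsMF ⊤ (k - 6) b ∧ f = E4 * a + E6 * b := by
  obtain ⟨a, b, hab⟩ := LevelOne.exists_E4_mul_add_E6_mul hk h.toLevelOne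
  refine ⟨⇑a, ⇑b, isMF_top_of_modularForm a, isMF_top_of_modularForm b, ?_⟩
  funext z
  exact hab z

/-- (L2) The Rankin–Cohen bracket `2 E₄ E₆' - 3 E₄' E₆` never vanishes (it is `c Δ`, `c ≠ 0`;
use `Derivative.serreDerivative_slash_equivariant`). -/
theorem bracket_ne_zero (z : ℍ) :
    2 * E4 z * deriv (E6 ∘ ofComplex) z - 3 * deriv (E4 ∘ ofComplex) z * E6 z ≠ 0 :=
  LevelOne.bracket_ne_zero z

/-! ### Auxiliary facts -/

theorem LevelOne.isMF_pow {Γ : Subgroup SL(2, ℤ)} (h : IsMF Γ k f) (n : ℕ) : IsMF Γ (n * k) (f ^ n) := by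
  induction n with
  | zero =>
    simp only [Nat.cast_zero, zero_mul, pow_zero]
    exact IsMF.const 1
  | succ n ih =>
    rw [pow_succ]
    exact (ih.mul h).congr_weight (by push_cast; ring)

/-- a level-one form of weight `≤ 0` with a zero vanishes identically -/
theorem LevelOne.eq_zero_of_nonpos (h : IsMF ⊤ k f) (hk : k ≤ 0) {z₀ : ℍ} (hz : f z₀ = 0) : f = 0 := by
  rcases hk.lt_or_eq with hk | rfl
  · exact h.eq_zero_of_neg hk
  · obtain ⟨c, rfl⟩ := h.eq_const_of_weight_zero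
    simp only at hz
    subst hz
    rfl

theorem LevelOne.E4_ne_zero_of_E6_eq_zero {z : ℍ} (hz : E6 z = 0) : E4 z ≠ 0 := by
  intro h4
  have := Dl_ne_zero z
  rw [Dl_eq, h4, hz] at this
  simp at this

theorem LevelOne.E6_ne_zero_of_E4_eq_zero {z : ℍ} (hz : E4 z = 0) : E6 z ≠ 0 := by
  intro h6
  have := Dl_ne_zero z
  rw [Dl_eq, h6, hz] at this
  simp at this

/-- monomials `E₄^a E₆^b` with constant term one in every even weight `0` or `≥ 4` -/
theorem LevelOne.exists_mono (hk : Even k) (hk' : k = 0 ∨ 4 ≤ k) :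
    ∃ m, IsMF ⊤ k m ∧ Tendsto m atImInfty (𝓝 1) ∧ ∀ z, E4 z ≠ 0 → E6 z ≠ 0 → m z ≠ 0 := by
  obtain ⟨r, hr⟩ := hk
  rcases Int.even_or_odd r with ⟨s, hs⟩ | ⟨s, hs⟩
  · -- k = 4 s
    obtain ⟨n, rfl⟩ : ∃ n : ℕ, s = n := ⟨s.toNat, by omega⟩
    refine ⟨E4 ^ n, (LevelOne.isMF_pow isMF_E4 n).congr_weight (by omega), ?_, fun z h4 _ => ?_⟩
    · have := S20.tendsto_E4.pow n
      rw [one_pow] at this
      exact this
    · simpa using pow_ne_zero n h4
  · -- k = 4 s + 2, s ≥ 1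
    obtain ⟨n, rfl⟩ : ∃ n : ℕ, s = n + 1 := ⟨(s - 1).toNat, by omega⟩
    refine ⟨E6 * E4 ^ n, (isMF_E6.mul (LevelOne.isMF_pow isMF_E4 n)).congr_weight (by omega), ?_,
      fun z h4 h6 => ?_⟩
    · have := S20.tendsto_E6.mul (S20.tendsto_E4.pow n)
      rw [one_pow, one_mul] at this
      exact this
    · simpa using mul_ne_zero h6 (pow_ne_zero n h4)

theorem LevelOne.hasDerivAt_E4 (z : ℍ) : HasDerivAt (E4 ∘ ofComplex) (deriv (E4 ∘ ofComplex) z) z :=
  (LevelOne.differentiableAt_comp_ofComplex ModularForm.E₄ z.im_pos).hasDerivAt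

theorem LevelOne.hasDerivAt_E6 (z : ℍ) : HasDerivAt (E6 ∘ ofComplex) (deriv (E6 ∘ ofComplex) z) z :=
  (LevelOne.differentiableAt_comp_ofComplex ModularForm.E₆ z.im_pos).hasDerivAt

/-! ### Divisibility at the zeros of `E₆` and `E₄` -/

theorem LevelOne.dvd_E6_aux {z₀ : ℍ} (hz : E6 z₀ = 0) (n : ℕ) :
    ∀ (k : ℤ) (f : ℍ → ℂ), k ≤ n → IsMF ⊤ k f → f z₀ = 0 →
      ∃ f', IsMF ⊤ (k - 6) f' ∧ f = E6 * f' := by
  induction n using Nat.strong_induction_on with
  | _ n ih =>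
    intro k f hkn h hf
    by_cases hk : k ≤ 0
    · refine ⟨0, IsMF.zero_fun, ?_⟩
      rw [LevelOne.eq_zero_of_nonpos h hk hf, mul_zero]
    · rw [not_le] at hk
      obtain ⟨a, b, ha, hb, rfl⟩ := gen_E4_E6 hk h
      have ha0 : a z₀ = 0 := by
        have : E4 z₀ * a z₀ = 0 := by simpa [hz] using hf
        exact (mul_eq_zero.mp this).resolve_left (LevelOne.E4_ne_zero_of_E6_eq_zero hz)
      obtain ⟨a', ha', rfl⟩ := ih (k - 4).toNat (by omega) (k - 4) a (by omega) ha ha0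
      refine ⟨E4 * a' + b, ((isMF_E4.mul ha').congr_weight (by ring)).add hb, ?_⟩
      ring

theorem LevelOne.dvd_E4_aux {z₀ : ℍ} (hz : E4 z₀ = 0) (n : ℕ) :
    ∀ (k : ℤ) (f : ℍ → ℂ), k ≤ n → IsMF ⊤ k f → f z₀ = 0 →
      ∃ f', IsMF ⊤ (k - 4) f' ∧ f = E4 * f' := by
  induction n using Nat.strong_induction_on with
  | _ n ih =>
    intro k f hkn h hf
    by_cases hk : k ≤ 0
    · refine ⟨0, IsMF.zero_fun, ?_⟩
      rw [LevelOne.eq_zero_of_nonpos h hk hf, mul_zero]
    · rw [not_le] at hk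
      obtain ⟨a, b, ha, hb, rfl⟩ := gen_E4_E6 hk h
      have hb0 : b z₀ = 0 := by
        have : E6 z₀ * b z₀ = 0 := by simpa [hz] using hf
        exact (mul_eq_zero.mp this).resolve_left (LevelOne.E6_ne_zero_of_E4_eq_zero hz)
      obtain ⟨b', hb', rfl⟩ := ih (k - 6).toNat (by omega) (k - 6) b (by omega) hb hb0
      refine ⟨a + E6 * b', ha.add ((isMF_E6.mul hb').congr_weight (by ring)), ?_⟩
      ring

/-- (L3) at a zero of `E₆`, `E₆` is a good divisor. -/
theorem goodDivisor_E6 {z₀ : ℍ} (hz : E6 z₀ = 0) : GoodDivisor E6 6 z₀ where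
  isMF := isMF_E6
  zero := hz
  deriv_ne := by
    intro h
    have := bracket_ne_zero z₀
    rw [h, hz] at this
    simp at this
  dvd k f h hf := LevelOne.dvd_E6_aux hz k.toNat k f (by omega) h hf
  lim := ⟨1, one_ne_zero, tendsto_E6⟩

/-- (L3) at a zero of `E₄`, `E₄` is a good divisor. -/
theorem goodDivisor_E4 {z₀ : ℍ} (hz : E4 z₀ = 0) : GoodDivisor E4 4 z₀ where
  isMF := isMF_E4
  zero := hz
  deriv_ne := by
    intro h
    have := bracket_ne_zero z₀
    rw [h, hz] at this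
    simp at this
  dvd k f h hf := LevelOne.dvd_E4_aux hz k.toNat k f (by omega) h hf
  lim := ⟨1, one_ne_zero, tendsto_E4⟩

theorem LevelOne.eq_zero_at_E6_zero_aux {z₀ : ℍ} (hz : E6 z₀ = 0) (n : ℕ) :
    ∀ (k : ℤ) (f : ℍ → ℂ), k ≤ n → IsMF ⊤ k f → ¬ (4 : ℤ) ∣ k → f z₀ = 0 := by
  induction n using Nat.strong_induction_on with
  | _ n ih =>
    intro k f hkn h hk4
    by_cases hk : k ≤ 0
    · have hk0 : k < 0 := lt_of_le_of_ne hk (by rintro rfl; exact hk4 (dvd_zero _))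
      rw [h.eq_zero_of_neg hk0]; rfl
    · rw [not_le] at hk
      obtain ⟨a, b, ha, hb, rfl⟩ := gen_E4_E6 hk h
      have ha0 : a z₀ = 0 :=
        ih (k - 4).toNat (by omega) (k - 4) a (by omega) ha (by omega)
      simp [ha0, hz]

theorem LevelOne.eq_zero_at_E4_zero_aux {z₀ : ℍ} (hz : E4 z₀ = 0) (n : ℕ) :
    ∀ (k : ℤ) (f : ℍ → ℂ), k ≤ n → IsMF ⊤ k f → ¬ (6 : ℤ) ∣ k → f z₀ = 0 := by
  induction n using Nat.strong_induction_on with
  | _ n ih =>
    intro k f hkn h hk6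
    by_cases hk : k ≤ 0
    · have hk0 : k < 0 := lt_of_le_of_ne hk (by rintro rfl; exact hk6 (dvd_zero _))
      rw [h.eq_zero_of_neg hk0]; rfl
    · rw [not_le] at hk
      obtain ⟨a, b, ha, hb, rfl⟩ := gen_E4_E6 hk h
      have hb0 : b z₀ = 0 :=
        ih (k - 6).toNat (by omega) (k - 6) b (by omega) hb (by omega)
      simp [hb0, hz]

/-- (L3) level-one forms of weight not divisible by `4` vanish at zeros of `E₆`. -/
theorem eq_zero_at_E6_zero (h : IsMF ⊤ k f) (hk : ¬ (4 : ℤ) ∣ k) {z₀ : ℍ} (hz : E6 z₀ = 0) :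
    f z₀ = 0 :=
  LevelOne.eq_zero_at_E6_zero_aux hz k.toNat k f (by omega) h hk

/-- (L3) level-one forms of weight not divisible by `6` vanish at zeros of `E₄`. -/
theorem eq_zero_at_E4_zero (h : IsMF ⊤ k f) (hk : ¬ (6 : ℤ) ∣ k) {z₀ : ℍ} (hz : E4 z₀ = 0) :
    f z₀ = 0 :=
  LevelOne.eq_zero_at_E4_zero_aux hz k.toNat k f (by omega) h hk

/-! ### The generic divisor -/

theorem LevelOne.isMF_Pgen (z₀ : ℍ) : IsMF ⊤ 12 (Pgen z₀) := by
  have h6 : IsMF ⊤ 12 (E6 ^ 2) := (LevelOne.isMF_pow isMF_E6 2).congr_weight (by norm_num)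
  have h4 : IsMF ⊤ 12 (E4 ^ 3) := (LevelOne.isMF_pow isMF_E4 3).congr_weight (by norm_num)
  have := (h6.smul (E4 z₀ ^ 3)).sub (h4.smul (E6 z₀ ^ 2))
  have he : Pgen z₀ = E4 z₀ ^ 3 • E6 ^ 2 - E6 z₀ ^ 2 • E4 ^ 3 := by
    funext z
    simp [Pgen]
  rw [he]
  exact this

theorem LevelOne.Pgen_self (z₀ : ℍ) : Pgen z₀ z₀ = 0 := by
  simp only [Pgen]
  ring

theorem LevelOne.tendsto_Pgen (z₀ : ℍ) : Tendsto (Pgen z₀) atImInfty (𝓝 (E4 z₀ ^ 3 - E6 z₀ ^ 2)) := by
  have := ((S20.tendsto_E6.pow 2).const_mul (E4 z₀ ^ 3)).sub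
    ((S20.tendsto_E4.pow 3).const_mul (E6 z₀ ^ 2))
  rw [one_pow, one_pow, mul_one, mul_one] at this
  exact this

theorem LevelOne.E4_cube_sub_E6_sq_ne_zero' (z : ℍ) : E4 z ^ 3 - E6 z ^ 2 ≠ 0 :=
  LevelOne.E4_cube_sub_E6_sq_ne_zero z

theorem LevelOne.deriv_Pgen (z₀ : ℍ) : deriv (Pgen z₀ ∘ ofComplex) z₀ = E4 z₀ ^ 2 * E6 z₀ *
    (2 * E4 z₀ * deriv (E6 ∘ ofComplex) z₀ - 3 * deriv (E4 ∘ ofComplex) z₀ * E6 z₀) := by
  have d4 := LevelOne.hasDerivAt_E4 z₀
  have d6 := LevelOne.hasDerivAt_E6 z₀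
  have h := ((d6.pow 2).const_mul (E4 z₀ ^ 3)).sub ((d4.pow 3).const_mul (E6 z₀ ^ 2))
  have he : Pgen z₀ ∘ ofComplex = fun w =>
      E4 z₀ ^ 3 * (E6 ∘ ofComplex) w ^ 2 - E6 z₀ ^ 2 * (E4 ∘ ofComplex) w ^ 3 := rfl
  have h' : HasDerivAt (Pgen z₀ ∘ ofComplex) _ z₀ := h
  rw [h'.deriv]
  simp only [Function.comp_apply, ofComplex_apply]
  push_cast
  ring

theorem LevelOne.dvd_Pgen_aux {z₀ : ℍ} (h4 : E4 z₀ ≠ 0) (h6 : E6 z₀ ≠ 0) (n : ℕ) :
    ∀ (k : ℤ) (f : ℍ → ℂ), k ≤ n → IsMF ⊤ k f → f z₀ = 0 →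
      ∃ f', IsMF ⊤ (k - 12) f' ∧ f = Pgen z₀ * f' := by
  induction n using Nat.strong_induction_on with
  | _ n ih =>
    intro k f hkn h hf
    have hzero : f = 0 → ∃ f', IsMF ⊤ (k - 12) f' ∧ f = Pgen z₀ * f' := fun h0 =>
      ⟨0, IsMF.zero_fun, by rw [h0, mul_zero]⟩
    by_cases hk : k ≤ 0
    · exact hzero (LevelOne.eq_zero_of_nonpos h hk hf)
    rw [not_le] at hk
    rcases Int.even_or_odd k with hev | hodd
    swap
    · exact hzero (eq_zero_of_odd_top h hodd)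
    by_cases hk2 : k = 2
    · subst hk2
      exact hzero (eq_zero_of_weight_two h)
    have hk4 : 4 ≤ k := by
      obtain ⟨r, hr⟩ := hev
      omega
    obtain ⟨c, hc⟩ := h.exists_tendsto_top
    by_cases hsmall : k < 12 ∨ k = 14
    · -- `f = c • m`
      obtain ⟨m, hm, hmlim, hmne⟩ := LevelOne.exists_mono hev (Or.inr hk4)
      have hsub : IsMF ⊤ k (f - c • m) := h.sub (hm.smul c)
      have hlim : Tendsto (f - c • m) atImInfty (𝓝 0) := by
        have := hc.sub (hmlim.const_smul c)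
        have h0 : c - c • (1 : ℂ) = 0 := by simp
        rw [h0] at this
        exact this
      obtain ⟨g, hg, hfg⟩ := dvd_Dl_top hsub hlim
      have hg0 : g = 0 := by
        rcases hsmall with hlt | h14
        · exact hg.eq_zero_of_neg (by omega)
        · subst h14
          exact eq_zero_of_weight_two (hg.congr_weight (by norm_num))
      have hfm : f = c • m := by
        rw [hg0, mul_zero] at hfg
        exact sub_eq_zero.mp hfg
      have hc0 : c = 0 := by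
        have : c * m z₀ = 0 := by
          rw [hfm] at hf
          simpa using hf
        exact (mul_eq_zero.mp this).resolve_right (hmne z₀ h4 h6)
      exact hzero (by rw [hfm, hc0, zero_smul])
    · -- `12 ≤ k`, `k ≠ 14`
      rw [not_or, not_lt] at hsmall
      obtain ⟨hk12, hk14⟩ := hsmall
      have hev' : Even (k - 12) := by
        obtain ⟨r, hr⟩ := hev
        exact ⟨r - 6, by omega⟩
      obtain ⟨m, hm, hmlim, -⟩ := LevelOne.exists_mono hev' (by
        obtain ⟨r, hr⟩ := hev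
        omega)
      set d := E4 z₀ ^ 3 - E6 z₀ ^ 2 with hd
      have hd0 : d ≠ 0 := LevelOne.E4_cube_sub_E6_sq_ne_zero' z₀
      have hPm : IsMF ⊤ k (Pgen z₀ * m) := ((LevelOne.isMF_Pgen z₀).mul hm).congr_weight (by ring)
      have hsub : IsMF ⊤ k (f - (c / d) • (Pgen z₀ * m)) := h.sub (hPm.smul _)
      have hlim : Tendsto (f - (c / d) • (Pgen z₀ * m)) atImInfty (𝓝 0) := by
        have := hc.sub (((LevelOne.tendsto_Pgen z₀).mul hmlim).const_smul (c / d))
        have h0 : c - (c / d) • (d * 1) = 0 := by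
          simp only [smul_eq_mul, mul_one]
          field_simp
          ring
        rw [← hd, h0] at this
        exact this
      obtain ⟨g, hg, hfg⟩ := dvd_Dl_top hsub hlim
      have hg0 : g z₀ = 0 := by
        have := congrFun hfg z₀
        simp only [Pi.sub_apply, Pi.smul_apply, Pi.mul_apply, LevelOne.Pgen_self, hf, zero_mul,
          smul_zero, sub_zero] at this
        exact (mul_eq_zero.mp this.symm).resolve_left (Dl_ne_zero z₀)
      obtain ⟨g', hg', rfl⟩ := ih (k - 12).toNat (by omega) (k - 12) g (by omega) hg hg0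
      refine ⟨(c / d) • m + Dl * g',
        (hm.smul _).add ((isCF_Dl.isMF.mul hg').congr_weight (by ring)), ?_⟩
      have hf' : f = (c / d) • (Pgen z₀ * m) + Dl * (Pgen z₀ * g') := by
        rw [← hfg]
        ring
      rw [hf']
      funext z
      simp only [Pi.add_apply, Pi.smul_apply, Pi.mul_apply, smul_eq_mul]
      ring

/-- (L3) at a generic point, `Pgen z₀` is a good divisor. -/
theorem goodDivisor_Pgen {z₀ : ℍ} (h4 : E4 z₀ ≠ 0) (h6 : E6 z₀ ≠ 0) :
    GoodDivisor (Pgen z₀) 12 z₀ where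
  isMF := LevelOne.isMF_Pgen z₀
  zero := LevelOne.Pgen_self z₀
  deriv_ne := by
    rw [LevelOne.deriv_Pgen]
    exact mul_ne_zero (mul_ne_zero (pow_ne_zero 2 h4) h6) (bracket_ne_zero z₀)
  dvd k f h hf := LevelOne.dvd_Pgen_aux h4 h6 k.toNat k f (by omega) h hf
  lim := ⟨_, LevelOne.E4_cube_sub_E6_sq_ne_zero' z₀, LevelOne.tendsto_Pgen z₀⟩

/-! ### Nowhere-vanishing forms -/

/-- the inverse of a nowhere-vanishing level-one form with nonzero limit at `i∞` -/
theorem LevelOne.isMF_inv_top (h : IsMF ⊤ k f) (hf : ∀ z, f z ≠ 0) {c : ℂ} (hc : c ≠ 0)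
    (hlim : Tendsto f atImInfty (𝓝 c)) : IsMF ⊤ (-k) f⁻¹ := by
  have hinv : ∀ γ : SL(2, ℤ), f⁻¹ ∣[-k] γ = f⁻¹ := by
    intro γ
    funext z
    have h1 := congrFun (h.slash_eq_of_top γ) z
    rw [SL_slash_apply] at h1 ⊢
    simp only [Pi.inv_apply, neg_neg]
    rw [← h1, mul_inv, zpow_neg, inv_inv]
  refine ⟨h.holo.inv hf, fun γ _ => hinv γ, fun γ => ?_⟩
  rw [hinv γ]
  exact (hlim.inv₀ hc).isBigO_one ℝ

/-- a nowhere-vanishing level-one form with nonzero limit at `i∞` has weight `0` -/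
theorem LevelOne.weight_eq_zero_of_ne_zero (h : IsMF ⊤ k f) (hf : ∀ z, f z ≠ 0) {c : ℂ} (hc : c ≠ 0)
    (hlim : Tendsto f atImInfty (𝓝 c)) : k = 0 := by
  have hI : f UpperHalfPlane.I ≠ 0 := hf _
  by_contra hk
  rcases lt_or_gt_of_ne hk with hk | hk
  · apply hI
    rw [h.eq_zero_of_neg hk]
    rfl
  · have := (LevelOne.isMF_inv_top h hf hc hlim).eq_zero_of_neg (by omega)
    have h2 := congrFun this UpperHalfPlane.I
    simp only [Pi.inv_apply, Pi.zero_apply, inv_eq_zero] at h2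
    exact hI h2

theorem LevelOne.tendsto_exp_mul_atImInfty {e : ℕ} (he : 0 < e) :
    Tendsto (fun z : ℍ => Complex.exp (2 * π * Complex.I * e * z)) atImInfty (𝓝 0) := by
  have h1 : Tendsto (fun z : ℍ => Function.Periodic.qParam 1 z) atImInfty (𝓝 0) :=
    qParam_tendsto_atImInfty one_pos
  have h2 := h1.pow e
  rw [zero_pow he.ne'] at h2
  refine h2.congr fun z => ?_
  rw [Function.Periodic.qParam, ← Complex.exp_nat_mul]
  congr 1
  push_cast
  ring

/-- (L4) a nowhere-vanishing level-one form `D` of weight `k` with `D(z) e^{-2πi e z} → c ≠ 0`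
has weight `k = 12 e`. -/
theorem weight_eq_of_nonvanishing (h : IsMF ⊤ k f) (hf : ∀ z, f z ≠ 0) (e : ℕ) {c : ℂ} (hc : c ≠ 0)
    (hlim : Tendsto (fun z : ℍ => f z * Complex.exp (-(2 * π * Complex.I * e * z))) atImInfty
      (𝓝 c)) : k = 12 * e := by
  induction e generalizing k f with
  | zero =>
    have : k = 0 := LevelOne.weight_eq_zero_of_ne_zero h hf hc (by simpa using hlim)
    simp [this]
  | succ e ih =>
    -- `f → 0`
    have h0 : Tendsto f atImInfty (𝓝 0) := by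
      have := hlim.mul (LevelOne.tendsto_exp_mul_atImInfty (Nat.succ_pos e))
      rw [mul_zero] at this
      refine this.congr fun z => ?_
      rw [mul_assoc, ← Complex.exp_add]
      simp
    obtain ⟨g, hg, rfl⟩ := dvd_Dl_top h h0
    have hg0 : ∀ z, g z ≠ 0 := fun z hz => hf z (by simp [hz])
    have hglim : Tendsto (fun z : ℍ => g z * Complex.exp (-(2 * π * Complex.I * e * z)))
        atImInfty (𝓝 c) := by
      have := hlim.div tendsto_Dl_mul_exp one_ne_zero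
      rw [div_one] at this
      refine this.congr' ?_
      filter_upwards with z
      have hD := Dl_ne_zero z
      have hE : Complex.exp (-(2 * π * Complex.I * ((e + 1 : ℕ) : ℂ) * z)) =
          Complex.exp (-(2 * π * Complex.I * e * z)) * Complex.exp (-(2 * π * Complex.I * z)) := by
        rw [← Complex.exp_add]
        congr 1
        push_cast
        ring
      simp only [Pi.mul_apply, Pi.div_apply]
      rw [hE]
      have hx : Complex.exp (-(2 * π * Complex.I * z)) ≠ 0 := Complex.exp_ne_zero _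
      field_simp
    have := ih hg hg0 hglim
    push_cast
    omega

end Fermat.Agent.S20
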