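import Fermat.Agent.S20.FrameDefs
import Fermat.Agent.S20.Cusp
import Fermat.Agent.S20.LevelOne

/-!
# S20 library: the determinant of a good frame   (OWNER: helper27)

`D(z) = det(frameMat z)^2` is a nowhere-vanishing level-one form of weight `2 ∑ κ`
(`frameMat (g • z) = P_g * frameMat z * diag(denom g z ^ κ i)` with `P_g` a permutation matrix, by
`tr_smul_apply`).  With `cuspData`: `C * frameMat z = diag(e^{2πi θ_q z}) * X(z)` where
`X(z) = (cuspFun (κ i) (F i) q z)_{q,i} → cuspMat`, so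
`D(z) e^{-2πi z (μ - ν∞)} → (det Cinv)^2 (det cuspMat)^2 ≠ 0` (as `2 ∑ θ = μ - ν∞`).
Conclude with `weight_eq_of_nonvanishing`.
-/

open UpperHalfPlane ModularForm Filter Matrix
open scoped MatrixGroups ModularForm Manifold Topology Real

namespace Fermat.Agent.S20

variable {Γ : Subgroup SL(2, ℤ)} [Γ.FiniteIndex] {κ : SL(2, ℤ) ⧸ Γ → ℕ}
  {F : SL(2, ℤ) ⧸ Γ → ℍ → ℂ}

namespace Det

/-- the determinant of a matrix of holomorphic functions is holomorphic -/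
theorem mdiff_det {n : Type} [Fintype n] [DecidableEq n] (M : Matrix n n (ℍ → ℂ))
    (hM : ∀ i j, MDiff (M i j)) : MDiff M.det := by
  rw [Matrix.det_apply']
  refine MDifferentiable.sum fun σ _ => ?_
  refine MDifferentiable.mul ?_ (MDifferentiable.prod fun i _ => hM _ _)
  have e : (((Equiv.Perm.sign σ : ℤ) : ℍ → ℂ)) = fun _ : ℍ => ((Equiv.Perm.sign σ : ℤ) : ℂ) :=
    rfl
  rw [e]
  exact mdifferentiable_const

/-- the determinant of a matrix of functions bounded at `i∞` is bounded at `i∞` -/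
theorem bdd_det {n : Type} [Fintype n] [DecidableEq n] (M : Matrix n n (ℍ → ℂ))
    (hM : ∀ i j, IsBoundedAtImInfty (M i j)) : IsBoundedAtImInfty M.det := by
  rw [Matrix.det_apply']
  refine (Filter.boundedFilterSubmodule ℂ atImInfty).sum_mem fun σ _ => ?_
  have e : (((Equiv.Perm.sign σ : ℤ) : ℍ → ℂ)) = fun _ : ℍ => ((Equiv.Perm.sign σ : ℤ) : ℂ) :=
    rfl
  rw [e]
  exact Filter.BoundedAtFilter.mul (Filter.const_boundedAtFilter _ _)
    (Filter.BoundedAtFilter.prod _ fun i _ => hM _ _)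

/-- the matrix of translates, as a matrix of functions -/
noncomputable def frameFun (Γ : Subgroup SL(2, ℤ)) [Γ.FiniteIndex] (κ : SL(2, ℤ) ⧸ Γ → ℕ)
    (F : SL(2, ℤ) ⧸ Γ → ℍ → ℂ) : Matrix (SL(2, ℤ) ⧸ Γ) (SL(2, ℤ) ⧸ Γ) (ℍ → ℂ) :=
  Matrix.of fun q i => tr Γ (κ i) (F i) q

theorem frameFun_det_apply (z : ℍ) : (frameFun Γ κ F).det z = (frameMat Γ κ F z).det := by
  have h := (Pi.evalRingHom (fun _ : ℍ => ℂ) z).map_det (frameFun Γ κ F)
  simp only [Pi.evalRingHom_apply] at h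
  rw [h]
  rfl

/-- transformation of the matrix of translates under `SL(2,ℤ)` -/
theorem frameMat_smul (hF : ∀ i, ∀ γ ∈ Γ, F i ∣[(κ i : ℤ)] γ = F i) (g : SL(2, ℤ)) (z : ℍ) :
    frameMat Γ κ F (g • z) =
      (frameMat Γ κ F z).submatrix (MulAction.toPerm g⁻¹ : Equiv.Perm (SL(2, ℤ) ⧸ Γ)) id *
        Matrix.diagonal (fun i => denom g z ^ κ i) := by
  ext q i
  rw [Matrix.mul_diagonal]
  simp only [frameMat, Matrix.of_apply, Matrix.submatrix_apply, id]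
  rw [tr_smul_apply (hF i) q g z, zpow_natCast, mul_comm]
  rfl

theorem det_frameMat_smul_sq (hF : ∀ i, ∀ γ ∈ Γ, F i ∣[(κ i : ℤ)] γ = F i) (g : SL(2, ℤ))
    (z : ℍ) :
    (frameMat Γ κ F (g • z)).det ^ 2 =
      denom g z ^ (2 * ∑ i, κ i) * (frameMat Γ κ F z).det ^ 2 := by
  rw [frameMat_smul hF g z, Matrix.det_mul, Matrix.det_permute, Matrix.det_diagonal,
    Finset.prod_pow_eq_pow_sum]
  have hs : ((Equiv.Perm.sign (MulAction.toPerm g⁻¹ : Equiv.Perm (SL(2, ℤ) ⧸ Γ)) : ℤ) : ℂ) ^ 2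
      = 1 := by
    rcases Int.units_eq_one_or
      (Equiv.Perm.sign (MulAction.toPerm g⁻¹ : Equiv.Perm (SL(2, ℤ) ⧸ Γ))) with h | h <;>
    simp [h]
  rw [mul_pow, mul_pow, hs, one_mul, ← pow_mul, mul_comm, mul_comm (∑ i, κ i) 2]

/-- the square of the determinant of a good frame, as a function -/
noncomputable def Dfun (Γ : Subgroup SL(2, ℤ)) [Γ.FiniteIndex] (κ : SL(2, ℤ) ⧸ Γ → ℕ)
    (F : SL(2, ℤ) ⧸ Γ → ℍ → ℂ) : ℍ → ℂ :=
  (frameFun Γ κ F).det ^ 2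

theorem Dfun_apply (z : ℍ) : Dfun Γ κ F z = (frameMat Γ κ F z).det ^ 2 := by
  simp [Dfun, frameFun_det_apply]

theorem Dfun_slash (hF : ∀ i, ∀ γ ∈ Γ, F i ∣[(κ i : ℤ)] γ = F i) (g : SL(2, ℤ)) :
    Dfun Γ κ F ∣[(2 * ∑ i, (κ i : ℤ))] g = Dfun Γ κ F := by
  ext z
  rw [SL_slash_apply, Dfun_apply, Dfun_apply, det_frameMat_smul_sq hF g z]
  have hd : denom g z ≠ 0 := denom_ne_zero g z
  have e : (2 * ∑ i, (κ i : ℤ)) = ((2 * ∑ i, κ i : ℕ) : ℤ) := by push_cast; rfl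
  rw [e, _root_.zpow_neg, zpow_natCast]
  field_simp

theorem isMF_Dfun (h : GoodFrame Γ κ F) : IsMF ⊤ (2 * ∑ i, (κ i : ℤ)) (Dfun Γ κ F) := by
  have hF : ∀ i, ∀ γ ∈ Γ, F i ∣[(κ i : ℤ)] γ = F i := fun i => (h.isMF i).inv
  refine ⟨?_, fun γ _ => Dfun_slash hF γ, fun g => ?_⟩
  · exact (mdiff_det _ fun q i => (h.isMF i).tr_holo q).pow 2
  · rw [Dfun_slash hF g]
    have hb := bdd_det (frameFun Γ κ F) fun q i => (h.isMF i).tr_bdd q
    have : Dfun Γ κ F = (frameFun Γ κ F).det * (frameFun Γ κ F).det := by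
      rw [Dfun, sq]
    rw [this]
    exact hb.mul hb

/-- the matrix of `cuspFun`s -/
noncomputable def cuspFunMat (Γ : Subgroup SL(2, ℤ)) [Γ.FiniteIndex] (κ : SL(2, ℤ) ⧸ Γ → ℕ)
    (F : SL(2, ℤ) ⧸ Γ → ℍ → ℂ) (z : ℍ) : Matrix (SL(2, ℤ) ⧸ Γ) (SL(2, ℤ) ⧸ Γ) ℂ :=
  Matrix.of fun q i => cuspFun Γ (κ i) (F i) q z

theorem cuspFunMat_eq (z : ℍ) :
    cuspFunMat Γ κ F z =
      Matrix.diagonal (fun q => Complex.exp (-(2 * π * Complex.I * (cuspData Γ).θ q * z))) *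
        ((cuspData Γ).C * frameMat Γ κ F z) := by
  ext q i
  rw [Matrix.diagonal_mul]
  simp only [cuspFunMat, Matrix.of_apply, cuspFun]
  congr 1

theorem tendsto_cuspFunMat (h : GoodFrame Γ κ F) :
    Tendsto (cuspFunMat Γ κ F) atImInfty (𝓝 (cuspMat Γ κ F)) := by
  refine tendsto_pi_nhds.mpr fun q => tendsto_pi_nhds.mpr fun i => ?_
  exact tendsto_cuspFun (h.isMF i) q

theorem det_cuspFunMat (z : ℍ) :
    (cuspFunMat Γ κ F z).det =
      Complex.exp (-(2 * π * Complex.I * ((∑ q, (cuspData Γ).θ q : ℝ) : ℂ) * z)) *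
        ((cuspData Γ).C.det * (frameMat Γ κ F z).det) := by
  rw [cuspFunMat_eq, Matrix.det_mul, Matrix.det_mul, Matrix.det_diagonal, ← Complex.exp_sum]
  congr 2
  rw [Complex.ofReal_sum, Finset.mul_sum, Finset.sum_mul, ← Finset.sum_neg_distrib]

theorem det_cuspFunMat_sq (z : ℍ) :
    (cuspFunMat Γ κ F z).det ^ 2 =
      Complex.exp (-(2 * π * Complex.I * ((2 * ∑ q, (cuspData Γ).θ q : ℝ) : ℂ) * z)) *
        (cuspData Γ).C.det ^ 2 * (frameMat Γ κ F z).det ^ 2 := by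
  rw [det_cuspFunMat, mul_pow, mul_pow, ← Complex.exp_nat_mul, ← mul_assoc]
  congr 3
  push_cast
  ring

end Det

/-- **Sum of the weights of a good frame**: `∑ κ = 6 (μ - ν∞)`. -/
theorem GoodFrame.sum_weights (h : GoodFrame Γ κ F) :
    ∑ i, (κ i : ℤ) = 6 * ((Nat.card (SL(2, ℤ) ⧸ Γ) : ℤ) -
      Nat.card (MulAction.orbitRel.Quotient (Subgroup.zpowers ModularGroup.T) (SL(2, ℤ) ⧸ Γ))) := by
  have hle : Nat.card (MulAction.orbitRel.Quotient (Subgroup.zpowers ModularGroup.T)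
      (SL(2, ℤ) ⧸ Γ)) ≤ Nat.card (SL(2, ℤ) ⧸ Γ) :=
    Nat.card_le_card_of_surjective _ Quotient.mk''_surjective
  obtain ⟨e, he⟩ : ∃ e : ℕ, e + Nat.card (MulAction.orbitRel.Quotient
      (Subgroup.zpowers ModularGroup.T) (SL(2, ℤ) ⧸ Γ)) = Nat.card (SL(2, ℤ) ⧸ Γ) :=
    ⟨_, Nat.sub_add_cancel hle⟩
  have heR : (e : ℝ) = 2 * ∑ q, (cuspData Γ).θ q := by
    rw [(cuspData Γ).two_mul_sum_θ, ← he]
    push_cast
    ring
  have hCC : (cuspData Γ).C.det * (cuspData Γ).Cinv.det = 1 := by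
    rw [← Matrix.det_mul, (cuspData Γ).mul_inv, Matrix.det_one]
  have hCinv : (cuspData Γ).Cinv.det ≠ 0 := right_ne_zero_of_mul_eq_one hCC
  have hc : (cuspData Γ).Cinv.det ^ 2 * (cuspMat Γ κ F).det ^ 2 ≠ 0 :=
    mul_ne_zero (pow_ne_zero 2 hCinv) (pow_ne_zero 2 h.cusp_det_ne)
  have hlim : Tendsto (fun z : ℍ => Det.Dfun Γ κ F z *
      Complex.exp (-(2 * π * Complex.I * e * z))) atImInfty
      (𝓝 ((cuspData Γ).Cinv.det ^ 2 * (cuspMat Γ κ F).det ^ 2)) := by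
    have h1 : Tendsto (fun z : ℍ => (Det.cuspFunMat Γ κ F z).det) atImInfty
        (𝓝 (cuspMat Γ κ F).det) :=
      ((continuous_id.matrix_det).tendsto _).comp (Det.tendsto_cuspFunMat h)
    have h2 := ((h1.pow 2).const_mul ((cuspData Γ).Cinv.det ^ 2))
    refine h2.congr fun z => ?_
    rw [Det.det_cuspFunMat_sq, Det.Dfun_apply, ← heR]
    have hC2 : (cuspData Γ).Cinv.det ^ 2 * (cuspData Γ).C.det ^ 2 = 1 := by
      rw [← mul_pow, mul_comm, hCC, one_pow]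
    push_cast
    linear_combination (Complex.exp (-(2 * π * Complex.I * e * z)) *
      (frameMat Γ κ F z).det ^ 2) * hC2
  have hne : ∀ z, Det.Dfun Γ κ F z ≠ 0 := fun z => by
    rw [Det.Dfun_apply]; exact pow_ne_zero 2 (h.det_ne z)
  have hw := weight_eq_of_nonvanishing (Det.isMF_Dfun h) hne e hc hlim
  have he' : (e : ℤ) = (Nat.card (SL(2, ℤ) ⧸ Γ) : ℤ) - Nat.card (MulAction.orbitRel.Quotient
      (Subgroup.zpowers ModularGroup.T) (SL(2, ℤ) ⧸ Γ)) := by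
    rw [← he]; push_cast; ring
  rw [← he']
  linarith

end Fermat.Agent.S20
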