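import Fermat.Agent.S20.FrameDefs
import Fermat.Agent.S20.Cusp
import Fermat.Agent.S20.LevelOneMF

/-!
# S20 library: the dual frame

For a good frame let `B(z) = (frameMat z)⁻¹`.  Then `g_i := Δ · B(z)_{i, q₀}` (`q₀` = trivial
coset) is a cusp form of weight `12 - κ i` for `Γ`, with translates `tr g_i q = Δ · B_{i,q}`.
-/

open UpperHalfPlane ModularForm Filter Matrix
open scoped MatrixGroups ModularForm Manifold Topology Real

namespace Fermat.Agent.S20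

namespace Dual

variable {Γ : Subgroup SL(2, ℤ)} [Γ.FiniteIndex] {κ : SL(2, ℤ) ⧸ Γ → ℕ}
  {F : SL(2, ℤ) ⧸ Γ → ℍ → ℂ}

/-- the inverse of the frame matrix -/
noncomputable def invMat (Γ : Subgroup SL(2, ℤ)) [Γ.FiniteIndex] (κ : SL(2, ℤ) ⧸ Γ → ℕ)
    (F : SL(2, ℤ) ⧸ Γ → ℍ → ℂ) (z : ℍ) : Matrix (SL(2, ℤ) ⧸ Γ) (SL(2, ℤ) ⧸ Γ) ℂ :=
  (frameMat Γ κ F z)⁻¹

theorem invMat_mul (h : GoodFrame Γ κ F) (z : ℍ) : invMat Γ κ F z * frameMat Γ κ F z = 1 :=
  Matrix.nonsing_inv_mul _ (isUnit_iff_ne_zero.mpr (h.det_ne z))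

theorem mul_invMat (h : GoodFrame Γ κ F) (z : ℍ) : frameMat Γ κ F z * invMat Γ κ F z = 1 :=
  Matrix.mul_nonsing_inv _ (isUnit_iff_ne_zero.mpr (h.det_ne z))

theorem frameMat_apply (z : ℍ) (q i : SL(2, ℤ) ⧸ Γ) :
    frameMat Γ κ F z q i = tr Γ (κ i) (F i) q z := rfl

theorem frameMat_smul (h : GoodFrame Γ κ F) (g : SL(2, ℤ)) (z : ℍ) (q i : SL(2, ℤ) ⧸ Γ) :
    frameMat Γ κ F (g • z) q i = denom g z ^ (κ i : ℤ) * frameMat Γ κ F z (g⁻¹ • q) i :=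
  tr_smul_apply (h.isMF i).inv q g z

theorem invMat_smul_aux (h : GoodFrame Γ κ F) (g : SL(2, ℤ)) (z : ℍ) (i q : SL(2, ℤ) ⧸ Γ) :
    invMat Γ κ F z i q = denom g z ^ (κ i : ℤ) * invMat Γ κ F (g • z) i (g • q) := by
  have key : (Matrix.of fun i q => denom g z ^ (κ i : ℤ) * invMat Γ κ F (g • z) i (g • q))
      * frameMat Γ κ F z = 1 := by
    ext i j
    rw [Matrix.mul_apply]
    have hd : denom g z ≠ 0 := denom_ne_zero g z
    have h1 : ∀ q : SL(2, ℤ) ⧸ Γ, frameMat Γ κ F z q j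
        = (denom g z ^ (κ j : ℤ))⁻¹ * frameMat Γ κ F (g • z) (g • q) j := by
      intro q
      rw [frameMat_smul h g z (g • q) j, inv_smul_smul, ← mul_assoc,
        inv_mul_cancel₀ (zpow_ne_zero _ hd), one_mul]
    have h2 : ∑ q : SL(2, ℤ) ⧸ Γ, invMat Γ κ F (g • z) i (g • q) * frameMat Γ κ F (g • z) (g • q) j
        = (1 : Matrix (SL(2, ℤ) ⧸ Γ) (SL(2, ℤ) ⧸ Γ) ℂ) i j := by
      rw [← invMat_mul h (g • z), Matrix.mul_apply]
      exact Equiv.sum_comp (MulAction.toPerm g)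
        (fun q' => invMat Γ κ F (g • z) i q' * frameMat Γ κ F (g • z) q' j)
    calc ∑ q, (Matrix.of fun i q => denom g z ^ (κ i : ℤ) * invMat Γ κ F (g • z) i (g • q)) i q
          * frameMat Γ κ F z q j
        = ∑ q, denom g z ^ (κ i : ℤ) * (denom g z ^ (κ j : ℤ))⁻¹ *
            (invMat Γ κ F (g • z) i (g • q) * frameMat Γ κ F (g • z) (g • q) j) := by
          refine Finset.sum_congr rfl fun q _ => ?_
          rw [Matrix.of_apply, h1 q]; ring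
      _ = denom g z ^ (κ i : ℤ) * (denom g z ^ (κ j : ℤ))⁻¹ *
            (1 : Matrix (SL(2, ℤ) ⧸ Γ) (SL(2, ℤ) ⧸ Γ) ℂ) i j := by
          rw [← Finset.mul_sum, h2]
      _ = (1 : Matrix (SL(2, ℤ) ⧸ Γ) (SL(2, ℤ) ⧸ Γ) ℂ) i j := by
          by_cases hij : i = j
          · subst hij
            rw [Matrix.one_apply_eq, mul_one, mul_inv_cancel₀ (zpow_ne_zero _ hd)]
          · rw [Matrix.one_apply_ne hij, mul_zero]
  have := Matrix.inv_eq_left_inv key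
  have h3 := congrFun (congrFun this i) q
  rw [Matrix.of_apply] at h3
  exact h3

theorem invMat_smul (h : GoodFrame Γ κ F) (g : SL(2, ℤ)) (z : ℍ) (i q : SL(2, ℤ) ⧸ Γ) :
    invMat Γ κ F (g • z) i q = (denom g z ^ (κ i : ℤ))⁻¹ * invMat Γ κ F z i (g⁻¹ • q) := by
  have hd : denom g z ≠ 0 := denom_ne_zero g z
  rw [invMat_smul_aux h g z i (g⁻¹ • q), smul_inv_smul, ← mul_assoc,
    inv_mul_cancel₀ (zpow_ne_zero _ hd), one_mul]

/-- the dual frame functions `Δ · B_{i,q}` -/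
noncomputable def dualFun (Γ : Subgroup SL(2, ℤ)) [Γ.FiniteIndex] (κ : SL(2, ℤ) ⧸ Γ → ℕ)
    (F : SL(2, ℤ) ⧸ Γ → ℍ → ℂ) (i q : SL(2, ℤ) ⧸ Γ) : ℍ → ℂ :=
  fun z => Dl z * invMat Γ κ F z i q

theorem Dl_smul (g : SL(2, ℤ)) (z : ℍ) : Dl (g • z) = denom g z ^ (12 : ℤ) * Dl z := by
  have h := congrFun (isCF_Dl.inv g (Subgroup.mem_top g)) z
  rw [SL_slash_apply] at h
  have hd : denom g z ≠ 0 := denom_ne_zero g z
  rw [← h, mul_comm (Dl (g • z)), ← mul_assoc, ← zpow_add₀ hd]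
  simp

theorem dualFun_slash (h : GoodFrame Γ κ F) (i q : SL(2, ℤ) ⧸ Γ) (g : SL(2, ℤ)) :
    dualFun Γ κ F i q ∣[(12 : ℤ) - κ i] g = dualFun Γ κ F i (g⁻¹ • q) := by
  ext z
  have hd : denom g z ≠ 0 := denom_ne_zero g z
  rw [SL_slash_apply]
  simp only [dualFun]
  rw [Dl_smul, invMat_smul h, neg_sub, zpow_sub₀ hd]
  field_simp

/-! ### Holomorphy -/

theorem differentiableOn_det {n : Type*} [Fintype n] [DecidableEq n] {s : Set ℂ}
    {A : ℂ → Matrix n n ℂ} (hA : ∀ i j, DifferentiableOn ℂ (fun w => A w i j) s) :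
    DifferentiableOn ℂ (fun w => (A w).det) s := by
  simp_rw [Matrix.det_apply]
  refine DifferentiableOn.fun_sum fun σ _ => ?_
  refine DifferentiableOn.const_smul ?_ _
  exact DifferentiableOn.fun_finsetProd fun i _ => hA _ _

theorem differentiableOn_inv_apply {n : Type*} [Fintype n] [DecidableEq n] {s : Set ℂ}
    {A : ℂ → Matrix n n ℂ} (hA : ∀ i j, DifferentiableOn ℂ (fun w => A w i j) s)
    (hdet : ∀ w ∈ s, (A w).det ≠ 0) (i j : n) :
    DifferentiableOn ℂ (fun w => (A w)⁻¹ i j) s := by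
  have h1 : ∀ w, (A w)⁻¹ i j = ((A w).det)⁻¹ * ((A w).updateRow j (Pi.single i 1)).det := by
    intro w
    rw [Matrix.inv_def, Ring.inverse_eq_inv', Matrix.smul_apply, Matrix.adjugate_apply,
      smul_eq_mul]
  simp_rw [h1]
  refine ((differentiableOn_det hA).inv hdet).mul (differentiableOn_det fun i' j' => ?_)
  simp only [Matrix.updateRow_apply]
  split_ifs
  · exact differentiableOn_const _
  · exact hA _ _

theorem mdiff_invMat (h : GoodFrame Γ κ F) (i q : SL(2, ℤ) ⧸ Γ) :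
    MDiff (fun z => invMat Γ κ F z i q) := by
  rw [mdifferentiable_iff]
  exact differentiableOn_inv_apply (s := {z | 0 < z.im})
    (A := fun w => frameMat Γ κ F (ofComplex w))
    (fun q' i' => mdifferentiable_iff.mp ((h.isMF i').tr_holo q')) (fun w _ => h.det_ne _) i q

theorem mdiff_dualFun (h : GoodFrame Γ κ F) (i q : SL(2, ℤ) ⧸ Γ) : MDiff (dualFun Γ κ F i q) :=
  isCF_Dl.holo.mul (mdiff_invMat h i q)

/-! ### The cusp -/

/-- the exponential factors at the cusp -/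
noncomputable def expFac (Γ : Subgroup SL(2, ℤ)) [Γ.FiniteIndex] (q : SL(2, ℤ) ⧸ Γ) (z : ℍ) : ℂ :=
  Complex.exp (-(2 * π * Complex.I * (cuspData Γ).θ q * z))

/-- matrix of the cusp functions of the frame -/
noncomputable def cuspFunMat (Γ : Subgroup SL(2, ℤ)) [Γ.FiniteIndex] (κ : SL(2, ℤ) ⧸ Γ → ℕ)
    (F : SL(2, ℤ) ⧸ Γ → ℍ → ℂ) (z : ℍ) : Matrix (SL(2, ℤ) ⧸ Γ) (SL(2, ℤ) ⧸ Γ) ℂ :=
  Matrix.of fun q i => cuspFun Γ (κ i) (F i) q z

theorem cuspFun_eq (k : ℤ) (f : ℍ → ℂ) (q : SL(2, ℤ) ⧸ Γ) (z : ℍ) :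
    cuspFun Γ k f q z = expFac Γ q z * ∑ q', (cuspData Γ).C q q' * tr Γ k f q' z := rfl

theorem cuspFunMat_eq (z : ℍ) :
    cuspFunMat Γ κ F z
      = Matrix.diagonal (fun q => expFac Γ q z) * ((cuspData Γ).C * frameMat Γ κ F z) := by
  ext q i
  rw [Matrix.diagonal_mul, Matrix.mul_apply]
  rfl

theorem det_C_ne_zero : (cuspData Γ).C.det ≠ 0 :=
  Matrix.det_ne_zero_of_right_inverse (cuspData Γ).mul_inv

theorem det_cuspFunMat_ne_zero (h : GoodFrame Γ κ F) (z : ℍ) : (cuspFunMat Γ κ F z).det ≠ 0 := by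
  rw [cuspFunMat_eq, Matrix.det_mul, Matrix.det_mul, Matrix.det_diagonal]
  refine mul_ne_zero ?_ (mul_ne_zero det_C_ne_zero (h.det_ne z))
  exact Finset.prod_ne_zero_iff.mpr fun q _ => Complex.exp_ne_zero _

theorem invMat_eq_cusp (h : GoodFrame Γ κ F) (z : ℍ) :
    invMat Γ κ F z
      = (cuspFunMat Γ κ F z)⁻¹ * (Matrix.diagonal (fun q => expFac Γ q z) * (cuspData Γ).C) := by
  refine Matrix.inv_eq_left_inv ?_
  rw [Matrix.mul_assoc, Matrix.mul_assoc, ← cuspFunMat_eq]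
  exact Matrix.nonsing_inv_mul _ (isUnit_iff_ne_zero.mpr (det_cuspFunMat_ne_zero h z))

theorem tendsto_cuspFunMat (h : GoodFrame Γ κ F) :
    Tendsto (cuspFunMat Γ κ F) atImInfty (𝓝 (cuspMat Γ κ F)) :=
  tendsto_pi_nhds.mpr fun q => tendsto_pi_nhds.mpr fun i => tendsto_cuspFun (h.isMF i) q

theorem tendsto_cuspFunMat_inv (h : GoodFrame Γ κ F) (i q : SL(2, ℤ) ⧸ Γ) :
    Tendsto (fun z => (cuspFunMat Γ κ F z)⁻¹ i q) atImInfty (𝓝 ((cuspMat Γ κ F)⁻¹ i q)) := by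
  have hc : ContinuousAt Ring.inverse (cuspMat Γ κ F).det := by
    rw [Ring.inverse_eq_inv']
    exact continuousAt_inv₀ h.cusp_det_ne
  have h1 := (continuousAt_matrix_inv (cuspMat Γ κ F) hc).tendsto.comp (tendsto_cuspFunMat h)
  exact ((continuous_id.matrix_elem i q).tendsto _).comp h1

theorem tendsto_exp_mul (c : ℝ) (hc : 0 < c) :
    Tendsto (fun z : ℍ => Complex.exp (2 * π * Complex.I * c * z)) atImInfty (𝓝 0) := by
  rw [tendsto_zero_iff_norm_tendsto_zero]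
  have hre : ∀ z : ℍ, (2 * π * Complex.I * c * z : ℂ).re = -(2 * π * c) * z.im := by
    intro z
    simp [Complex.mul_re, Complex.mul_im]
  simp only [Complex.norm_exp, hre]
  refine Real.tendsto_exp_atBot.comp (Filter.Tendsto.const_mul_atTop_of_neg ?_ tendsto_comap)
  have := Real.pi_pos
  nlinarith

theorem tendsto_Dl_mul_expFac (q : SL(2, ℤ) ⧸ Γ) :
    Tendsto (fun z : ℍ => Dl z * expFac Γ q z) atImInfty (𝓝 0) := by
  have h1 := LevelOne.tendsto_discriminant_mul_exp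
  have h2 := tendsto_exp_mul (1 - (cuspData Γ).θ q) (by linarith [(cuspData Γ).θ_lt_one q])
  have h3 := h1.mul h2
  rw [mul_zero] at h3
  refine h3.congr fun z => ?_
  unfold expFac Dl
  rw [mul_assoc, ← Complex.exp_add]
  congr 2
  push_cast
  ring

theorem dualFun_eq_cusp (h : GoodFrame Γ κ F) (i q : SL(2, ℤ) ⧸ Γ) (z : ℍ) :
    dualFun Γ κ F i q z = ∑ q', (cuspFunMat Γ κ F z)⁻¹ i q' * (Dl z * expFac Γ q' z)
      * (cuspData Γ).C q' q := by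
  unfold dualFun
  rw [invMat_eq_cusp h, Matrix.mul_apply, Finset.mul_sum]
  refine Finset.sum_congr rfl fun q' _ => ?_
  rw [Matrix.diagonal_mul]
  ring

theorem tendsto_dualFun (h : GoodFrame Γ κ F) (i q : SL(2, ℤ) ⧸ Γ) :
    Tendsto (dualFun Γ κ F i q) atImInfty (𝓝 0) := by
  have h1 : Tendsto (fun z => ∑ q', (cuspFunMat Γ κ F z)⁻¹ i q' * (Dl z * expFac Γ q' z)
      * (cuspData Γ).C q' q) atImInfty
      (𝓝 (∑ q', (cuspMat Γ κ F)⁻¹ i q' * 0 * (cuspData Γ).C q' q)) :=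
    tendsto_finsetSum _ fun q' _ =>
      ((tendsto_cuspFunMat_inv h i q').mul (tendsto_Dl_mul_expFac q')).mul_const _
  simp only [mul_zero, zero_mul, Finset.sum_const_zero] at h1
  exact h1.congr fun z => (dualFun_eq_cusp h i q z).symm

/-- the dual frame consists of cusp forms of weight `12 - κ i` -/
theorem isCF_dualFun (h : GoodFrame Γ κ F) (i : SL(2, ℤ) ⧸ Γ) :
    IsCF Γ ((12 : ℤ) - κ i) (dualFun Γ κ F i ((1 : SL(2, ℤ)) : SL(2, ℤ) ⧸ Γ)) := by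
  refine ⟨mdiff_dualFun h i _, fun γ hγ => ?_, fun g => ?_⟩
  · rw [dualFun_slash h]
    congr 1
    rw [MulAction.Quotient.smul_mk, smul_eq_mul, mul_one]
    exact QuotientGroup.eq.mpr (by simpa using hγ)
  · rw [dualFun_slash h]
    exact tendsto_dualFun h i _

theorem tr_dualFun (h : GoodFrame Γ κ F) (i q : SL(2, ℤ) ⧸ Γ) :
    tr Γ ((12 : ℤ) - κ i) (dualFun Γ κ F i ((1 : SL(2, ℤ)) : SL(2, ℤ) ⧸ Γ)) q
      = dualFun Γ κ F i q := by
  unfold tr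
  rw [dualFun_slash h, inv_inv, MulAction.Quotient.smul_mk, smul_eq_mul, mul_one]
  congr 1
  exact Quotient.out_eq' q

/-! ### Small weights -/

theorem slash_neg_one_apply (f : ℍ → ℂ) (z : ℍ) :
    (f ∣[(1 : ℤ)] (-1 : SL(2, ℤ))) z = - f z := by
  rw [SL_slash_apply, ModularGroup.SL_neg_smul, one_smul]
  have : denom (-1 : SL(2, ℤ)) z = -1 := by
    simp [denom]
  rw [this]
  simp

theorem exists_eq_Dl_mul {k : ℤ} {f : ℍ → ℂ} (hf : IsCF ⊤ k f) :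
    ∃ g, IsMF ⊤ (k - 12) g ∧ f = Dl * g :=
  ⟨⇑(CuspForm.discriminantEquiv hf.toLevelOne), isMF_top_of_modularForm _,
    (discriminant_mul_discriminantEquiv hf.toLevelOne).symm⟩

/-- a cusp form of weight `≤ 1` for `Γ ∋ -1` vanishes -/
theorem isCF_eq_zero_of_le_one {k : ℤ} {f : ℍ → ℂ} (hf : IsCF Γ k f) (hneg : -1 ∈ Γ)
    (hk : k ≤ 1) : f = 0 := by
  rcases lt_trichotomy k 0 with h0 | h0 | h0
  · exact hf.isMF.eq_zero_of_neg h0
  · subst h0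
    obtain ⟨c, rfl⟩ := hf.isMF.eq_const_of_weight_zero
    have h1 : Tendsto (fun _ : ℍ => c) atImInfty (𝓝 0) := by
      have := hf.zero 1
      rwa [SlashAction.slash_one] at this
    have h2 : c = 0 := tendsto_nhds_unique tendsto_const_nhds h1
    rw [h2]; rfl
  · have hk1 : k = 1 := by omega
    subst hk1
    ext z
    have h1 := congrFun (hf.inv _ hneg) z
    rw [slash_neg_one_apply] at h1
    have h2 : (2 : ℂ) * f z = 0 := by linear_combination -h1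
    simpa using h2

theorem dualFun_one_ne_zero (h : GoodFrame Γ κ F) (i : SL(2, ℤ) ⧸ Γ) :
    dualFun Γ κ F i ((1 : SL(2, ℤ)) : SL(2, ℤ) ⧸ Γ) ≠ 0 := by
  intro h0
  have h1 : ∀ (q : SL(2, ℤ) ⧸ Γ) (z : ℍ), invMat Γ κ F z i q = 0 := by
    intro q z
    have h2 := congrFun (tr_dualFun h i q) z
    rw [h0, tr_zero] at h2
    have h3 : Dl z * invMat Γ κ F z i q = 0 := h2.symm
    exact (mul_eq_zero.mp h3).resolve_left (Dl_ne_zero z)
  have h4 := congrFun (congrFun (invMat_mul h UpperHalfPlane.I) i) i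
  rw [Matrix.mul_apply, Matrix.one_apply_eq] at h4
  simp [h1] at h4

theorem weight_le_ten' (h : GoodFrame Γ κ F) (hneg : -1 ∈ Γ) (i : SL(2, ℤ) ⧸ Γ) : κ i ≤ 10 := by
  by_contra hlt
  push Not at hlt
  refine dualFun_one_ne_zero h i (isCF_eq_zero_of_le_one (isCF_dualFun h i) hneg ?_)
  have : (11 : ℤ) ≤ κ i := by exact_mod_cast hlt
  linarith

/-! ### Coefficients in the frame -/

/-- coefficients of the vector of translates of `f` in the frame -/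
noncomputable def coefFun (Γ : Subgroup SL(2, ℤ)) [Γ.FiniteIndex] (κ : SL(2, ℤ) ⧸ Γ → ℕ)
    (F : SL(2, ℤ) ⧸ Γ → ℍ → ℂ) (k : ℤ) (f : ℍ → ℂ) (i : SL(2, ℤ) ⧸ Γ) : ℍ → ℂ :=
  ∑ q, (fun z => invMat Γ κ F z i q) * tr Γ k f q

theorem coefFun_apply (k : ℤ) (f : ℍ → ℂ) (i : SL(2, ℤ) ⧸ Γ) (z : ℍ) :
    coefFun Γ κ F k f i z = ∑ q, invMat Γ κ F z i q * tr Γ k f q z := by
  simp [coefFun, Finset.sum_apply]

theorem mdiff_coefFun (h : GoodFrame Γ κ F) {k : ℤ} {f : ℍ → ℂ} (hf : IsMF Γ k f)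
    (i : SL(2, ℤ) ⧸ Γ) : MDiff (coefFun Γ κ F k f i) :=
  MDifferentiable.sum fun q _ => (mdiff_invMat h i q).mul (hf.tr_holo q)

theorem coefFun_slash (h : GoodFrame Γ κ F) {k : ℤ} {f : ℍ → ℂ} (hf : IsMF Γ k f)
    (i : SL(2, ℤ) ⧸ Γ) (g : SL(2, ℤ)) :
    coefFun Γ κ F k f i ∣[k - κ i] g = coefFun Γ κ F k f i := by
  ext z
  have hd : denom g z ≠ 0 := denom_ne_zero g z
  rw [SL_slash_apply, coefFun_apply, coefFun_apply]
  have h1 : ∀ q : SL(2, ℤ) ⧸ Γ, invMat Γ κ F (g • z) i q * tr Γ k f q (g • z)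
      = denom g z ^ (k - κ i) * (invMat Γ κ F z i (g⁻¹ • q) * tr Γ k f (g⁻¹ • q) z) := by
    intro q
    rw [invMat_smul h, tr_smul_apply hf.inv, zpow_sub₀ hd]
    field_simp
  have h2 : ∑ q : SL(2, ℤ) ⧸ Γ, invMat Γ κ F z i (g⁻¹ • q) * tr Γ k f (g⁻¹ • q) z
      = ∑ q, invMat Γ κ F z i q * tr Γ k f q z :=
    Equiv.sum_comp (MulAction.toPerm g⁻¹) (fun q => invMat Γ κ F z i q * tr Γ k f q z)
  simp_rw [h1]
  rw [← Finset.mul_sum, h2, mul_comm, ← mul_assoc, ← zpow_add₀ hd]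
  simp

theorem invMat_apply_cusp (h : GoodFrame Γ κ F) (z : ℍ) (i q : SL(2, ℤ) ⧸ Γ) :
    invMat Γ κ F z i q
      = ∑ q', (cuspFunMat Γ κ F z)⁻¹ i q' * (expFac Γ q' z * (cuspData Γ).C q' q) := by
  rw [invMat_eq_cusp h, Matrix.mul_apply]
  refine Finset.sum_congr rfl fun q' _ => ?_
  rw [Matrix.diagonal_mul]

theorem coefFun_eq_cusp (h : GoodFrame Γ κ F) (k : ℤ) (f : ℍ → ℂ) (i : SL(2, ℤ) ⧸ Γ) (z : ℍ) :
    coefFun Γ κ F k f i z = ∑ q', (cuspFunMat Γ κ F z)⁻¹ i q' * cuspFun Γ k f q' z := by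
  rw [coefFun_apply]
  simp_rw [invMat_apply_cusp h, cuspFun_eq, Finset.sum_mul, Finset.mul_sum]
  rw [Finset.sum_comm]
  exact Finset.sum_congr rfl fun q' _ => Finset.sum_congr rfl fun q _ => by ring

theorem tendsto_coefFun (h : GoodFrame Γ κ F) {k : ℤ} {f : ℍ → ℂ} (hf : IsMF Γ k f)
    (i : SL(2, ℤ) ⧸ Γ) :
    Tendsto (coefFun Γ κ F k f i) atImInfty
      (𝓝 (∑ q', (cuspMat Γ κ F)⁻¹ i q' * cuspVec Γ k f q')) := by
  have h1 : Tendsto (fun z => ∑ q', (cuspFunMat Γ κ F z)⁻¹ i q' * cuspFun Γ k f q' z) atImInfty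
      (𝓝 (∑ q', (cuspMat Γ κ F)⁻¹ i q' * cuspVec Γ k f q')) :=
    tendsto_finsetSum _ fun q' _ => (tendsto_cuspFunMat_inv h i q').mul (tendsto_cuspFun hf q')
  exact h1.congr fun z => (coefFun_eq_cusp h k f i z).symm

theorem isMF_coefFun (h : GoodFrame Γ κ F) {k : ℤ} {f : ℍ → ℂ} (hf : IsMF Γ k f)
    (i : SL(2, ℤ) ⧸ Γ) : IsMF ⊤ (k - κ i) (coefFun Γ κ F k f i) :=
  ⟨mdiff_coefFun h hf i, fun g _ => coefFun_slash h hf i g, fun g => by
    rw [coefFun_slash h hf i g]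
    exact (tendsto_coefFun h hf i).isBigO_one ℝ⟩

theorem sum_frameMat_mul_coefFun (h : GoodFrame Γ κ F) (k : ℤ) (f : ℍ → ℂ)
    (q : SL(2, ℤ) ⧸ Γ) (z : ℍ) :
    ∑ i, frameMat Γ κ F z q i * coefFun Γ κ F k f i z = tr Γ k f q z := by
  simp_rw [coefFun_apply, Finset.mul_sum]
  rw [Finset.sum_comm]
  have h1 : ∀ q' : SL(2, ℤ) ⧸ Γ,
      ∑ i, frameMat Γ κ F z q i * (invMat Γ κ F z i q' * tr Γ k f q' z)
        = (1 : Matrix (SL(2, ℤ) ⧸ Γ) (SL(2, ℤ) ⧸ Γ) ℂ) q q' * tr Γ k f q' z := by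
    intro q'
    rw [← mul_invMat h z, Matrix.mul_apply, Finset.sum_mul]
    exact Finset.sum_congr rfl fun i _ => by ring
  simp_rw [h1]
  rw [Finset.sum_eq_single q]
  · rw [Matrix.one_apply_eq, one_mul]
  · intro q' _ hne
    rw [Matrix.one_apply_ne (Ne.symm hne), zero_mul]
  · intro hn
    exact absurd (Finset.mem_univ _) hn

theorem exists_weight_zero (h : GoodFrame Γ κ F) : ∃ i, κ i = 0 := by
  by_contra hne
  push Not at hne
  have h1 : ∀ i, coefFun Γ κ F 0 (fun _ => (1 : ℂ)) i = 0 := fun i =>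
    (isMF_coefFun h (IsMF.const 1) i).eq_zero_of_neg (by
      have := Nat.pos_of_ne_zero (hne i)
      have : (0 : ℤ) < κ i := by exact_mod_cast this
      linarith)
  have h2 := sum_frameMat_mul_coefFun h 0 (fun _ => (1 : ℂ))
    ((1 : SL(2, ℤ)) : SL(2, ℤ) ⧸ Γ) UpperHalfPlane.I
  rw [tr_const] at h2
  simp [h1] at h2

theorem weight_zero_unique (h : GoodFrame Γ κ F) {i j : SL(2, ℤ) ⧸ Γ} (hi : κ i = 0)
    (hj : κ j = 0) : i = j := by
  by_contra hij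
  have hFi : IsMF Γ 0 (F i) := (h.isMF i).congr_weight (by rw [hi]; rfl)
  have hFj : IsMF Γ 0 (F j) := (h.isMF j).congr_weight (by rw [hj]; rfl)
  obtain ⟨a, ha⟩ := hFi.eq_const_of_weight_zero
  obtain ⟨b, hb⟩ := hFj.eq_const_of_weight_zero
  have hcol_i : ∀ (q : SL(2, ℤ) ⧸ Γ) (z : ℍ), frameMat Γ κ F z q i = a := by
    intro q z
    rw [frameMat_apply, hi, Nat.cast_zero, ha, tr_const]
  have hcol_j : ∀ (q : SL(2, ℤ) ⧸ Γ) (z : ℍ), frameMat Γ κ F z q j = b := by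
    intro q z
    rw [frameMat_apply, hj, Nat.cast_zero, hb, tr_const]
  apply h.det_ne UpperHalfPlane.I
  rw [← Matrix.exists_mulVec_eq_zero_iff]
  by_cases ha0 : a = 0
  · refine ⟨Pi.single i 1, ?_, ?_⟩
    · intro h0
      have := congrFun h0 i
      simp at this
    · ext q
      simp [Matrix.mulVec_single, hcol_i, ha0]
  · refine ⟨Pi.single i b - Pi.single j a, ?_, ?_⟩
    · intro h0
      have := congrFun h0 j
      simp [Pi.single_eq_of_ne (Ne.symm hij)] at this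
      exact ha0 this
    · ext q
      rw [Matrix.mulVec_sub]
      simp [Matrix.mulVec_single, hcol_i, hcol_j]
      ring

/-! ### Weight two -/

omit [Γ.FiniteIndex] in
theorem ten_weight {i : SL(2, ℤ) ⧸ Γ} (hi : κ i = 10) : (12 : ℤ) - κ i = 2 := by
  rw [hi]; norm_num

/-- the weight 2 dual forms -/
noncomputable def dualVec (h : GoodFrame Γ κ F) (i : {i : SL(2, ℤ) ⧸ Γ // κ i = 10}) :
    CFsub Γ 2 :=
  ⟨dualFun Γ κ F i.1 ((1 : SL(2, ℤ)) : SL(2, ℤ) ⧸ Γ),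
    (isCF_dualFun h i.1).congr_weight (ten_weight i.2)⟩

theorem tr_dualVec (h : GoodFrame Γ κ F) (i : {i : SL(2, ℤ) ⧸ Γ // κ i = 10})
    (q : SL(2, ℤ) ⧸ Γ) :
    tr Γ 2 (dualVec h i : ℍ → ℂ) q = dualFun Γ κ F i.1 q := by
  have := tr_dualFun h i.1 q
  rw [ten_weight i.2] at this
  exact this

/-- the comparison map -/
noncomputable def dualMap (h : GoodFrame Γ κ F) :
    ({i : SL(2, ℤ) ⧸ Γ // κ i = 10} → ℂ) →ₗ[ℂ] CFsub Γ 2 :=
  Fintype.linearCombination ℂ (dualVec h)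

theorem coe_dualMap (h : GoodFrame Γ κ F) (c : {i : SL(2, ℤ) ⧸ Γ // κ i = 10} → ℂ) :
    (dualMap h c : ℍ → ℂ) = ∑ i, c i • (dualVec h i : ℍ → ℂ) := by
  simp [dualMap, Fintype.linearCombination_apply]

theorem dualMap_apply (h : GoodFrame Γ κ F) (c : {i : SL(2, ℤ) ⧸ Γ // κ i = 10} → ℂ) (z : ℍ) :
    (dualMap h c : ℍ → ℂ) z
      = ∑ i, c i * dualFun Γ κ F i.1 ((1 : SL(2, ℤ)) : SL(2, ℤ) ⧸ Γ) z := by
  rw [coe_dualMap, Finset.sum_apply]
  rfl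

theorem tr_dualMap (h : GoodFrame Γ κ F) (c : {i : SL(2, ℤ) ⧸ Γ // κ i = 10} → ℂ)
    (q : SL(2, ℤ) ⧸ Γ) (z : ℍ) :
    tr Γ 2 (dualMap h c : ℍ → ℂ) q z = ∑ i, c i * dualFun Γ κ F i.1 q z := by
  rw [coe_dualMap, tr_sum, Finset.sum_apply]
  refine Finset.sum_congr rfl fun i _ => ?_
  rw [tr_smul, tr_dualVec]
  rfl

theorem dualMap_injective (h : GoodFrame Γ κ F) : Function.Injective (dualMap h) := by
  rw [← LinearMap.ker_eq_bot, LinearMap.ker_eq_bot']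
  intro c hc
  funext ⟨j, hj⟩
  have h1 : ∀ q : SL(2, ℤ) ⧸ Γ,
      ∑ i : {i : SL(2, ℤ) ⧸ Γ // κ i = 10}, c i * invMat Γ κ F UpperHalfPlane.I i.1 q = 0 := by
    intro q
    have h2 := tr_dualMap h c q UpperHalfPlane.I
    rw [hc] at h2
    simp only [ZeroMemClass.coe_zero, tr_zero, Pi.zero_apply] at h2
    have h3 : Dl UpperHalfPlane.I *
        ∑ i : {i : SL(2, ℤ) ⧸ Γ // κ i = 10}, c i * invMat Γ κ F UpperHalfPlane.I i.1 q = 0 := by
      rw [Finset.mul_sum, h2]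
      exact Finset.sum_congr rfl fun i _ => by simp only [dualFun]; ring
    exact (mul_eq_zero.mp h3).resolve_left (Dl_ne_zero _)
  have h4 : ∑ q, (∑ i : {i : SL(2, ℤ) ⧸ Γ // κ i = 10},
      c i * invMat Γ κ F UpperHalfPlane.I i.1 q) * frameMat Γ κ F UpperHalfPlane.I q j
      = c ⟨j, hj⟩ := by
    simp_rw [Finset.sum_mul]
    rw [Finset.sum_comm]
    have h5 : ∀ i : {i : SL(2, ℤ) ⧸ Γ // κ i = 10},
        ∑ q, c i * invMat Γ κ F UpperHalfPlane.I i.1 q * frameMat Γ κ F UpperHalfPlane.I q j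
          = c i * (1 : Matrix (SL(2, ℤ) ⧸ Γ) (SL(2, ℤ) ⧸ Γ) ℂ) i.1 j := by
      intro i
      rw [← invMat_mul h UpperHalfPlane.I, Matrix.mul_apply, Finset.mul_sum]
      exact Finset.sum_congr rfl fun q _ => by ring
    simp_rw [h5]
    rw [Finset.sum_eq_single ⟨j, hj⟩]
    · rw [Matrix.one_apply_eq, mul_one]
    · intro i _ hne
      rw [Matrix.one_apply_ne (fun heq => hne (Subtype.ext heq)), mul_zero]
    · intro hn
      exact absurd (Finset.mem_univ _) hn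
  simp only [h1, zero_mul, Finset.sum_const_zero] at h4
  simpa using h4.symm

theorem exists_coeff (h : GoodFrame Γ κ F) (hneg : -1 ∈ Γ) {s : ℍ → ℂ} (hs : IsCF Γ 2 s)
    (i : SL(2, ℤ) ⧸ Γ) :
    ∃ a : ℂ, (κ i ≠ 10 → a = 0) ∧
      ∀ z, ∑ q, tr Γ 2 s q z * frameMat Γ κ F z q i = Dl z * a := by
  have h1 : IsCF ⊤ (2 + κ i) (∑ q, tr Γ (2 + κ i) (s * F i) q) := (hs.mul_isMF (h.isMF i)).trace
  obtain ⟨c, hc, hceq⟩ := exists_eq_Dl_mul h1
  have hle := weight_le_ten' h hneg i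
  have hsum : ∀ z, ∑ q, tr Γ 2 s q z * frameMat Γ κ F z q i = Dl z * c z := by
    intro z
    have := congrFun hceq z
    simp only [Finset.sum_apply, tr_mul, Pi.mul_apply] at this
    exact this
  by_cases h10 : κ i = 10
  · have hc0 : IsMF ⊤ 0 c := hc.congr_weight (by rw [h10]; norm_num)
    obtain ⟨a, rfl⟩ := hc0.eq_const_of_weight_zero
    exact ⟨a, fun hne => absurd h10 hne, hsum⟩
  · have hc0 : c = 0 := hc.eq_zero_of_neg (by
      have : κ i < 10 := lt_of_le_of_ne hle h10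
      have : (κ i : ℤ) < 10 := by exact_mod_cast this
      linarith)
    exact ⟨0, fun _ => rfl, fun z => by rw [hsum z, hc0]; simp⟩

theorem dualMap_surjective (h : GoodFrame Γ κ F) (hneg : -1 ∈ Γ) :
    Function.Surjective (dualMap h) := by
  rintro ⟨s, hs⟩
  have hs' : IsCF Γ 2 s := hs
  choose a ha0 ha using exists_coeff h hneg hs'
  refine ⟨fun i => a i.1, ?_⟩
  apply Subtype.ext
  funext z
  rw [dualMap_apply]
  have h1 : s z = ∑ i, (∑ q, tr Γ 2 s q z * frameMat Γ κ F z q i)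
      * invMat Γ κ F z i ((1 : SL(2, ℤ)) : SL(2, ℤ) ⧸ Γ) := by
    simp_rw [Finset.sum_mul]
    rw [Finset.sum_comm]
    have h2 : ∀ q : SL(2, ℤ) ⧸ Γ, ∑ i, tr Γ 2 s q z * frameMat Γ κ F z q i
        * invMat Γ κ F z i ((1 : SL(2, ℤ)) : SL(2, ℤ) ⧸ Γ)
        = tr Γ 2 s q z * (1 : Matrix (SL(2, ℤ) ⧸ Γ) (SL(2, ℤ) ⧸ Γ) ℂ) q
          ((1 : SL(2, ℤ)) : SL(2, ℤ) ⧸ Γ) := by
      intro q
      rw [← mul_invMat h z, Matrix.mul_apply, Finset.mul_sum]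
      exact Finset.sum_congr rfl fun i _ => by ring
    simp_rw [h2]
    rw [Finset.sum_eq_single ((1 : SL(2, ℤ)) : SL(2, ℤ) ⧸ Γ)]
    · rw [Matrix.one_apply_eq, mul_one, tr_one_coset hs'.inv]
    · intro q _ hne
      rw [Matrix.one_apply_ne hne, mul_zero]
    · intro hn
      exact absurd (Finset.mem_univ _) hn
  show ∑ i : {i : SL(2, ℤ) ⧸ Γ // κ i = 10},
    a i.1 * dualFun Γ κ F i.1 ((1 : SL(2, ℤ)) : SL(2, ℤ) ⧸ Γ) z = s z
  rw [h1]
  simp_rw [ha]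
  rw [← Finset.sum_subtype (Finset.univ.filter fun i => κ i = 10) (by simp)
    (fun i => a i * dualFun Γ κ F i ((1 : SL(2, ℤ)) : SL(2, ℤ) ⧸ Γ) z)]
  rw [Finset.sum_filter]
  refine Finset.sum_congr rfl fun i _ => ?_
  split_ifs with h10
  · simp only [dualFun]; ring
  · rw [ha0 i h10]; ring

end Dual

variable {Γ : Subgroup SL(2, ℤ)} [Γ.FiniteIndex] {κ : SL(2, ℤ) ⧸ Γ → ℕ}
  {F : SL(2, ℤ) ⧸ Γ → ℍ → ℂ}

theorem GoodFrame.weight_le_ten (h : GoodFrame Γ κ F) (hneg : -1 ∈ Γ) (i : SL(2, ℤ) ⧸ Γ) :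
    κ i ≤ 10 :=
  Dual.weight_le_ten' h hneg i

theorem GoodFrame.card_weight_zero (h : GoodFrame Γ κ F) :
    (Finset.univ.filter fun i => κ i = 0).card = 1 := by
  obtain ⟨i, hi⟩ := Dual.exists_weight_zero h
  rw [Finset.card_eq_one]
  refine ⟨i, ?_⟩
  ext j
  simp only [Finset.mem_filter, Finset.mem_univ, true_and, Finset.mem_singleton]
  exact ⟨fun hj => Dual.weight_zero_unique h hj hi, fun hj => hj ▸ hi⟩

theorem GoodFrame.finrank_CF_two (h : GoodFrame Γ κ F) (hneg : -1 ∈ Γ) :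
    Module.finrank ℂ (CFsub Γ 2) = (Finset.univ.filter fun i => κ i = 10).card := by
  have e := LinearEquiv.ofBijective (Dual.dualMap h)
    ⟨Dual.dualMap_injective h, Dual.dualMap_surjective h hneg⟩
  rw [← e.finrank_eq, Module.finrank_fintype_fun_eq_card, Fintype.card_subtype]

end Fermat.Agent.S20
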