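import Fermat.Agent.S20.FrameDefs

/-!
# S20 library: elliptic points

At `z = I` (fixed by `S`, `denom S I = I`) and `z = ρ = e^{2πi/3}` (fixed by `S * T`,
`denom (S*T) ρ = ρ + 1 = e^{πi/3}`), `tr_smul_apply` gives
`frameMat z = P_g * frameMat z * diag(denom g z ^ κ i)` for `g • z = z`, i.e. (as `frameMat z` is
invertible) the permutation matrix of `q ↦ g⁻¹ • q` is conjugate to `diag(denom g z ^ (-κ i))`.
Taking traces: `∑ i, denom g z ^ (-κ i) = #{q | g • q = q}`.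
-/

open UpperHalfPlane ModularForm Filter Matrix
open scoped MatrixGroups ModularForm Manifold Topology Real

namespace Fermat.Agent.S20

namespace EllipticAux

variable {Γ : Subgroup SL(2, ℤ)} [Γ.FiniteIndex] {κ : SL(2, ℤ) ⧸ Γ → ℕ}
  {F : SL(2, ℤ) ⧸ Γ → ℍ → ℂ}

/-- Trace identity at a fixed point `z` of `g`: the permutation matrix of `g⁻¹` on the cosets is
conjugate (by the frame matrix at `z`) to the diagonal matrix of the `(denom g z)⁻¹ ^ κ i`. -/
theorem sum_inv_denom_pow (h : GoodFrame Γ κ F) (g : SL(2, ℤ)) (z : ℍ) (hz : g • z = z) :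
    ∑ i, (denom g z)⁻¹ ^ (κ i) = (Nat.card {q : SL(2, ℤ) ⧸ Γ // g • q = q} : ℂ) := by
  classical
  set M := frameMat Γ κ F z with hMdef
  have hd : denom g z ≠ 0 := denom_ne_zero g z
  have hM : ∀ q i, M q i = denom g z ^ (κ i) * M (g⁻¹ • q) i := by
    intro q i
    have h1 := tr_smul_apply (h.isMF i).inv q g z
    rw [hz, zpow_natCast] at h1
    exact h1
  set P : Matrix (SL(2, ℤ) ⧸ Γ) (SL(2, ℤ) ⧸ Γ) ℂ :=
    Matrix.of fun q q' => if q' = g⁻¹ • q then 1 else 0 with hP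
  set D' : Matrix (SL(2, ℤ) ⧸ Γ) (SL(2, ℤ) ⧸ Γ) ℂ :=
    Matrix.diagonal fun i => (denom g z)⁻¹ ^ (κ i) with hD'
  have hPM : P * M = M * D' := by
    ext q i
    rw [Matrix.mul_apply, hD', Matrix.mul_diagonal]
    simp only [hP, Matrix.of_apply, ite_mul, one_mul, zero_mul, Finset.sum_ite_eq',
      Finset.mem_univ, if_true]
    rw [hM q i, inv_pow]
    field_simp
  have hu : IsUnit M.det := (h.det_ne z).isUnit
  have htr : Matrix.trace P = Matrix.trace D' := by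
    calc Matrix.trace P = Matrix.trace (P * (M * M⁻¹)) := by
          rw [Matrix.mul_nonsing_inv _ hu, mul_one]
      _ = Matrix.trace (M * D' * M⁻¹) := by rw [← mul_assoc, hPM]
      _ = Matrix.trace (M⁻¹ * (M * D')) := Matrix.trace_mul_comm _ _
      _ = Matrix.trace D' := by rw [← mul_assoc, Matrix.nonsing_inv_mul _ hu, one_mul]
  rw [hD', Matrix.trace_diagonal] at htr
  rw [← htr, Matrix.trace]
  simp only [Matrix.diag_apply, hP, Matrix.of_apply]
  rw [Finset.sum_boole, Nat.card_eq_fintype_card, Fintype.card_subtype]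
  congr 2
  ext q
  simp only [Finset.mem_filter, Finset.mem_univ, true_and]
  exact eq_inv_smul_iff

theorem rho_im : ((ρ : ℍ) : ℂ).im = Real.sqrt 3 / 2 := rfl

theorem rho_re : ((ρ : ℍ) : ℂ).re = -1 / 2 := rfl

theorem denom_ST_rho (g : SL(2, ℤ)) (hg : g = ModularGroup.S * ModularGroup.T) :
    denom g ρ = (ρ : ℂ) + 1 := by
  rw [ModularGroup.denom_apply, hg]
  simp [Matrix.SpecialLinearGroup.coe_mul, ModularGroup.coe_S, ModularGroup.coe_T,
    Matrix.mul_apply, Fin.sum_univ_two]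

theorem ST_smul_rho : (ModularGroup.S * ModularGroup.T) • ρ = ρ :=
  ModularGroup.stabilizer_ρ.mpr (by simp)

theorem S_smul_I : ModularGroup.S • I = I :=
  ModularGroup.stabilizer_I.mpr (by simp)

theorem inv_rho_add_one : ((ρ : ℂ) + 1)⁻¹ = -(ρ : ℂ) := by
  apply inv_eq_of_mul_eq_one_right
  linear_combination -ρ_sq

theorem neg_one_smul_eq (z : ℍ) : (-1 : SL(2, ℤ)) • z = z := by
  rw [ModularGroup.SL_neg_smul, one_smul]

theorem denom_neg_one (g : SL(2, ℤ)) (hg : g = -1) (z : ℍ) : denom g z = -1 := by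
  rw [ModularGroup.denom_apply, hg]
  simp

/-- first integer coordinate (in the basis `1, ρ`) of the sixth root of unity `(-ρ) ^ n`,
`n` even -/
def ca (n : ℕ) : ℤ := if n % 6 = 0 then 1 else if n % 6 = 2 then -1 else 0

/-- second integer coordinate (in the basis `1, ρ`) of the sixth root of unity `(-ρ) ^ n`,
`n` even -/
def cb (n : ℕ) : ℤ := if n % 6 = 2 then -1 else if n % 6 = 4 then 1 else 0

theorem neg_rho_pow (n : ℕ) (hn : Even n) :
    (-(ρ : ℂ)) ^ n = (ca n : ℂ) + (cb n : ℂ) * (ρ : ℂ) := by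
  obtain ⟨m, rfl⟩ := hn
  have h2 : (-(ρ : ℂ)) ^ 2 = -(ρ : ℂ) - 1 := by rw [neg_sq, ρ_sq]
  have h4 : (-(ρ : ℂ)) ^ 4 = (ρ : ℂ) := by
    have : (-(ρ : ℂ)) ^ 4 = ((-(ρ : ℂ)) ^ 2) ^ 2 := by ring
    rw [this, h2]; linear_combination ρ_sq
  have h6 : (-(ρ : ℂ)) ^ 6 = 1 := by
    have : (-(ρ : ℂ)) ^ 6 = (-(ρ : ℂ)) ^ 4 * (-(ρ : ℂ)) ^ 2 := by ring
    rw [this, h4, h2]; linear_combination -ρ_sq
  have hm : m + m = 6 * (m / 3) + 2 * (m % 3) := by omega
  have hmod : (m + m) % 6 = 2 * (m % 3) := by omega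
  have h3 : m % 3 < 3 := Nat.mod_lt _ (by norm_num)
  rw [hm, pow_add, pow_mul, h6, one_pow, one_mul]
  unfold ca cb
  rw [← hm, hmod]
  interval_cases (m % 3)
  · simp
  · simp [h2]; ring
  · simp [h4]

end EllipticAux

variable {Γ : Subgroup SL(2, ℤ)} [Γ.FiniteIndex] {κ : SL(2, ℤ) ⧸ Γ → ℕ}
  {F : SL(2, ℤ) ⧸ Γ → ℍ → ℂ}

/-- weights of a (good) frame are even when `-1 ∈ Γ` -/
theorem GoodFrame.even (h : GoodFrame Γ κ F) (hneg : -1 ∈ Γ) (i : SL(2, ℤ) ⧸ Γ) : Even (κ i) := by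
  by_contra hodd
  rw [Nat.not_even_iff_odd] at hodd
  have hF : F i = 0 := by
    funext z
    have h2 := congrFun ((h.isMF i).inv (-1) hneg) z
    rw [SL_slash_apply, EllipticAux.neg_one_smul_eq, EllipticAux.denom_neg_one _ rfl] at h2
    have h3 : ((-1 : ℂ)) ^ (-(κ i : ℤ)) = -1 := by
      rw [_root_.zpow_neg, zpow_natCast, hodd.neg_one_pow]; norm_num
    rw [h3] at h2
    have h4 : (2 : ℂ) * F i z = 0 := by linear_combination -h2
    simpa using h4
  apply h.det_ne I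
  apply Matrix.det_eq_zero_of_column_eq_zero i
  intro q
  simp [frameMat, hF, tr_zero]

theorem GoodFrame.sum_mod4 (h : GoodFrame Γ κ F) (hneg : -1 ∈ Γ) :
    ∑ i, (if κ i % 4 = 0 then (1 : ℤ) else -1)
      = Nat.card {q : SL(2, ℤ) ⧸ Γ // ModularGroup.S • q = q} := by
  have h1 := EllipticAux.sum_inv_denom_pow h ModularGroup.S I EllipticAux.S_smul_I
  rw [ModularGroup.denom_S, coe_I] at h1
  have h2 : ∀ i, (Complex.I)⁻¹ ^ (κ i) = ((if κ i % 4 = 0 then (1 : ℤ) else -1 : ℤ) : ℂ) := by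
    intro i
    obtain ⟨m, hm⟩ := h.even hneg i
    rw [hm, ← two_mul, pow_mul, Complex.inv_I, neg_sq, Complex.I_sq]
    rcases Nat.even_or_odd m with he | ho
    · rw [he.neg_one_pow, if_pos (by obtain ⟨j, rfl⟩ := he; omega)]; simp
    · rw [ho.neg_one_pow, if_neg (by obtain ⟨j, rfl⟩ := ho; omega)]; simp
  simp_rw [h2] at h1
  exact_mod_cast h1

namespace EllipticAux

/-- The two integer coordinates of the trace identity at `ρ`. -/
theorem sum_ca_cb (h : GoodFrame Γ κ F) (hneg : -1 ∈ Γ) :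
    ∑ i, ca (κ i) =
      Nat.card {q : SL(2, ℤ) ⧸ Γ // (ModularGroup.S * ModularGroup.T) • q = q} ∧
    ∑ i, cb (κ i) = 0 := by
  have h1 := sum_inv_denom_pow h (ModularGroup.S * ModularGroup.T) ρ ST_smul_rho
  rw [denom_ST_rho _ rfl, inv_rho_add_one] at h1
  have h2 : ∀ i, (-(ρ : ℂ)) ^ (κ i) = (ca (κ i) : ℂ) + (cb (κ i) : ℂ) * (ρ : ℂ) :=
    fun i => neg_rho_pow _ (h.even hneg i)
  simp_rw [h2] at h1
  rw [Finset.sum_add_distrib, ← Finset.sum_mul, ← Int.cast_sum, ← Int.cast_sum] at h1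
  have him := congrArg Complex.im h1
  have hre := congrArg Complex.re h1
  simp only [Complex.add_im, Complex.mul_im, Complex.intCast_im, Complex.intCast_re, rho_im,
    rho_re, Complex.natCast_im, zero_mul, add_zero, zero_add] at him
  simp only [Complex.add_re, Complex.mul_re, Complex.intCast_im, Complex.intCast_re, rho_im,
    rho_re, Complex.natCast_re, zero_mul, sub_zero] at hre
  have hs : Real.sqrt 3 / 2 ≠ 0 := by positivity
  have hB : ((∑ i, cb (κ i) : ℤ) : ℝ) = 0 := (mul_eq_zero.mp him).resolve_right hs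
  rw [hB, zero_mul, add_zero] at hre
  exact ⟨by exact_mod_cast hre, by exact_mod_cast hB⟩

end EllipticAux

theorem GoodFrame.sum_mod6 (h : GoodFrame Γ κ F) (hneg : -1 ∈ Γ) :
    ∑ i, (if κ i % 6 = 0 then (2 : ℤ) else -1)
      = 2 * Nat.card {q : SL(2, ℤ) ⧸ Γ // (ModularGroup.S * ModularGroup.T) • q = q} := by
  obtain ⟨hA, hB⟩ := EllipticAux.sum_ca_cb h hneg
  have h1 : ∀ i, (if κ i % 6 = 0 then (2 : ℤ) else -1) =
      2 * EllipticAux.ca (κ i) - EllipticAux.cb (κ i) := by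
    intro i
    obtain ⟨m, hm⟩ := h.even hneg i
    unfold EllipticAux.ca EllipticAux.cb
    have h3 : κ i % 6 = 0 ∨ κ i % 6 = 2 ∨ κ i % 6 = 4 := by omega
    rcases h3 with h3 | h3 | h3 <;> simp [h3]
  simp_rw [h1]
  rw [Finset.sum_sub_distrib, ← Finset.mul_sum, hA, hB, sub_zero]

theorem GoodFrame.sum_mod6' (h : GoodFrame Γ κ F) (hneg : -1 ∈ Γ) :
    ∑ i, (if κ i % 6 = 2 then (1 : ℤ) else if κ i % 6 = 4 then -1 else 0) = 0 := by
  obtain ⟨-, hB⟩ := EllipticAux.sum_ca_cb h hneg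
  have h1 : ∀ i, (if κ i % 6 = 2 then (1 : ℤ) else if κ i % 6 = 4 then -1 else 0) =
      -EllipticAux.cb (κ i) := by
    intro i
    unfold EllipticAux.cb
    split_ifs <;> simp
  simp_rw [h1]
  rw [Finset.sum_neg_distrib, hB, neg_zero]

end Fermat.Agent.S20
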