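import Fermat.Agent.S20.Frame
import Fermat.Agent.S20.Det
import Fermat.Agent.S20.Elliptic
import Fermat.Agent.S20.Dual

/-!
# S20 library: the abstract dimension formula   (OWNER: helper12)
-/

open UpperHalfPlane ModularForm Filter Matrix
open scoped MatrixGroups ModularForm Manifold Topology Real

namespace Fermat.Agent.S20

/-- pointwise numerics -/
theorem numerics_pointwise (c : ℕ) (hc : c ≤ 10) (he : Even c) :
    (12 : ℤ) * (if c = 10 then 1 else 0) = 12 * (if c = 0 then 1 else 0) - 5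
      - 3 * (if c % 4 = 0 then (1 : ℤ) else -1) - 2 * (if c % 6 = 0 then (2 : ℤ) else -1)
      - 2 * (if c % 6 = 2 then (1 : ℤ) else if c % 6 = 4 then -1 else 0) + c := by
  obtain ⟨m, rfl⟩ := he
  have hm : m ≤ 5 := by omega
  interval_cases m <;> simp

/-- **Abstract dimension formula** for `S₂(Γ)`, `Γ` of finite index containing `-1` and admitting a
separating form. -/
theorem twelve_mul_finrank_CF_two (Γ : Subgroup SL(2, ℤ)) [Γ.FiniteIndex] (hneg : -1 ∈ Γ)
    (hsep : ∃ (k : ℤ) (f : ℍ → ℂ), IsMF Γ k f ∧ ∀ g : SL(2, ℤ), f ∣[k] g = f → g ∈ Γ) :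
    12 * (Module.finrank ℂ (CFsub Γ 2) : ℤ) = 12 + (Nat.card (SL(2, ℤ) ⧸ Γ) : ℤ)
      - 3 * Nat.card {q : SL(2, ℤ) ⧸ Γ // ModularGroup.S • q = q}
      - 4 * Nat.card {q : SL(2, ℤ) ⧸ Γ // (ModularGroup.S * ModularGroup.T) • q = q}
      - 6 * Nat.card (MulAction.orbitRel.Quotient (Subgroup.zpowers ModularGroup.T)
          (SL(2, ℤ) ⧸ Γ)) := by
  obtain ⟨κ, F, h⟩ := exists_goodFrame Γ hneg hsep
  have h10 := h.finrank_CF_two hneg
  have h0 := h.card_weight_zero
  have hW := h.sum_weights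
  have h4 := h.sum_mod4 hneg
  have h6 := h.sum_mod6 hneg
  have h6' := h.sum_mod6' hneg
  have hpt : ∀ i, (12 : ℤ) * (if κ i = 10 then 1 else 0) = 12 * (if κ i = 0 then 1 else 0) - 5
      - 3 * (if κ i % 4 = 0 then (1 : ℤ) else -1) - 2 * (if κ i % 6 = 0 then (2 : ℤ) else -1)
      - 2 * (if κ i % 6 = 2 then (1 : ℤ) else if κ i % 6 = 4 then -1 else 0) + κ i :=
    fun i => numerics_pointwise (κ i) (h.weight_le_ten hneg i) (h.even hneg i)
  have hsum := Finset.sum_congr (rfl : (Finset.univ : Finset (SL(2, ℤ) ⧸ Γ)) = Finset.univ)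
    (fun i _ => hpt i)
  simp only [Finset.sum_add_distrib, Finset.sum_sub_distrib, ← Finset.mul_sum, h4, h6, h6', hW,
    Finset.sum_boole, Finset.sum_const, Finset.card_univ, nsmul_eq_mul, mul_one] at hsum
  rw [h10]
  have hcard : (Fintype.card (SL(2, ℤ) ⧸ Γ) : ℤ) = (Nat.card (SL(2, ℤ) ⧸ Γ) : ℤ) := by
    rw [Nat.card_eq_fintype_card]
  rw [h0] at hsum
  push_cast at hsum ⊢
  linarith

end Fermat.Agent.S20
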