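import Fermat.Agent.S20.Defs
import Fermat.Agent.S20.LevelOneMF
import Fermat.Agent.S22.ConjDef

/-!
# S20 library: a modular form for `Γ₀(N)` whose stabilizer in `SL(2,ℤ)` is exactly `Γ₀(N)`

We use `x(τ) = N^11 Δ(Nτ)` (`Fermat.Agent.S22.xForm`): its translates by `γ ∉ Γ₀(N)` are
`N^11 d^{-12} Δ((aτ+b)/d)` with `a d = N`, `d > 1`, which decay more slowly at `i∞` than `x`.
-/

set_option autoImplicit false

open UpperHalfPlane ModularForm CongruenceSubgroup
open scoped MatrixGroups ModularForm Manifold Topology Real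

namespace Fermat.Agent.S20

namespace Sep

open Filter

theorem xForm_apply (N : ℕ) [NeZero N] (τ : ℍ) :
    Fermat.Agent.S22.xForm N τ
      = (N : ℂ) ^ 11 * ModularForm.discriminant (ModularForm.heckeDiagMatrix N • τ) := by
  have h := ModularForm.slash_heckeDiagMatrix_apply 12 (NeZero.ne N) ModularForm.discriminant τ
  have h' : Fermat.Agent.S22.xForm N τ
      = (ModularForm.discriminant ∣[(12 : ℤ)] ModularForm.heckeDiagMatrix N) τ := rfl
  rw [h', h]
  norm_num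

/-- the normalized discriminant `Δ(z) e^{-2πiz}` -/
noncomputable def E (z : ℍ) : ℂ :=
  ModularForm.discriminant z * Complex.exp (-(2 * Real.pi * Complex.I * z))

theorem tendsto_E : Tendsto E atImInfty (𝓝 1) := LevelOne.tendsto_discriminant_mul_exp

theorem discriminant_eq (z : ℍ) :
    ModularForm.discriminant z = E z * Complex.exp (2 * Real.pi * Complex.I * z) := by
  rw [E, mul_assoc, ← Complex.exp_add]
  simp

theorem tendsto_im_atImInfty : Tendsto (fun τ : ℍ => τ.im) atImInfty atTop :=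
  tendsto_comap

theorem not_slash_eq (N : ℕ) [NeZero N] (γ : SL(2, ℤ)) (hγ : γ ∉ Gamma0 N) :
    (Fermat.Agent.S22.xForm N : ℍ → ℂ) ∣[(12 : ℤ)] γ ≠ Fermat.Agent.S22.xForm N := by
  intro heq
  obtain ⟨a, d, b, had, hd, hform⟩ := Fermat.Agent.S22.xForm_slash N γ
  have hd1 : 1 < d := hd hγ
  have hN : 0 < N := NeZero.pos N
  have ha : 0 < a := by
    rcases Nat.eq_zero_or_pos a with h | h
    · rw [h, zero_mul] at had; omega
    · exact h
  have haR : (0 : ℝ) < a := by exact_mod_cast ha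
  have hdR : (1 : ℝ) < d := by exact_mod_cast hd1
  have hdR0 : (0 : ℝ) < d := by linarith
  have hNR : (N : ℝ) = a * d := by exact_mod_cast had.symm
  -- the two arguments
  set z₁ : ℍ → ℍ := fun τ => ofComplex ((a * (τ : ℂ) + b) / d) with hz₁
  set z₂ : ℍ → ℍ := fun τ => ModularForm.heckeDiagMatrix N • τ with hz₂
  have hz₁im' : ∀ τ : ℍ, ((a * (τ : ℂ) + b) / d : ℂ).im = a / d * τ.im := by
    intro τ
    rw [show ((a : ℂ) * (τ : ℂ) + b) / d = (((a : ℝ) * (τ : ℂ) + (b : ℝ)) / (d : ℝ) : ℂ) by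
      push_cast; ring, Complex.div_ofReal_im]
    simp
    ring
  have hz₁coe : ∀ τ : ℍ, ((z₁ τ : ℍ) : ℂ) = (a * (τ : ℂ) + b) / d := by
    intro τ
    have him : 0 < ((a * (τ : ℂ) + b) / d).im := by
      rw [hz₁im']
      exact mul_pos (div_pos haR hdR0) τ.im_pos
    change ((ofComplex ((a * (τ : ℂ) + b) / d) : ℍ) : ℂ) = _
    rw [ofComplex_apply_of_im_pos him]
  have hz₂coe : ∀ τ : ℍ, ((z₂ τ : ℍ) : ℂ) = (N : ℂ) * (τ : ℂ) := fun τ =>
    ModularForm.coe_heckeDiagMatrix_smul (NeZero.ne N) τ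
  have hz₁im : ∀ τ : ℍ, (z₁ τ).im = a / d * τ.im := by
    intro τ
    have h : ((z₁ τ : ℍ) : ℂ).im = ((a * (τ : ℂ) + b) / d : ℂ).im :=
      congrArg Complex.im (hz₁coe τ)
    exact h.trans (hz₁im' τ)
  have hz₂im : ∀ τ : ℍ, (z₂ τ).im = N * τ.im := by
    intro τ
    have h : ((z₂ τ : ℍ) : ℂ).im = ((N : ℂ) * (τ : ℂ)).im := congrArg Complex.im (hz₂coe τ)
    have h2 : ((N : ℂ) * (τ : ℂ)).im = N * τ.im := by
      rw [show ((N : ℂ) * (τ : ℂ)) = (((N : ℝ) : ℂ) * (τ : ℂ)) by push_cast; ring,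
        Complex.im_ofReal_mul]
      rfl
    exact h.trans h2
  have hz₁t : Tendsto z₁ atImInfty atImInfty := by
    rw [atImInfty, tendsto_comap_iff]
    have : (UpperHalfPlane.im ∘ z₁) = fun τ : ℍ => (a / d : ℝ) * τ.im := funext hz₁im
    rw [this]
    exact tendsto_im_atImInfty.const_mul_atTop (div_pos haR hdR0)
  have hz₂t : Tendsto z₂ atImInfty atImInfty := by
    rw [atImInfty, tendsto_comap_iff]
    have : (UpperHalfPlane.im ∘ z₂) = fun τ : ℍ => (N : ℝ) * τ.im := funext hz₂im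
    rw [this]
    exact tendsto_im_atImInfty.const_mul_atTop (by exact_mod_cast hN)
  -- the key identity
  have hN' : (N : ℂ) ^ 11 ≠ 0 := pow_ne_zero _ (by exact_mod_cast hN.ne')
  have key : ∀ τ : ℍ, ((d : ℂ) ^ 12)⁻¹ * ModularForm.discriminant (z₁ τ)
      = ModularForm.discriminant (z₂ τ) := by
    intro τ
    have h1 := hform τ
    rw [heq, xForm_apply] at h1
    apply mul_left_cancel₀ hN'
    rw [h1]
    ring
  -- rewrite in terms of `E`
  set W : ℍ → ℂ := fun τ =>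
    Complex.exp (2 * Real.pi * Complex.I * ((z₂ τ : ℂ) - (z₁ τ : ℂ))) with hW
  have key2 : ∀ τ : ℍ, ((d : ℂ) ^ 12)⁻¹ * E (z₁ τ) = E (z₂ τ) * W τ := by
    intro τ
    have h1 := key τ
    rw [discriminant_eq (z₁ τ), discriminant_eq (z₂ τ)] at h1
    have hexp : Complex.exp (2 * Real.pi * Complex.I * (z₁ τ : ℂ)) ≠ 0 := Complex.exp_ne_zero _
    have hWeq : W τ * Complex.exp (2 * Real.pi * Complex.I * (z₁ τ : ℂ))
        = Complex.exp (2 * Real.pi * Complex.I * (z₂ τ : ℂ)) := by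
      rw [hW, ← Complex.exp_add]
      congr 1
      ring
    apply mul_right_cancel₀ hexp
    linear_combination h1 - E (z₂ τ) * hWeq
  -- `W → 0`
  have hc : (0 : ℝ) < N - a / d := by
    have h1 : (a : ℝ) / d < a := div_lt_self haR hdR
    have h2 : (a : ℝ) ≤ N := by
      rw [hNR]
      nlinarith
    linarith
  have hWnorm : ∀ τ : ℍ, ‖W τ‖ = Real.exp (-(2 * Real.pi * (N - a / d)) * τ.im) := by
    intro τ
    rw [hW, Complex.norm_exp]
    congr 1
    have h1 : (2 * (Real.pi : ℂ) * Complex.I * ((z₂ τ : ℂ) - (z₁ τ : ℂ))).re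
        = -(2 * Real.pi * (((z₂ τ : ℍ) : ℂ).im - ((z₁ τ : ℍ) : ℂ).im)) := by
      have : (2 * (Real.pi : ℂ) * Complex.I * ((z₂ τ : ℂ) - (z₁ τ : ℂ)))
          = ((2 * Real.pi : ℝ) : ℂ) * (Complex.I * ((z₂ τ : ℂ) - (z₁ τ : ℂ))) := by
        push_cast; ring
      rw [this, Complex.re_ofReal_mul, Complex.I_mul_re, Complex.sub_im]
      ring
    rw [h1, UpperHalfPlane.coe_im, UpperHalfPlane.coe_im, hz₁im, hz₂im]
    ring
  have hWt : Tendsto W atImInfty (𝓝 0) := by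
    rw [tendsto_zero_iff_norm_tendsto_zero]
    have : (fun τ : ℍ => ‖W τ‖) = fun τ : ℍ => Real.exp (-(2 * Real.pi * (N - a / d)) * τ.im) :=
      funext hWnorm
    rw [this]
    refine Real.tendsto_exp_atBot.comp ?_
    have hneg : -(2 * Real.pi * ((N : ℝ) - a / d)) < 0 := by
      have := Real.pi_pos
      nlinarith
    exact tendsto_im_atImInfty.const_mul_atTop_of_neg hneg
  -- compare limits
  have hL : Tendsto (fun τ : ℍ => ((d : ℂ) ^ 12)⁻¹ * E (z₁ τ)) atImInfty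
      (𝓝 (((d : ℂ) ^ 12)⁻¹ * 1)) :=
    (tendsto_E.comp hz₁t).const_mul _
  have hR : Tendsto (fun τ : ℍ => E (z₂ τ) * W τ) atImInfty (𝓝 (1 * 0)) :=
    (tendsto_E.comp hz₂t).mul hWt
  have hfun : (fun τ : ℍ => ((d : ℂ) ^ 12)⁻¹ * E (z₁ τ)) = fun τ : ℍ => E (z₂ τ) * W τ :=
    funext key2
  rw [hfun] at hL
  have hfin := tendsto_nhds_unique hL hR
  rw [mul_one, mul_zero, inv_eq_zero] at hfin
  have hd0 : (d : ℂ) ≠ 0 := by
    have : d ≠ 0 := by omega
    exact_mod_cast this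
  exact pow_ne_zero 12 hd0 hfin

end Sep

theorem exists_sep_Gamma0 (N : ℕ) [NeZero N] :
    ∃ (k : ℤ) (f : ℍ → ℂ), IsMF (Gamma0 N) k f ∧
      ∀ g : SL(2, ℤ), f ∣[k] g = f → g ∈ Gamma0 N := by
  refine ⟨12, Fermat.Agent.S22.xForm N, isMF_of_modularForm (Fermat.Agent.S22.xForm N), ?_⟩
  intro g hg
  by_contra hmem
  exact Sep.not_slash_eq N g hmem hg

end Fermat.Agent.S20
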