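import Fermat.Agent.S20.LevelOneDefs
import Fermat.Agent.S23.Holo

/-!
# S20 library: division lemma (integrality + removable singularities)

If all coset translates of `H ∈ M_K(Γ)` vanish at `z₀` and `P` is a good divisor at `z₀`
(level-one, simple zero at `z₀`, generating the level-one forms vanishing at `z₀`), then
`H / P ∈ M_{K-w}(Γ)`.

Proof.  `e_i := ∑_{|s| = i} ∏_{q ∈ s} tr Γ K H q` is a level-one form of weight `i*K`
(`tr_slash` permutes the translates) with `e_i = O((z - z₀)^i)`; by `GoodDivisor.dvd` (induction,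
using the simple zero) `e_i = P^i * a_i` with `a_i` level-one.  Then `H` and `P` satisfy
`∑ (-1)^i a_i P^i H^(μ-i) = 0` (Vieta for `∏_q (X - tr H q)`), so by the holomorphy-from-integrality
lemma `Fermat.Agent.S23.exists_holo_quotient` the quotient `H / P` extends holomorphically.
Invariance by cancellation; boundedness at cusps because `P → c ≠ 0` at `i∞`.
-/

open UpperHalfPlane ModularForm Filter
open scoped MatrixGroups ModularForm Manifold Topology Real

namespace Fermat.Agent.S20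

variable {Γ : Subgroup SL(2, ℤ)} {k : ℤ} {f : ℍ → ℂ}

namespace Division

/-- holomorphy of finite products -/
theorem mdiff_prod {ι : Type*} (s : Finset ι) (F : ι → ℍ → ℂ) (h : ∀ q ∈ s, MDiff (F q)) :
    MDiff (∏ q ∈ s, F q) := by
  classical
  induction s using Finset.induction_on with
  | empty =>
    rw [Finset.prod_empty]
    exact mdifferentiable_const (c := (1 : ℂ))
  | insert a s ha ih =>
    rw [Finset.prod_insert ha]
    exact (h a (Finset.mem_insert_self a s)).mul (ih fun q hq => h q (Finset.mem_insert_of_mem hq))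

/-- slash of a finite product -/
theorem prod_slash_SL {ι : Type*} (s : Finset ι) (F : ι → ℍ → ℂ) (k : ℤ) (g : SL(2, ℤ)) :
    (∏ q ∈ s, F q) ∣[(s.card : ℤ) * k] g = ∏ q ∈ s, (F q ∣[k] g) := by
  classical
  induction s using Finset.induction_on with
  | empty =>
    simp only [Finset.prod_empty, Finset.card_empty, Nat.cast_zero, zero_mul]
    exact is_invariant_one g
  | insert a s ha ih =>
    rw [Finset.prod_insert ha, Finset.prod_insert ha, Finset.card_insert_of_notMem ha,
      show ((s.card + 1 : ℕ) : ℤ) * k = k + (s.card : ℤ) * k by push_cast; ring, mul_slash_SL2, ih]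

/-- boundedness of finite products -/
theorem bdd_prod {ι : Type*} (s : Finset ι) (F : ι → ℍ → ℂ)
    (h : ∀ q ∈ s, IsBoundedAtImInfty (F q)) : IsBoundedAtImInfty (∏ q ∈ s, F q) := by
  classical
  induction s using Finset.induction_on with
  | empty =>
    rw [Finset.prod_empty]
    exact Filter.const_boundedAtFilter _ (1 : ℂ)
  | insert a s ha ih =>
    rw [Finset.prod_insert ha]
    exact (h a (Finset.mem_insert_self a s)).mul (ih fun q hq => h q (Finset.mem_insert_of_mem hq))

/-- the `i`-th elementary symmetric function of the translates -/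
noncomputable def esymmTr (Γ : Subgroup SL(2, ℤ)) [Γ.FiniteIndex] (k : ℤ) (f : ℍ → ℂ) (i : ℕ) :
    ℍ → ℂ :=
  ∑ s ∈ Finset.powersetCard i (Finset.univ : Finset (SL(2, ℤ) ⧸ Γ)), ∏ q ∈ s, tr Γ k f q

theorem esymmTr_apply [Γ.FiniteIndex] (i : ℕ) (z : ℍ) :
    esymmTr Γ k f i z =
      ∑ s ∈ Finset.powersetCard i (Finset.univ : Finset (SL(2, ℤ) ⧸ Γ)), ∏ q ∈ s, tr Γ k f q z := by
  simp [esymmTr, Finset.sum_apply, Finset.prod_apply]

theorem esymmTr_slash [Γ.FiniteIndex] (h : IsMF Γ k f) (i : ℕ) (g : SL(2, ℤ)) :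
    esymmTr Γ k f i ∣[(i : ℤ) * k] g = esymmTr Γ k f i := by
  unfold esymmTr
  rw [SlashAction.sum_slash]
  have step : ∀ s ∈ Finset.powersetCard i (Finset.univ : Finset (SL(2, ℤ) ⧸ Γ)),
      (∏ q ∈ s, tr Γ k f q) ∣[(i : ℤ) * k] g =
        ∏ q ∈ (MulAction.toPerm g⁻¹).finsetCongr s, tr Γ k f q := by
    intro s hs
    have hc : s.card = i := (Finset.mem_powersetCard.mp hs).2
    rw [← hc, prod_slash_SL, Equiv.finsetCongr_apply, Finset.prod_map]
    refine Finset.prod_congr rfl fun q _ => ?_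
    rw [tr_slash h.inv]
    rfl
  rw [Finset.sum_congr rfl step]
  refine Finset.sum_equiv (MulAction.toPerm g⁻¹).finsetCongr (fun s => ?_) (fun s _ => rfl)
  simp [Finset.mem_powersetCard, Equiv.finsetCongr_apply]

theorem isMF_esymmTr [Γ.FiniteIndex] (h : IsMF Γ k f) (i : ℕ) :
    IsMF ⊤ (i * k) (esymmTr Γ k f i) := by
  refine ⟨?_, fun g _ => esymmTr_slash h i g, fun g => ?_⟩
  · exact MDifferentiable.sum fun s _ => mdiff_prod s _ fun q _ => h.tr_holo q
  · rw [esymmTr_slash h i g]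
    exact (Filter.boundedFilterSubmodule ℂ atImInfty).sum_mem fun s _ =>
      bdd_prod s _ fun q _ => h.tr_bdd q

/-- analyticity (in `ℂ`) at points of the upper half plane -/
theorem analyticAt_comp_ofComplex {F : ℍ → ℂ} (hF : MDiff F) (z : ℍ) :
    AnalyticAt ℂ (F ∘ ofComplex) (z : ℂ) :=
  (UpperHalfPlane.mdifferentiable_iff.mp hF).analyticAt
    (isOpen_upperHalfPlaneSet.mem_nhds z.im_pos)

/-- the `i`-th elementary symmetric function of analytic functions vanishing at `x` vanishes to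
order `≥ i` at `x` -/
theorem le_analyticOrderAt_esymm {ι : Type*} (S : Finset ι) (F : ι → ℂ → ℂ) (x : ℂ)
    (hF : ∀ q ∈ S, AnalyticAt ℂ (F q) x) (h0 : ∀ q ∈ S, F q x = 0) (i : ℕ) :
    (i : ℕ∞) ≤ analyticOrderAt (fun z => ∑ s ∈ Finset.powersetCard i S, ∏ q ∈ s, F q z) x := by
  classical
  have hex : ∀ q, ∃ G : ℂ → ℂ, q ∈ S →
      (AnalyticAt ℂ G x ∧ ∀ᶠ z in 𝓝 x, F q z = (z - x) * G z) := by
    intro q
    by_cases hq : q ∈ S
    · have h1 : (1 : ℕ∞) ≤ analyticOrderAt (F q) x :=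
        Order.one_le_iff_ne_zero.mpr ((hF q hq).analyticOrderAt_ne_zero.mpr (h0 q hq))
      obtain ⟨G, hG, hGe⟩ := (natCast_le_analyticOrderAt (hF q hq) (n := 1)).mp
        (by exact_mod_cast h1)
      exact ⟨G, fun _ => ⟨hG, by simpa using hGe⟩⟩
    · exact ⟨0, fun h => absurd h hq⟩
  choose G hG using hex
  have han : AnalyticAt ℂ (fun z => ∑ s ∈ Finset.powersetCard i S, ∏ q ∈ s, F q z) x :=
    Finset.analyticAt_fun_sum _ fun s hs => Finset.analyticAt_fun_prod _ fun q hq =>
      hF q ((Finset.mem_powersetCard.mp hs).1 hq)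
  rw [natCast_le_analyticOrderAt han]
  refine ⟨fun z => ∑ s ∈ Finset.powersetCard i S, ∏ q ∈ s, G q z, ?_, ?_⟩
  · exact Finset.analyticAt_fun_sum _ fun s hs => Finset.analyticAt_fun_prod _ fun q hq =>
      (hG q ((Finset.mem_powersetCard.mp hs).1 hq)).1
  · have hev : ∀ᶠ z in 𝓝 x, ∀ q ∈ S, F q z = (z - x) * G q z := by
      rw [Filter.eventually_all_finset]
      exact fun q hq => (hG q hq).2
    filter_upwards [hev] with z hz
    rw [smul_eq_mul, Finset.mul_sum]
    refine Finset.sum_congr rfl fun s hs => ?_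
    obtain ⟨hsS, hcard⟩ := Finset.mem_powersetCard.mp hs
    rw [Finset.prod_congr rfl fun q hq => hz q (hsS hq), Finset.prod_mul_distrib,
      Finset.prod_const, hcard]

/-- order lemma: a level-one form vanishing to order `≥ m` at `z₀` is divisible by `P ^ m` -/
theorem dvd_pow_of_goodDivisor {P : ℍ → ℂ} {w : ℤ} {z₀ : ℍ} (hP : GoodDivisor P w z₀) (m : ℕ) :
    ∀ (k : ℤ) (f : ℍ → ℂ), IsMF ⊤ k f →
      (m : ℕ∞) ≤ analyticOrderAt (f ∘ ofComplex) (z₀ : ℂ) →
      ∃ g, IsMF ⊤ (k - m * w) g ∧ f = P ^ m * g := by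
  induction m with
  | zero =>
    intro k f hf _
    exact ⟨f, hf.congr_weight (by simp), by simp⟩
  | succ m ih =>
    intro k f hf hord
    have hfan := analyticAt_comp_ofComplex hf.holo z₀
    have hf0 : f z₀ = 0 := by
      have h1 : analyticOrderAt (f ∘ ofComplex) (z₀ : ℂ) ≠ 0 := by
        intro h0
        rw [h0] at hord
        simp at hord
      have := hfan.analyticOrderAt_ne_zero.mp h1
      simpa using this
    obtain ⟨f1, hf1, hff1⟩ := hP.dvd k f hf hf0
    have hPan := analyticAt_comp_ofComplex hP.isMF.holo z₀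
    have hf1an := analyticAt_comp_ofComplex hf1.holo z₀
    have hPord : analyticOrderAt (P ∘ ofComplex) (z₀ : ℂ) = 1 :=
      hPan.analyticOrderAt_eq_one_of_zero_deriv_ne_zero (by simpa using hP.zero) hP.deriv_ne
    have hmul : analyticOrderAt (f ∘ ofComplex) (z₀ : ℂ) =
        1 + analyticOrderAt (f1 ∘ ofComplex) (z₀ : ℂ) := by
      rw [hff1, ← hPord]
      exact analyticOrderAt_mul hPan hf1an
    have hord1 : (m : ℕ∞) ≤ analyticOrderAt (f1 ∘ ofComplex) (z₀ : ℂ) := by
      rw [hmul] at hord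
      push_cast at hord
      rw [add_comm] at hord
      exact (ENat.add_le_add_iff_left ENat.one_ne_top).mp hord
    obtain ⟨g, hg, hfg⟩ := ih (k - w) f1 hf1 hord1
    refine ⟨g, hg.congr_weight (by push_cast; ring), ?_⟩
    rw [hff1, hfg, pow_succ]
    ring

end Division

open Division

/-- elementary symmetric functions of the translates are level-one forms -/
theorem IsMF.esymm_tr [Γ.FiniteIndex] (h : IsMF Γ k f) (i : ℕ) :
    IsMF ⊤ (i * k)
      (fun z => ∑ s ∈ Finset.powersetCard i (Finset.univ : Finset (SL(2, ℤ) ⧸ Γ)),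
        ∏ q ∈ s, tr Γ k f q z) := by
  have := isMF_esymmTr h i
  have heq : esymmTr Γ k f i = (fun z => ∑ s ∈ Finset.powersetCard i
      (Finset.univ : Finset (SL(2, ℤ) ⧸ Γ)), ∏ q ∈ s, tr Γ k f q z) := funext (esymmTr_apply i)
  rwa [heq] at this

/-- **Division lemma.** -/
theorem div_of_goodDivisor [Γ.FiniteIndex] {P : ℍ → ℂ} {w : ℤ} {z₀ : ℍ} (hP : GoodDivisor P w z₀)
    {K : ℤ} {H : ℍ → ℂ} (hH : IsMF Γ K H) (hv : ∀ q : SL(2, ℤ) ⧸ Γ, tr Γ K H q z₀ = 0) :
    ∃ H', IsMF Γ (K - w) H' ∧ H = P * H' := by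
  classical
  set μ := Fintype.card (SL(2, ℤ) ⧸ Γ) with hμ
  -- `e_i = P^i * a_i`
  have hex : ∀ i : ℕ, ∃ a : ℍ → ℂ, IsMF ⊤ (i * K - i * w) a ∧ esymmTr Γ K H i = P ^ i * a := by
    intro i
    refine dvd_pow_of_goodDivisor hP i _ _ (isMF_esymmTr hH i) ?_
    have := le_analyticOrderAt_esymm (Finset.univ : Finset (SL(2, ℤ) ⧸ Γ))
      (fun q => tr Γ K H q ∘ ofComplex) (z₀ : ℂ)
      (fun q _ => analyticAt_comp_ofComplex (hH.tr_holo q) z₀) (fun q _ => by simpa using hv q) i
    convert this using 2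
    funext z
    simp [esymmTr_apply]
  choose a ha using hex
  have hP0 : P ≠ 0 := by
    obtain ⟨c, hc, hlim⟩ := hP.lim
    intro h
    rw [h] at hlim
    exact hc (tendsto_nhds_unique hlim tendsto_const_nhds)
  set A : ℕ → ℍ → ℂ := fun i => if i = 0 then 1 else (-1 : ℂ) ^ i • a i with hA
  have hAc : ∀ i, Continuous (A i) := by
    intro i
    by_cases hi : i = 0
    · simp only [hA, hi, if_true]
      exact continuous_const
    · simp only [hA, hi, if_false]
      exact ((ha i).1.holo.continuous).const_smul _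
  have hA0 : A 0 = 1 := by simp [hA]
  have hone : tr Γ K H ((1 : SL(2, ℤ)) : SL(2, ℤ) ⧸ Γ) = H := tr_one_coset hH.inv
  have heq : ∀ τ, ∑ i ∈ Finset.range (μ + 1), A i τ * P τ ^ i * H τ ^ (μ - i) = 0 := by
    intro τ
    have hA' : ∀ j, A j τ * P τ ^ j = (-1) ^ j * esymmTr Γ K H j τ := by
      intro j
      by_cases hj : j = 0
      · subst hj
        simp [hA, esymmTr_apply]
      · have := congrFun (ha j).2 τ
        simp only [Pi.mul_apply, Pi.pow_apply] at this
        simp only [hA, hj, if_false, Pi.smul_apply, smul_eq_mul]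
        rw [this]
        ring
    have hvieta : ∏ q : SL(2, ℤ) ⧸ Γ, (H τ - tr Γ K H q τ) =
        ∑ i ∈ Finset.range (μ + 1), A i τ * P τ ^ i * H τ ^ (μ - i) := by
      have h1 : ∏ q : SL(2, ℤ) ⧸ Γ, (H τ - tr Γ K H q τ) =
          ∏ q : SL(2, ℤ) ⧸ Γ, (-tr Γ K H q τ + H τ) :=
        Finset.prod_congr rfl fun q _ => by ring
      rw [h1, Finset.prod_add, Finset.sum_powerset, Finset.card_univ]
      refine Finset.sum_congr rfl fun j _ => ?_
      rw [hA' j, esymmTr_apply, Finset.mul_sum, Finset.sum_mul]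
      refine Finset.sum_congr rfl fun t ht => ?_
      have hc : t.card = j := (Finset.mem_powersetCard.mp ht).2
      rw [Finset.prod_neg, Finset.prod_const, Finset.card_sdiff_of_subset (Finset.subset_univ t),
        Finset.card_univ, hc]
    rw [← hvieta]
    exact Finset.prod_eq_zero (Finset.mem_univ ((1 : SL(2, ℤ)) : SL(2, ℤ) ⧸ Γ))
      (by rw [hone]; ring)
  obtain ⟨H', hH'holo, hH'mul, -⟩ := Fermat.Agent.S23.exists_holo_quotient μ A H P hH.holo
    hP.isMF.holo hP0 hAc hA0 heq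
  have hslash : ∀ g : SL(2, ℤ), (H' ∣[K - w] g) * P = H ∣[K] g := by
    intro g
    have h1 : (H' ∣[K - w] g) * (P ∣[w] g) = H ∣[K] g := by
      rw [← mul_slash_SL2, show K - w + w = K by ring]
      congr 1
      funext τ
      exact hH'mul τ
    rwa [hP.isMF.slash_eq_of_top g] at h1
  refine ⟨H', ⟨hH'holo, ?_, ?_⟩, ?_⟩
  · intro γ hγ
    refine Fermat.Agent.S23.eq_of_mul_eq_mul P _ _ hP.isMF.holo hP0
      (hH'holo.slash _ _).continuous hH'holo.continuous fun τ => ?_
    have h1 := congrFun (hslash γ) τ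
    rw [hH.inv γ hγ, Pi.mul_apply] at h1
    rw [h1, hH'mul τ]
  · intro g
    obtain ⟨c, hc, hlim⟩ := hP.lim
    have hcpos : 0 < ‖c‖ := norm_pos_iff.mpr hc
    have hev : ∀ᶠ z in atImInfty, ‖c‖ / 2 ≤ ‖P z‖ := by
      have := (hlim.norm).eventually (lt_mem_nhds (show ‖c‖ / 2 < ‖c‖ by linarith))
      filter_upwards [this] with z hz using hz.le
    have hb := hH.bdd g
    rw [IsBoundedAtImInfty, BoundedAtFilter, Asymptotics.isBigO_iff] at hb ⊢
    obtain ⟨M, hM⟩ := hb
    refine ⟨M * (2 / ‖c‖), ?_⟩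
    filter_upwards [hM, hev] with z hz1 hz2
    have h2 := congrFun (hslash g) z
    rw [Pi.mul_apply] at h2
    have h3 : ‖(H' ∣[K - w] g) z‖ * ‖P z‖ ≤ M * ‖(1 : ℍ → ℝ) z‖ := by
      rw [← norm_mul, h2]
      exact hz1
    have hPpos : 0 < ‖P z‖ := lt_of_lt_of_le (by linarith) hz2
    simp only [Pi.one_apply, norm_one, mul_one] at h3 ⊢
    have hM0 : 0 ≤ M := le_trans (mul_nonneg (norm_nonneg _) (norm_nonneg _)) h3
    calc ‖(H' ∣[K - w] g) z‖ = ‖(H' ∣[K - w] g) z‖ * ‖P z‖ / ‖P z‖ := by field_simp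
      _ ≤ M / ‖P z‖ := by gcongr
      _ ≤ M / (‖c‖ / 2) := by gcongr
      _ = M * (2 / ‖c‖) := by field_simp
  · funext τ
    rw [Pi.mul_apply, mul_comm]
    exact (hH'mul τ).symm

/-- a family of complex numbers all of whose power sums vanish is zero
(used at elliptic points; Newton identities or Vandermonde). -/
theorem eq_zero_of_forall_pow_sum_eq_zero {ι : Type*} [Fintype ι] (x : ι → ℂ)
    (h : ∀ m : ℕ, 1 ≤ m → ∑ i, x i ^ m = 0) : x = 0 := by
  classical
  have hpoly : ∀ Q : Polynomial ℂ, Q.coeff 0 = 0 → ∑ i, Q.eval (x i) = 0 := by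
    intro Q hQ
    simp_rw [Polynomial.eval_eq_sum_range]
    rw [Finset.sum_comm]
    refine Finset.sum_eq_zero fun m _ => ?_
    rw [← Finset.mul_sum]
    rcases Nat.eq_zero_or_pos m with rfl | hm
    · rw [hQ, zero_mul]
    · rw [h m hm, mul_zero]
  funext i0
  rw [Pi.zero_apply]
  by_contra hne
  set S : Finset ℂ := (Finset.univ.image x).erase (x i0) with hS
  set Q : Polynomial ℂ := Polynomial.X * ∏ y ∈ S, (Polynomial.X - Polynomial.C y) with hQ
  have hQ0 : Q.coeff 0 = 0 := by simp [hQ]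
  have hev : ∀ i, Q.eval (x i) = if x i = x i0 then Q.eval (x i0) else 0 := by
    intro i
    split_ifs with hi
    · rw [hi]
    · simp only [hQ, Polynomial.eval_mul, Polynomial.eval_X, Polynomial.eval_prod,
        Polynomial.eval_sub, Polynomial.eval_C]
      rw [Finset.prod_eq_zero (i := x i) (by simp [hS, hi]) (by simp), mul_zero]
  have hsum := hpoly Q hQ0
  rw [Finset.sum_congr rfl (fun i _ => hev i)] at hsum
  rw [Finset.sum_ite, Finset.sum_const_zero, add_zero, Finset.sum_const, nsmul_eq_mul] at hsum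
  have hcard : (Finset.univ.filter fun i => x i = x i0).card ≠ 0 :=
    Finset.card_ne_zero.mpr ⟨i0, by simp⟩
  have hQe : Q.eval (x i0) = 0 := by
    rcases mul_eq_zero.mp hsum with h1 | h1
    · exact absurd (by exact_mod_cast h1) hcard
    · exact h1
  simp only [hQ, Polynomial.eval_mul, Polynomial.eval_X, Polynomial.eval_prod,
    Polynomial.eval_sub, Polynomial.eval_C] at hQe
  rcases mul_eq_zero.mp hQe with h1 | h1
  · exact hne h1
  · obtain ⟨y, hy, hy0⟩ := Finset.prod_eq_zero_iff.mp h1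
    have hxy : x i0 = y := sub_eq_zero.mp hy0
    rw [hS, ← hxy] at hy
    simp at hy

end Fermat.Agent.S20
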