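import Fermat.Agent.S20.Defs

/-!
# S20 library: level-one definitions

`E4 E6 Dl : ℍ → ℂ` are Mathlib's `E₄`, `E₆`, `Δ` as plain functions.
-/

open UpperHalfPlane ModularForm EisensteinSeries Filter
open scoped MatrixGroups ModularForm Manifold Topology Real

namespace Fermat.Agent.S20

/-- `E₄` as a function -/
noncomputable def E4 : ℍ → ℂ := ⇑ModularForm.E₄
/-- `E₆` as a function -/
noncomputable def E6 : ℍ → ℂ := ⇑ModularForm.E₆
/-- the discriminant `Δ` as a function -/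
noncomputable def Dl : ℍ → ℂ := ModularForm.discriminant

variable {k : ℤ} {f : ℍ → ℂ}

theorem isMF_E4 : IsMF ⊤ 4 E4 := isMF_top_of_modularForm ModularForm.E₄
theorem isMF_E6 : IsMF ⊤ 6 E6 := isMF_top_of_modularForm ModularForm.E₆
theorem isCF_Dl : IsCF ⊤ 12 Dl := isCF_top_of_cuspForm CuspForm.discriminant
theorem Dl_ne_zero (z : ℍ) : Dl z ≠ 0 := ModularForm.discriminant_ne_zero z
theorem Dl_eq (z : ℍ) : Dl z = (E4 z ^ 3 - E6 z ^ 2) / 1728 :=
  ModularForm.discriminant_eq_E₄_cube_sub_E₆_sq z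

/-- the weight-12 level-one form vanishing at a generic point `z₀`:
`E₄(z₀)³ E₆² - E₆(z₀)² E₄³`. -/
noncomputable def Pgen (z₀ : ℍ) : ℍ → ℂ := fun z => E4 z₀ ^ 3 * E6 z ^ 2 - E6 z₀ ^ 2 * E4 z ^ 3

/-- `P` is a level-one form of weight `w` with a SIMPLE zero at `z₀`, such that every level-one
form vanishing at `z₀` is divisible by `P` (in level one), and with a nonzero limit at `i∞`. -/
structure GoodDivisor (P : ℍ → ℂ) (w : ℤ) (z₀ : ℍ) : Prop where
  isMF : IsMF ⊤ w P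
  zero : P z₀ = 0
  deriv_ne : deriv (P ∘ ofComplex) z₀ ≠ 0
  dvd : ∀ (k : ℤ) (f : ℍ → ℂ), IsMF ⊤ k f → f z₀ = 0 → ∃ f', IsMF ⊤ (k - w) f' ∧ f = P * f'
  lim : ∃ c : ℂ, c ≠ 0 ∧ Tendsto P atImInfty (𝓝 c)

end Fermat.Agent.S20
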