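import Fermat.Agent.S20.LevelOneDefs
import Fermat.Agent.S20.LevelOne
import Fermat.Agent.S20.LevelOneMF
import Fermat.Agent.S20.LevelOneTools

/-!
# S20 library: level-one interface in the `E4 E6 Dl` names

This module only re-exports: the 15 blueprint interface statements (`IsMF.exists_tendsto_top`,
`tendsto_E4`, `tendsto_E6`, `tendsto_Dl_mul_exp`, `dvd_Dl_top`, `eq_zero_of_weight_two`,
`eq_zero_of_odd_top`, `gen_E4_E6`, `bracket_ne_zero`, `goodDivisor_E6`, `goodDivisor_E4`,
`goodDivisor_Pgen`, `eq_zero_at_E6_zero`, `eq_zero_at_E4_zero`, `weight_eq_of_nonvanishing`)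
are proved in `Fermat.Agent.S20.LevelOne`.
-/
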