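import Fermat.Agent.S20.Defs

/-!
# S20 library: diagonalizing the action of `T` on `ℂ^Ω`

Pure linear algebra + combinatorics.  `T` permutes the coset space `Ω = SL(2,ℤ) ⧸ Γ`; on each
orbit (cycle) of length `h` the permutation matrix has eigenvalues `e^{2πi a/h}`, `a < h`
(discrete Fourier basis).  So there is an invertible `C` with
`C (v ∘ (T⁻¹ • ·)) = diag(e^{2πi θ_q}) C v`, `0 ≤ θ_q < 1`, and
`2 ∑ θ = ∑_cycles (h - 1) = |Ω| - #orbits`.
-/

open UpperHalfPlane ModularForm Filter Matrix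
open scoped MatrixGroups ModularForm Manifold Topology Real

namespace Fermat.Agent.S20

namespace CuspDataAux

section Sigma

variable {ι : Type} (n : ι → ℕ) [∀ i, NeZero (n i)]

/-- The product of the discrete Fourier transforms over the blocks. -/
noncomputable def dftSigma : ((Σ i, ZMod (n i)) → ℂ) ≃ₗ[ℂ] ((Σ i, ZMod (n i)) → ℂ) :=
  (LinearEquiv.piCurry ℂ (fun i (_ : ZMod (n i)) => ℂ)).trans
    ((LinearEquiv.piCongrRight fun i =>
        (ZMod.dft : (ZMod (n i) → ℂ) ≃ₗ[ℂ] (ZMod (n i) → ℂ))).trans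
      (LinearEquiv.piCurry ℂ (fun i (_ : ZMod (n i)) => ℂ)).symm)

theorem dftSigma_apply (w : (Σ i, ZMod (n i)) → ℂ) (i : ι) (k : ZMod (n i)) :
    dftSigma n w ⟨i, k⟩ = ∑ j : ZMod (n i), ZMod.stdAddChar (-(j * k)) * w ⟨i, j⟩ := by
  simp [dftSigma, ZMod.dft_apply, Sigma.curry, Sigma.uncurry]

theorem dftSigma_shift (w : (Σ i, ZMod (n i)) → ℂ) (i : ι) (k : ZMod (n i)) :
    dftSigma n (fun s => w ⟨s.1, s.2 + 1⟩) ⟨i, k⟩
      = ZMod.stdAddChar k * dftSigma n w ⟨i, k⟩ := by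
  rw [dftSigma_apply, dftSigma_apply, Finset.mul_sum]
  refine Fintype.sum_equiv (Equiv.addRight (1 : ZMod (n i))) _ _ (fun j => ?_)
  simp only [Equiv.coe_addRight]
  rw [← mul_assoc, ← AddChar.map_add_eq_mul]
  congr 2
  ring

theorem two_mul_sum_val (m : ℕ) [NeZero m] :
    2 * ∑ k : ZMod m, (k.val : ℝ) = m * (m - 1) := by
  obtain ⟨l, rfl⟩ := Nat.exists_eq_succ_of_ne_zero (NeZero.ne m)
  have h1 : ∑ k : ZMod (l + 1), (k.val : ℝ) = ∑ k : Fin (l + 1), ((k : ℕ) : ℝ) := rfl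
  rw [h1, Fin.sum_univ_eq_sum_range (fun i => (i : ℝ)) (l + 1)]
  have h2 : ((∑ i ∈ Finset.range (l + 1), i : ℕ) : ℝ) * 2
      = ((l + 1 : ℕ) : ℝ) * ((l + 1 - 1 : ℕ) : ℝ) := by
    exact_mod_cast Finset.sum_range_id_mul_two (l + 1)
  simp only [Nat.add_sub_cancel] at h2
  push_cast at h2 ⊢
  linarith

theorem two_mul_sum_theta [Fintype ι] :
    2 * ∑ s : (Σ i, ZMod (n i)), ((s.2.val : ℝ) / n s.1)
      = (∑ i, (n i : ℝ)) - Fintype.card ι := by
  rw [Fintype.sum_sigma, Finset.mul_sum]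
  have h : ∀ i, 2 * ∑ k : ZMod (n i), ((k.val : ℝ) / n i) = (n i : ℝ) - 1 := by
    intro i
    have hn : (n i : ℝ) ≠ 0 := Nat.cast_ne_zero.mpr (NeZero.ne (n i))
    rw [← Finset.sum_div, ← mul_div_assoc, two_mul_sum_val]
    field_simp
  simp only [h, Finset.sum_sub_distrib, Finset.sum_const, Finset.card_univ, nsmul_eq_mul,
    mul_one]

theorem stdAddChar_eq (m : ℕ) [NeZero m] (k : ZMod m) :
    ZMod.stdAddChar k = Complex.exp (2 * π * Complex.I * ((k.val : ℝ) / (m : ℝ) : ℝ)) := by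
  rw [ZMod.stdAddChar_apply, ZMod.toCircle_apply]
  congr 1
  push_cast
  ring

end Sigma

end CuspDataAux

open CuspDataAux in
/-- (C1, pure linear algebra + combinatorics) Diagonalization of a permutation action:
each cycle of length `h` carries the eigenvalues `e^{2πi a/h}`, `a < h` (discrete Fourier basis),
so `∑ θ = ∑_cycles (h-1)/2 = (|X| - #cycles)/2`. -/
theorem exists_diag_of_perm {X : Type} [Fintype X] [DecidableEq X] (σ : Equiv.Perm X) :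
    ∃ (C Cinv : Matrix X X ℂ) (θ : X → ℝ), C * Cinv = 1 ∧ Cinv * C = 1 ∧
      (∀ x, 0 ≤ θ x) ∧ (∀ x, θ x < 1) ∧
      2 * ∑ x, θ x = (Fintype.card X : ℝ) -
        (Nat.card (MulAction.orbitRel.Quotient (Subgroup.zpowers σ) X) : ℝ) ∧
      ∀ (v : X → ℂ) (x : X),
        (C *ᵥ (v ∘ σ)) x = Complex.exp (2 * π * Complex.I * θ x) * (C *ᵥ v) x := by
  classical
  let Ω := MulAction.orbitRel.Quotient (Subgroup.zpowers σ) X
  let n : Ω → ℕ := fun q => Function.minimalPeriod (σ • ·) q.out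
  have : Fintype Ω := Fintype.ofFinite _
  have hne : ∀ q : Ω, NeZero (n q) := fun q => by
    show NeZero (Function.minimalPeriod (σ • ·) q.out)
    infer_instance
  let E : X ≃ Σ q : Ω, ZMod (n q) :=
    (MulAction.selfEquivSigmaOrbits (Subgroup.zpowers σ) X).trans
      (Equiv.sigmaCongrRight fun q => MulAction.orbitZPowersEquiv σ q.out)
  have hEsymm : ∀ (q : Ω) (k : ZMod (n q)), E.symm ⟨q, k⟩ = σ ^ (ZMod.cast k : ℤ) • q.out :=
    fun q k => rfl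
  have hEapply : ∀ (q : Ω) (k : ℤ), E (σ ^ k • q.out) = ⟨q, k⟩ := by
    intro q k
    rw [← Equiv.eq_symm_apply, hEsymm, ZMod.coe_intCast, MulAction.zpow_smul_mod_minimalPeriod]
  have hshift : ∀ s : (Σ q : Ω, ZMod (n q)), σ (E.symm s) = E.symm ⟨s.1, s.2 + 1⟩ := by
    rintro ⟨q, k⟩
    rw [Equiv.eq_symm_apply, hEsymm]
    have h1 : σ (σ ^ (ZMod.cast k : ℤ) • q.out) = σ ^ (1 + (ZMod.cast k : ℤ)) • q.out := by
      rw [_root_.zpow_one_add, mul_smul]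
      rfl
    rw [h1, hEapply]
    simp [add_comm]
  let L : (X → ℂ) ≃ₗ[ℂ] (X → ℂ) :=
    (LinearEquiv.funCongrLeft ℂ ℂ E.symm).trans
      ((dftSigma n).trans (LinearEquiv.funCongrLeft ℂ ℂ E))
  have hL : ∀ (v : X → ℂ) (x : X), L v x = dftSigma n (v ∘ E.symm) (E x) := fun v x => rfl
  have hmul : ∀ v : X → ℂ, LinearMap.toMatrix' (L : (X → ℂ) →ₗ[ℂ] (X → ℂ)) *ᵥ v = L v := by
    intro v
    rw [← Matrix.toLin'_apply, Matrix.toLin'_toMatrix']
    rfl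
  refine ⟨LinearMap.toMatrix' (L : (X → ℂ) →ₗ[ℂ] (X → ℂ)),
    LinearMap.toMatrix' (L.symm : (X → ℂ) →ₗ[ℂ] (X → ℂ)),
    fun x => ((E x).2.val : ℝ) / n (E x).1, ?_, ?_, ?_, ?_, ?_, ?_⟩
  · rw [← LinearMap.toMatrix'_comp]
    simp
  · rw [← LinearMap.toMatrix'_comp]
    simp
  · intro x
    positivity
  · intro x
    have hn : (0 : ℝ) < n (E x).1 := Nat.cast_pos.mpr (NeZero.pos _)
    rw [div_lt_one hn]
    exact_mod_cast ZMod.val_lt _
  · rw [Equiv.sum_comp E (fun s => ((s.2.val : ℝ) / n s.1)), two_mul_sum_theta]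
    congr 1
    · have h2 := Fintype.card_congr E
      rw [Fintype.card_sigma] at h2
      simp only [ZMod.card] at h2
      rw [h2]
      push_cast
      rfl
    · rw [Nat.card_eq_fintype_card]
  · intro v x
    rw [hmul, hmul, hL, hL]
    have h3 : (v ∘ σ) ∘ E.symm = fun s => (v ∘ E.symm) ⟨s.1, s.2 + 1⟩ := by
      funext s
      simp only [Function.comp_apply]
      rw [hshift]
    rw [h3]
    have h4 := dftSigma_shift n (v ∘ E.symm) (E x).1 (E x).2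
    rw [stdAddChar_eq] at h4
    exact h4

/-- diagonalization data for the action of `T` on `ℂ^Ω` -/
structure CuspData (Γ : Subgroup SL(2, ℤ)) [Γ.FiniteIndex] where
  C : Matrix (SL(2, ℤ) ⧸ Γ) (SL(2, ℤ) ⧸ Γ) ℂ
  Cinv : Matrix (SL(2, ℤ) ⧸ Γ) (SL(2, ℤ) ⧸ Γ) ℂ
  mul_inv : C * Cinv = 1
  inv_mul : Cinv * C = 1
  θ : SL(2, ℤ) ⧸ Γ → ℝ
  θ_nonneg : ∀ q, 0 ≤ θ q
  θ_lt_one : ∀ q, θ q < 1
  two_mul_sum_θ : 2 * ∑ q, θ q = (Nat.card (SL(2, ℤ) ⧸ Γ) : ℝ) -
    (Nat.card (MulAction.orbitRel.Quotient (Subgroup.zpowers ModularGroup.T) (SL(2, ℤ) ⧸ Γ)) : ℝ)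
  eigen : ∀ (v : SL(2, ℤ) ⧸ Γ → ℂ) (q : SL(2, ℤ) ⧸ Γ),
    (C *ᵥ (fun q' => v (ModularGroup.T⁻¹ • q'))) q
      = Complex.exp (2 * π * Complex.I * θ q) * (C *ᵥ v) q

namespace CuspDataAux

/-- The orbits of the permutation `q ↦ g⁻¹ • q` are the orbits of `g`. -/
theorem card_orbits_toPerm_inv {G X : Type} [Group G] [MulAction G X] (g : G) :
    Nat.card (MulAction.orbitRel.Quotient (Subgroup.zpowers (MulAction.toPerm g⁻¹ : Equiv.Perm X)) X)
      = Nat.card (MulAction.orbitRel.Quotient (Subgroup.zpowers g) X) := by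
  have key : ∀ (k : ℤ) (b : X), ((MulAction.toPerm g⁻¹ : Equiv.Perm X) ^ k) b = g ^ (-k) • b := by
    intro k b
    have h1 : (MulAction.toPerm g⁻¹ : Equiv.Perm X) ^ k = MulAction.toPerm ((g⁻¹) ^ k) :=
      (map_zpow (MulAction.toPermHom G X) g⁻¹ k).symm
    rw [h1, MulAction.toPerm_apply, _root_.inv_zpow, _root_.zpow_neg]
  refine Nat.card_congr (Quotient.congr (Equiv.refl X) (fun a b => ?_))
  simp only [Equiv.refl_apply]
  rw [MulAction.orbitRel_apply, MulAction.orbitRel_apply]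
  constructor
  · rintro ⟨⟨s, hs⟩, rfl⟩
    obtain ⟨k, rfl⟩ := Subgroup.mem_zpowers_iff.mp hs
    refine ⟨⟨g ^ (-k), zpow_mem (Subgroup.mem_zpowers g) _⟩, ?_⟩
    exact (key k b).symm
  · rintro ⟨⟨s, hs⟩, rfl⟩
    obtain ⟨k, rfl⟩ := Subgroup.mem_zpowers_iff.mp hs
    refine ⟨⟨(MulAction.toPerm g⁻¹ : Equiv.Perm X) ^ (-k),
      zpow_mem (Subgroup.mem_zpowers _) _⟩, ?_⟩
    have := key (-k) b
    rw [neg_neg] at this
    exact this

end CuspDataAux

theorem nonempty_cuspData (Γ : Subgroup SL(2, ℤ)) [Γ.FiniteIndex] : Nonempty (CuspData Γ) := by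
  obtain ⟨C, Cinv, θ, h1, h2, h3, h4, h5, h6⟩ := exists_diag_of_perm
    (MulAction.toPerm (ModularGroup.T⁻¹ : SL(2, ℤ)) : Equiv.Perm (SL(2, ℤ) ⧸ Γ))
  refine ⟨⟨C, Cinv, h1, h2, θ, h3, h4, ?_, ?_⟩⟩
  · rw [h5, CuspDataAux.card_orbits_toPerm_inv]
    congr 2
    exact Nat.card_eq_fintype_card.symm
  · intro v q
    exact h6 v q

/-- a fixed choice of cusp data -/
noncomputable def cuspData (Γ : Subgroup SL(2, ℤ)) [Γ.FiniteIndex] : CuspData Γ :=
  (nonempty_cuspData Γ).some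

end Fermat.Agent.S20
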