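import Mathlib

/-!
# S20/S21 shared library: function-level modular forms

`IsMF Γ k f` / `IsCF Γ k f` : `f : ℍ → ℂ` is (the underlying function of) a modular / cusp form
of weight `k` for a subgroup `Γ ≤ SL(2,ℤ)`.  Everything downstream is phrased with these predicates,
so that products of forms of different weights need no casts.
-/

open UpperHalfPlane ModularForm
open scoped MatrixGroups ModularForm Manifold Topology

namespace Fermat.Agent.S20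

/-- `f` is a modular form of weight `k` for `Γ ≤ SL(2,ℤ)` (holomorphic, slash-invariant, bounded at
every cusp, i.e. every `SL(2,ℤ)`-translate is bounded at `i∞`). -/
structure IsMF (Γ : Subgroup SL(2, ℤ)) (k : ℤ) (f : ℍ → ℂ) : Prop where
  holo : MDiff f
  inv : ∀ γ ∈ Γ, f ∣[k] γ = f
  bdd : ∀ g : SL(2, ℤ), IsBoundedAtImInfty (f ∣[k] g)

/-- `f` is a cusp form of weight `k` for `Γ ≤ SL(2,ℤ)`. -/
structure IsCF (Γ : Subgroup SL(2, ℤ)) (k : ℤ) (f : ℍ → ℂ) : Prop where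
  holo : MDiff f
  inv : ∀ γ ∈ Γ, f ∣[k] γ = f
  zero : ∀ g : SL(2, ℤ), IsZeroAtImInfty (f ∣[k] g)

variable {Γ : Subgroup SL(2, ℤ)} {k l : ℤ} {f g : ℍ → ℂ}

theorem IsCF.isMF (h : IsCF Γ k f) : IsMF Γ k f :=
  ⟨h.holo, h.inv, fun g => (h.zero g).isBoundedAtImInfty⟩

theorem IsMF.mono {Γ' : Subgroup SL(2, ℤ)} (hle : Γ' ≤ Γ) (h : IsMF Γ k f) : IsMF Γ' k f :=
  ⟨h.holo, fun γ hγ => h.inv γ (hle hγ), h.bdd⟩

theorem IsCF.mono {Γ' : Subgroup SL(2, ℤ)} (hle : Γ' ≤ Γ) (h : IsCF Γ k f) : IsCF Γ' k f :=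
  ⟨h.holo, fun γ hγ => h.inv γ (hle hγ), h.zero⟩

/-- Level-one forms are forms for every `Γ`. -/
theorem IsMF.of_top (h : IsMF ⊤ k f) : IsMF Γ k f := h.mono le_top

theorem IsMF.slash_eq_of_top (h : IsMF ⊤ k f) (g : SL(2, ℤ)) : f ∣[k] g = f :=
  h.inv g (Subgroup.mem_top g)

theorem IsMF.zero_fun : IsMF Γ k (0 : ℍ → ℂ) :=
  ⟨mdifferentiable_const (c := (0 : ℂ)), fun _ _ => SlashAction.zero_slash _ _, fun g => by
    rw [SlashAction.zero_slash]; exact zero_form_isBoundedAtImInfty⟩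

theorem IsCF.zero_fun : IsCF Γ k (0 : ℍ → ℂ) :=
  ⟨mdifferentiable_const (c := (0 : ℂ)), fun _ _ => SlashAction.zero_slash _ _, fun g => by
    rw [SlashAction.zero_slash]; exact Filter.zero_zeroAtFilter _⟩

theorem IsMF.add (hf : IsMF Γ k f) (hg : IsMF Γ k g) : IsMF Γ k (f + g) :=
  ⟨hf.holo.add hg.holo, fun γ hγ => by rw [SlashAction.add_slash, hf.inv γ hγ, hg.inv γ hγ],
    fun γ => by rw [SlashAction.add_slash]; exact (hf.bdd γ).add (hg.bdd γ)⟩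

theorem IsCF.add (hf : IsCF Γ k f) (hg : IsCF Γ k g) : IsCF Γ k (f + g) :=
  ⟨hf.holo.add hg.holo, fun γ hγ => by rw [SlashAction.add_slash, hf.inv γ hγ, hg.inv γ hγ],
    fun γ => by rw [SlashAction.add_slash]; exact (hf.zero γ).add (hg.zero γ)⟩

theorem IsMF.smul (c : ℂ) (hf : IsMF Γ k f) : IsMF Γ k (c • f) :=
  ⟨hf.holo.const_smul c, fun γ hγ => by rw [SL_smul_slash, hf.inv γ hγ],
    fun γ => by rw [SL_smul_slash]; exact Filter.BoundedAtFilter.smul c (hf.bdd γ)⟩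

theorem IsCF.smul (c : ℂ) (hf : IsCF Γ k f) : IsCF Γ k (c • f) :=
  ⟨hf.holo.const_smul c, fun γ hγ => by rw [SL_smul_slash, hf.inv γ hγ],
    fun γ => by rw [SL_smul_slash]; exact Filter.ZeroAtFilter.smul c (hf.zero γ)⟩

theorem IsMF.neg (hf : IsMF Γ k f) : IsMF Γ k (-f) := by
  simpa using hf.smul (-1)

theorem IsMF.sub (hf : IsMF Γ k f) (hg : IsMF Γ k g) : IsMF Γ k (f - g) := by
  simpa [sub_eq_add_neg] using hf.add hg.neg

theorem IsCF.neg (hf : IsCF Γ k f) : IsCF Γ k (-f) := by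
  simpa using hf.smul (-1)

theorem IsCF.sub (hf : IsCF Γ k f) (hg : IsCF Γ k g) : IsCF Γ k (f - g) := by
  simpa [sub_eq_add_neg] using hf.add hg.neg

theorem IsMF.mul (hf : IsMF Γ k f) (hg : IsMF Γ l g) : IsMF Γ (k + l) (f * g) :=
  ⟨hf.holo.mul hg.holo, fun γ hγ => by rw [mul_slash_SL2, hf.inv γ hγ, hg.inv γ hγ],
    fun γ => by rw [mul_slash_SL2]; exact (hf.bdd γ).mul (hg.bdd γ)⟩

theorem IsCF.mul_isMF (hf : IsCF Γ k f) (hg : IsMF Γ l g) : IsCF Γ (k + l) (f * g) :=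
  ⟨hf.holo.mul hg.holo, fun γ hγ => by rw [mul_slash_SL2, hf.inv γ hγ, hg.inv γ hγ],
    fun γ => by
      rw [mul_slash_SL2]
      exact Filter.ZeroAtFilter.mul_boundedAtFilter (hf.zero γ) (hg.bdd γ)⟩

theorem IsMF.congr_weight (h : k = l) (hf : IsMF Γ k f) : IsMF Γ l f := h ▸ hf

theorem IsCF.congr_weight (h : k = l) (hf : IsCF Γ k f) : IsCF Γ l f := h ▸ hf

/-- constants are weight-0 forms -/
theorem IsMF.const (c : ℂ) : IsMF Γ 0 (fun _ : ℍ => c) :=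
  ⟨mdifferentiable_const, fun γ _ => is_invariant_const γ c, fun γ => by
    rw [show (fun _ : ℍ => c) = Function.const ℍ c from rfl, is_invariant_const γ c]
    exact Filter.const_boundedAtFilter _ c⟩


/-! ### Bridges to Mathlib's bundled forms -/

section Bridge

open Matrix.SpecialLinearGroup

/-- bundle an `IsMF` (finite index `Γ`) as a Mathlib modular form -/
noncomputable def IsMF.toModularForm [Γ.FiniteIndex] (h : IsMF Γ k f) :
    ModularForm (Γ : Subgroup (GL (Fin 2) ℝ)) k where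
  toFun := f
  slash_action_eq' := by
    rintro _ ⟨γ, hγ, rfl⟩
    exact h.inv γ hγ
  holo' := h.holo
  bdd_at_cusps' {c} hc := by
    rw [Subgroup.IsArithmetic.isCusp_iff_isCusp_SL2Z] at hc
    rw [OnePoint.isBoundedAt_iff_forall_SL2Z hc]
    exact fun γ _ => h.bdd γ

@[simp] theorem IsMF.coe_toModularForm [Γ.FiniteIndex] (h : IsMF Γ k f) :
    ⇑h.toModularForm = f := rfl

/-- bundle an `IsCF` (finite index `Γ`) as a Mathlib cusp form -/
noncomputable def IsCF.toCuspForm [Γ.FiniteIndex] (h : IsCF Γ k f) :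
    CuspForm (Γ : Subgroup (GL (Fin 2) ℝ)) k where
  toFun := f
  slash_action_eq' := by
    rintro _ ⟨γ, hγ, rfl⟩
    exact h.inv γ hγ
  holo' := h.holo
  zero_at_cusps' {c} hc := by
    rw [Subgroup.IsArithmetic.isCusp_iff_isCusp_SL2Z] at hc
    rw [OnePoint.isZeroAt_iff_forall_SL2Z hc]
    exact fun γ _ => h.zero γ

@[simp] theorem IsCF.coe_toCuspForm [Γ.FiniteIndex] (h : IsCF Γ k f) :
    ⇑h.toCuspForm = f := rfl

theorem isMF_of_modularForm [Γ.FiniteIndex] (F : ModularForm (Γ : Subgroup (GL (Fin 2) ℝ)) k) :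
    IsMF Γ k ⇑F :=
  ⟨F.holo', fun γ hγ => F.slash_action_eq' _ ⟨γ, hγ, rfl⟩,
    fun γ => ModularFormClass.bdd_at_infty_slash F γ⟩

theorem isCF_of_cuspForm [Γ.FiniteIndex] (F : CuspForm (Γ : Subgroup (GL (Fin 2) ℝ)) k) :
    IsCF Γ k ⇑F :=
  ⟨F.holo', fun γ hγ => F.slash_action_eq' _ ⟨γ, hγ, rfl⟩,
    fun γ => CuspFormClass.zero_at_infty_slash F γ⟩

theorem isMF_iff_exists [Γ.FiniteIndex] :
    IsMF Γ k f ↔ ∃ F : ModularForm (Γ : Subgroup (GL (Fin 2) ℝ)) k, ⇑F = f :=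
  ⟨fun h => ⟨h.toModularForm, rfl⟩, fun ⟨F, hF⟩ => hF ▸ isMF_of_modularForm F⟩

theorem isCF_iff_exists [Γ.FiniteIndex] :
    IsCF Γ k f ↔ ∃ F : CuspForm (Γ : Subgroup (GL (Fin 2) ℝ)) k, ⇑F = f :=
  ⟨fun h => ⟨h.toCuspForm, rfl⟩, fun ⟨F, hF⟩ => hF ▸ isCF_of_cuspForm F⟩

/-- level one: bundle as a Mathlib form for `𝒮ℒ` -/
noncomputable def IsMF.toLevelOne (h : IsMF ⊤ k f) : ModularForm 𝒮ℒ k where
  toFun := f
  slash_action_eq' := by
    rintro _ ⟨γ, rfl⟩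
    exact h.inv γ (Subgroup.mem_top γ)
  holo' := h.holo
  bdd_at_cusps' {c} hc := by
    rw [OnePoint.isBoundedAt_iff_forall_SL2Z hc]
    exact fun γ _ => h.bdd γ

@[simp] theorem IsMF.coe_toLevelOne (h : IsMF ⊤ k f) : ⇑h.toLevelOne = f := rfl

noncomputable def IsCF.toLevelOne (h : IsCF ⊤ k f) : CuspForm 𝒮ℒ k where
  toFun := f
  slash_action_eq' := by
    rintro _ ⟨γ, rfl⟩
    exact h.inv γ (Subgroup.mem_top γ)
  holo' := h.holo
  zero_at_cusps' {c} hc := by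
    rw [OnePoint.isZeroAt_iff_forall_SL2Z hc]
    exact fun γ _ => h.zero γ

@[simp] theorem IsCF.coe_toLevelOne (h : IsCF ⊤ k f) : ⇑h.toLevelOne = f := rfl

theorem isMF_top_of_modularForm (F : ModularForm 𝒮ℒ k) : IsMF ⊤ k ⇑F :=
  ⟨F.holo', fun γ _ => F.slash_action_eq' _ ⟨γ, rfl⟩,
    fun γ => ModularFormClass.bdd_at_infty_slash F γ⟩

theorem isCF_top_of_cuspForm (F : CuspForm 𝒮ℒ k) : IsCF ⊤ k ⇑F :=
  ⟨F.holo', fun γ _ => F.slash_action_eq' _ ⟨γ, rfl⟩,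
    fun γ => CuspFormClass.zero_at_infty_slash F γ⟩

theorem isMF_top_iff_exists : IsMF ⊤ k f ↔ ∃ F : ModularForm 𝒮ℒ k, ⇑F = f :=
  ⟨fun h => ⟨h.toLevelOne, rfl⟩, fun ⟨F, hF⟩ => hF ▸ isMF_top_of_modularForm F⟩

theorem isCF_top_iff_exists : IsCF ⊤ k f ↔ ∃ F : CuspForm 𝒮ℒ k, ⇑F = f :=
  ⟨fun h => ⟨h.toLevelOne, rfl⟩, fun ⟨F, hF⟩ => hF ▸ isCF_top_of_cuspForm F⟩

end Bridge


/-! ### Submodules of functions -/

/-- the space of modular forms of weight `k` for `Γ`, as a submodule of functions -/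
def MFsub (Γ : Subgroup SL(2, ℤ)) (k : ℤ) : Submodule ℂ (ℍ → ℂ) where
  carrier := {f | IsMF Γ k f}
  add_mem' := fun hf hg => hf.add hg
  zero_mem' := IsMF.zero_fun
  smul_mem' := fun c _ hf => hf.smul c

/-- the space of cusp forms of weight `k` for `Γ`, as a submodule of functions -/
def CFsub (Γ : Subgroup SL(2, ℤ)) (k : ℤ) : Submodule ℂ (ℍ → ℂ) where
  carrier := {f | IsCF Γ k f}
  add_mem' := fun hf hg => hf.add hg
  zero_mem' := IsCF.zero_fun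
  smul_mem' := fun c _ hf => hf.smul c

@[simp] theorem mem_MFsub : f ∈ MFsub Γ k ↔ IsMF Γ k f := Iff.rfl

@[simp] theorem mem_CFsub : f ∈ CFsub Γ k ↔ IsCF Γ k f := Iff.rfl

/-- Mathlib's bundled cusp forms are linearly equivalent to `CFsub`. -/
noncomputable def cuspFormEquiv (Γ : Subgroup SL(2, ℤ)) [Γ.FiniteIndex] (k : ℤ) :
    CuspForm (Γ : Subgroup (GL (Fin 2) ℝ)) k ≃ₗ[ℂ] CFsub Γ k where
  toFun F := ⟨⇑F, isCF_of_cuspForm F⟩
  map_add' _ _ := rfl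
  map_smul' _ _ := rfl
  invFun f := (f.2 : IsCF Γ k f.1).toCuspForm
  left_inv F := by ext; rfl
  right_inv f := by ext; rfl

/-- Mathlib's bundled modular forms are linearly equivalent to `MFsub`. -/
noncomputable def modularFormEquiv (Γ : Subgroup SL(2, ℤ)) [Γ.FiniteIndex] (k : ℤ) :
    ModularForm (Γ : Subgroup (GL (Fin 2) ℝ)) k ≃ₗ[ℂ] MFsub Γ k where
  toFun F := ⟨⇑F, isMF_of_modularForm F⟩
  map_add' _ _ := rfl
  map_smul' _ _ := rfl
  invFun f := (f.2 : IsMF Γ k f.1).toModularForm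
  left_inv F := by ext; rfl
  right_inv f := by ext; rfl

theorem finrank_cuspForm_eq (Γ : Subgroup SL(2, ℤ)) [Γ.FiniteIndex] (k : ℤ) :
    Module.finrank ℂ (CuspForm (Γ : Subgroup (GL (Fin 2) ℝ)) k) = Module.finrank ℂ (CFsub Γ k) :=
  (cuspFormEquiv Γ k).finrank_eq

/-! ### Basic vanishing facts (from Mathlib) -/

/-- negative weight forms vanish -/
theorem IsMF.eq_zero_of_neg [Γ.FiniteIndex] (h : IsMF Γ k f) (hk : k < 0) : f = 0 := by
  have := ModularForm.isZero_of_neg_weight hk h.toModularForm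
  simpa using congrArg (fun F : ModularForm (Γ : Subgroup (GL (Fin 2) ℝ)) k => (⇑F : ℍ → ℂ)) this

/-- weight zero forms are constant -/
theorem IsMF.eq_const_of_weight_zero [Γ.FiniteIndex] (h : IsMF Γ 0 f) :
    ∃ c : ℂ, f = fun _ => c := by
  obtain ⟨c, hc⟩ := ModularForm.eq_const_of_weight_zero h.toModularForm
  exact ⟨c, hc⟩


/-! ### Coset translates

`Ω = SL(2,ℤ) ⧸ Γ` (left cosets `gΓ`, with Mathlib's left action of `SL(2,ℤ)`).
For a `Γ`-invariant `f`, `tr Γ k f (gΓ) = f ∣[k] g⁻¹`, and `(tr Γ k f q) ∣[k] g = tr Γ k f (g⁻¹ • q)`.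
-/

/-- fixed `Fintype` instance on the coset space (all files of this library must use this one) -/
noncomputable instance omFintype (Γ : Subgroup SL(2, ℤ)) [Γ.FiniteIndex] :
    Fintype (SL(2, ℤ) ⧸ Γ) := Fintype.ofFinite _

/-- fixed `DecidableEq` instance on the coset space -/
noncomputable instance omDecEq (Γ : Subgroup SL(2, ℤ)) : DecidableEq (SL(2, ℤ) ⧸ Γ) :=
  Classical.decEq _

/-- the translate of `f` attached to the coset `q = gΓ`: `f ∣[k] g⁻¹` -/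
noncomputable def tr (Γ : Subgroup SL(2, ℤ)) (k : ℤ) (f : ℍ → ℂ) (q : SL(2, ℤ) ⧸ Γ) : ℍ → ℂ :=
  f ∣[k] (Quotient.out q)⁻¹

theorem tr_mk (hf : ∀ γ ∈ Γ, f ∣[k] γ = f) (g : SL(2, ℤ)) :
    tr Γ k f (g : SL(2, ℤ) ⧸ Γ) = f ∣[k] g⁻¹ := by
  obtain ⟨h, hh⟩ := QuotientGroup.mk_out_eq_mul Γ g
  unfold tr
  rw [hh, mul_inv_rev, SlashAction.slash_mul, hf _ (Γ.inv_mem h.2)]

theorem tr_one_coset (hf : ∀ γ ∈ Γ, f ∣[k] γ = f) :
    tr Γ k f ((1 : SL(2, ℤ)) : SL(2, ℤ) ⧸ Γ) = f := by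
  rw [tr_mk hf, inv_one, SlashAction.slash_one]

theorem tr_slash (hf : ∀ γ ∈ Γ, f ∣[k] γ = f) (q : SL(2, ℤ) ⧸ Γ) (g : SL(2, ℤ)) :
    tr Γ k f q ∣[k] g = tr Γ k f (g⁻¹ • q) := by
  induction q using QuotientGroup.induction_on with
  | H h =>
    rw [MulAction.Quotient.smul_mk, tr_mk hf, tr_mk hf, ← SlashAction.slash_mul, smul_eq_mul,
      mul_inv_rev, inv_inv]

/-- value of a translate at `g • z` -/
theorem tr_smul_apply (hf : ∀ γ ∈ Γ, f ∣[k] γ = f) (q : SL(2, ℤ) ⧸ Γ) (g : SL(2, ℤ)) (z : ℍ) :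
    tr Γ k f q (g • z) = denom g z ^ k * tr Γ k f (g⁻¹ • q) z := by
  have h := congrFun (tr_slash hf q g) z
  rw [SL_slash_apply] at h
  rw [← h, mul_comm, mul_assoc, ← zpow_add₀ (denom_ne_zero g z)]
  simp

theorem tr_add (f g : ℍ → ℂ) (q : SL(2, ℤ) ⧸ Γ) :
    tr Γ k (f + g) q = tr Γ k f q + tr Γ k g q := by
  unfold tr; rw [SlashAction.add_slash]

theorem tr_smul (c : ℂ) (f : ℍ → ℂ) (q : SL(2, ℤ) ⧸ Γ) :
    tr Γ k (c • f) q = c • tr Γ k f q := by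
  unfold tr; rw [SL_smul_slash]

theorem tr_zero (q : SL(2, ℤ) ⧸ Γ) : tr Γ k (0 : ℍ → ℂ) q = 0 := by
  unfold tr; rw [SlashAction.zero_slash]

theorem tr_neg (f : ℍ → ℂ) (q : SL(2, ℤ) ⧸ Γ) : tr Γ k (-f) q = -tr Γ k f q := by
  unfold tr; rw [SlashAction.neg_slash]

theorem tr_sub (f g : ℍ → ℂ) (q : SL(2, ℤ) ⧸ Γ) :
    tr Γ k (f - g) q = tr Γ k f q - tr Γ k g q := by
  rw [sub_eq_add_neg, tr_add, tr_neg, sub_eq_add_neg]

theorem tr_sum {ι : Type*} (s : Finset ι) (F : ι → ℍ → ℂ) (q : SL(2, ℤ) ⧸ Γ) :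
    tr Γ k (∑ i ∈ s, F i) q = ∑ i ∈ s, tr Γ k (F i) q := by
  unfold tr; rw [SlashAction.sum_slash]

theorem tr_mul (f g : ℍ → ℂ) (q : SL(2, ℤ) ⧸ Γ) :
    tr Γ (k + l) (f * g) q = tr Γ k f q * tr Γ l g q := by
  unfold tr; rw [mul_slash_SL2]

/-- translates of a level-one form are the form itself -/
theorem tr_of_top (h : IsMF ⊤ k f) (q : SL(2, ℤ) ⧸ Γ) : tr Γ k f q = f :=
  h.slash_eq_of_top _

theorem tr_const (c : ℂ) (q : SL(2, ℤ) ⧸ Γ) : tr Γ 0 (fun _ : ℍ => c) q = fun _ => c :=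
  is_invariant_const _ c

theorem IsMF.tr_holo (h : IsMF Γ k f) (q : SL(2, ℤ) ⧸ Γ) : MDiff (tr Γ k f q) :=
  h.holo.slash k _

theorem IsCF.tr_holo (h : IsCF Γ k f) (q : SL(2, ℤ) ⧸ Γ) : MDiff (tr Γ k f q) :=
  h.holo.slash k _

theorem IsMF.tr_slash_bdd (h : IsMF Γ k f) (q : SL(2, ℤ) ⧸ Γ) (g : SL(2, ℤ)) :
    IsBoundedAtImInfty (tr Γ k f q ∣[k] g) := by
  unfold tr; rw [← SlashAction.slash_mul]; exact h.bdd _

theorem IsMF.tr_bdd (h : IsMF Γ k f) (q : SL(2, ℤ) ⧸ Γ) : IsBoundedAtImInfty (tr Γ k f q) :=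
  h.bdd _

theorem IsCF.tr_slash_zero (h : IsCF Γ k f) (q : SL(2, ℤ) ⧸ Γ) (g : SL(2, ℤ)) :
    IsZeroAtImInfty (tr Γ k f q ∣[k] g) := by
  unfold tr; rw [← SlashAction.slash_mul]; exact h.zero _

theorem IsCF.tr_zero (h : IsCF Γ k f) (q : SL(2, ℤ) ⧸ Γ) : IsZeroAtImInfty (tr Γ k f q) :=
  h.zero _

/-- the trace of a modular form to level one -/
theorem IsMF.trace [Γ.FiniteIndex] (h : IsMF Γ k f) : IsMF ⊤ k (∑ q, tr Γ k f q) := by
  refine ⟨MDifferentiable.sum fun q _ => h.tr_holo q, fun γ _ => ?_, fun γ => ?_⟩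
  · rw [SlashAction.sum_slash]
    simp_rw [tr_slash h.inv]
    exact Equiv.sum_comp (MulAction.toPerm γ⁻¹) (tr Γ k f)
  · rw [SlashAction.sum_slash]
    exact (Filter.boundedFilterSubmodule ℂ atImInfty).sum_mem fun q _ => h.tr_slash_bdd q γ

/-- the trace of a cusp form to level one is a cusp form -/
theorem IsCF.trace [Γ.FiniteIndex] (h : IsCF Γ k f) : IsCF ⊤ k (∑ q, tr Γ k f q) := by
  refine ⟨MDifferentiable.sum fun q _ => h.tr_holo q, fun γ _ => ?_, fun γ => ?_⟩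
  · rw [SlashAction.sum_slash]
    simp_rw [tr_slash h.inv]
    exact Equiv.sum_comp (MulAction.toPerm γ⁻¹) (tr Γ k f)
  · rw [SlashAction.sum_slash]
    exact (zeroAtImInftySubmodule ℂ).sum_mem fun q _ => h.tr_slash_zero q γ

end Fermat.Agent.S20
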