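import Fermat.Agent.S20.FrameDefs
import Fermat.Agent.S20.LevelOneAPI
import Fermat.Agent.S20.Division
import Fermat.Agent.S20.Cusp

/-!
# S20 library: frames   (OWNER: helper12)

A frame is a family `(F i, κ i)`, indexed by the coset space `Ω` itself, of modular forms for `Γ`
whose matrix of translates `frameMat z = (tr Γ (κ i) (F i) q z)_{q,i}` has determinant `≢ 0`.
A frame of minimal total weight is a `GoodFrame`: its determinant vanishes nowhere on `ℍ`, and its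
matrix of cusp values is invertible.
-/

open UpperHalfPlane ModularForm Filter Matrix
open scoped MatrixGroups ModularForm Manifold Topology Real

namespace Fermat.Agent.S20

namespace Frame

variable {Γ : Subgroup SL(2, ℤ)} [Γ.FiniteIndex]

/-! ### Generalities -/

/-- determinants of matrices of holomorphic functions are holomorphic -/
theorem mdiff_det (M : SL(2, ℤ) ⧸ Γ → SL(2, ℤ) ⧸ Γ → ℍ → ℂ) (hM : ∀ q i, MDiff (M q i)) :
    MDiff (fun z => (Matrix.of fun q i => M q i z).det) := by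
  have : (fun z => (Matrix.of fun q i => M q i z).det) =
      ∑ σ : Equiv.Perm (SL(2, ℤ) ⧸ Γ), ((Equiv.Perm.sign σ : ℤ) : ℂ) • ∏ i, M (σ i) i := by
    ext z
    simp [Matrix.det_apply, Finset.prod_apply, Units.smul_def]
  rw [this]
  exact MDifferentiable.sum fun σ _ => (MDifferentiable.prod fun i _ => hM _ _).const_smul _

omit [Γ.FiniteIndex] in
theorem tr_pow (f : ℍ → ℂ) (k : ℤ) (n : ℕ) (q : SL(2, ℤ) ⧸ Γ) :
    tr Γ (n * k) (f ^ n) q = (tr Γ k f q) ^ n := by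
  induction n with
  | zero =>
    simp only [Nat.cast_zero, zero_mul, pow_zero]
    exact tr_const 1 q
  | succ n ih =>
    rw [pow_succ, pow_succ, ← ih, ← tr_mul]
    congr 1
    push_cast; ring

/-- if `-1 ∈ Γ`, forms of odd weight vanish -/
theorem eq_zero_of_odd {k : ℤ} {f : ℍ → ℂ} (hneg : -1 ∈ Γ) (h : IsMF Γ k f) (hk : Odd k) :
    f = 0 := by
  have := ModularForm.eq_zero_of_neg_one_mem (Γ := (Γ : Subgroup (GL (Fin 2) ℝ))) (k := k)
    ⟨-1, hneg, by ext i j; fin_cases i <;> fin_cases j <;> simp⟩ hk h.toModularForm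
  simpa using congrArg (fun F : ModularForm (Γ : Subgroup (GL (Fin 2) ℝ)) k => (⇑F : ℍ → ℂ)) this

/-! ### Frames -/

/-- a frame: forms whose matrix of translates has a not identically vanishing determinant -/
def IsFrame (Γ : Subgroup SL(2, ℤ)) [Γ.FiniteIndex] (κ : SL(2, ℤ) ⧸ Γ → ℕ)
    (F : SL(2, ℤ) ⧸ Γ → ℍ → ℂ) : Prop :=
  (∀ i, IsMF Γ (κ i) (F i)) ∧ ∃ z : ℍ, (frameMat Γ κ F z).det ≠ 0

theorem mdiff_frameMat_det {κ : SL(2, ℤ) ⧸ Γ → ℕ} {F : SL(2, ℤ) ⧸ Γ → ℍ → ℂ}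
    (h : ∀ i, IsMF Γ (κ i) (F i)) : MDiff (fun z => (frameMat Γ κ F z).det) :=
  mdiff_det (fun q i => tr Γ (κ i) (F i) q) fun q i => (h i).tr_holo q

omit [Γ.FiniteIndex] in
/-- the translates of a separating form are pairwise distinct -/
theorem tr_injective {k : ℤ} {f : ℍ → ℂ} (hf : IsMF Γ k f)
    (hsep : ∀ g : SL(2, ℤ), f ∣[k] g = f → g ∈ Γ) : Function.Injective (tr Γ k f) := by
  intro q q' h
  induction q using QuotientGroup.induction_on with
  | H g =>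
    induction q' using QuotientGroup.induction_on with
    | H g' =>
      rw [tr_mk hf.inv, tr_mk hf.inv] at h
      have h2 : f ∣[k] (g⁻¹ * g') = f := by
        rw [SlashAction.slash_mul, h, ← SlashAction.slash_mul, inv_mul_cancel,
          SlashAction.slash_one]
      exact QuotientGroup.eq.mpr (hsep _ h2)

/-- at some point, the translates of a separating form take pairwise distinct values -/
theorem exists_injective_at {k : ℤ} {f : ℍ → ℂ} (hf : IsMF Γ k f)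
    (hsep : ∀ g : SL(2, ℤ), f ∣[k] g = f → g ∈ Γ) :
    ∃ z : ℍ, Function.Injective fun q => tr Γ k f q z := by
  classical
  set s : Finset ((SL(2, ℤ) ⧸ Γ) × (SL(2, ℤ) ⧸ Γ)) := Finset.univ.filter fun p => p.1 ≠ p.2
  have hne : ∏ p ∈ s, (tr Γ k f p.1 - tr Γ k f p.2) ≠ 0 := by
    rw [Ne, UpperHalfPlane.prod_eq_zero_iff fun p _ => (hf.tr_holo _).sub (hf.tr_holo _)]
    rintro ⟨p, hp, h0⟩
    exact (Finset.mem_filter.mp hp).2 (tr_injective hf hsep (sub_eq_zero.mp h0))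
  obtain ⟨z, hz⟩ : ∃ z, (∏ p ∈ s, (tr Γ k f p.1 - tr Γ k f p.2)) z ≠ 0 := by
    by_contra h
    push Not at h
    exact hne (funext h)
  refine ⟨z, fun q q' hqq' => ?_⟩
  by_contra hne'
  rw [Finset.prod_apply] at hz
  have := Finset.prod_ne_zero_iff.mp hz (q, q') (Finset.mem_filter.mpr ⟨Finset.mem_univ _, hne'⟩)
  exact this (by simpa [sub_eq_zero] using hqq')

/-- a separating form of natural weight -/
theorem exists_sep_nat (hsep : ∃ (k : ℤ) (f : ℍ → ℂ), IsMF Γ k f ∧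
    ∀ g : SL(2, ℤ), f ∣[k] g = f → g ∈ Γ) :
    ∃ (k : ℕ) (f : ℍ → ℂ), IsMF Γ k f ∧ ∀ g : SL(2, ℤ), f ∣[(k : ℤ)] g = f → g ∈ Γ := by
  obtain ⟨k, f, hf, hs⟩ := hsep
  by_cases hk : 0 ≤ k
  · lift k to ℕ using hk
    exact ⟨k, f, hf, hs⟩
  · have hf0 : f = 0 := hf.eq_zero_of_neg (by omega)
    refine ⟨0, fun _ => 1, IsMF.const 1, fun g _ => hs g ?_⟩
    rw [hf0, SlashAction.zero_slash]

/-- **Existence of frames**: powers of a separating form (Vandermonde). -/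
theorem exists_isFrame (hsep : ∃ (k : ℤ) (f : ℍ → ℂ), IsMF Γ k f ∧
    ∀ g : SL(2, ℤ), f ∣[k] g = f → g ∈ Γ) :
    ∃ (κ : SL(2, ℤ) ⧸ Γ → ℕ) (F : SL(2, ℤ) ⧸ Γ → ℍ → ℂ), IsFrame Γ κ F := by
  obtain ⟨k, f, hf, hs⟩ := exists_sep_nat hsep
  obtain ⟨z, hz⟩ := exists_injective_at hf hs
  let e := Fintype.equivFin (SL(2, ℤ) ⧸ Γ)
  refine ⟨fun i => (e i : ℕ) * k, fun i => f ^ (e i : ℕ), fun i => ?_, z, ?_⟩
  · exact (hf.npow (e i : ℕ)).congr_weight (by push_cast; ring)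
  · have hM : frameMat Γ (fun i => (e i : ℕ) * k) (fun i => f ^ (e i : ℕ)) z =
        (Matrix.vandermonde fun j => tr Γ k f (e.symm j) z).submatrix e e := by
      ext q i
      simp only [frameMat, Matrix.of_apply, Matrix.submatrix_apply, Matrix.vandermonde_apply,
        Equiv.symm_apply_apply]
      rw [show (((e i : ℕ) * k : ℕ) : ℤ) = ((e i : ℕ) : ℤ) * (k : ℤ) by push_cast; ring, tr_pow]
      rfl
    rw [hM, Matrix.det_submatrix_equiv_self, Matrix.det_vandermonde_ne_zero_iff]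
    exact fun a b hab => e.symm.injective (hz hab)

/-! ### Minimal frames and the replacement lemma -/

/-- a frame of minimal total weight -/
def IsMinFrame (Γ : Subgroup SL(2, ℤ)) [Γ.FiniteIndex] (κ : SL(2, ℤ) ⧸ Γ → ℕ)
    (F : SL(2, ℤ) ⧸ Γ → ℍ → ℂ) : Prop :=
  IsFrame Γ κ F ∧ ∀ κ' F', IsFrame Γ κ' F' → ∑ i, κ i ≤ ∑ i, κ' i

theorem exists_isMinFrame (h : ∃ (κ : SL(2, ℤ) ⧸ Γ → ℕ) (F : SL(2, ℤ) ⧸ Γ → ℍ → ℂ),
    IsFrame Γ κ F) :
    ∃ (κ : SL(2, ℤ) ⧸ Γ → ℕ) (F : SL(2, ℤ) ⧸ Γ → ℍ → ℂ), IsMinFrame Γ κ F := by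
  classical
  let S : Set ℕ := {n | ∃ (κ : SL(2, ℤ) ⧸ Γ → ℕ) (F : SL(2, ℤ) ⧸ Γ → ℍ → ℂ),
    IsFrame Γ κ F ∧ ∑ i, κ i = n}
  have hS : S.Nonempty := by
    obtain ⟨κ, F, hF⟩ := h
    exact ⟨_, κ, F, hF, rfl⟩
  obtain ⟨κ, F, hF, hn⟩ := Nat.sInf_mem hS
  exact ⟨κ, F, hF, fun κ' F' hF' => by rw [hn]; exact Nat.sInf_le ⟨κ', F', hF', rfl⟩⟩

theorem frameMat_update (κ : SL(2, ℤ) ⧸ Γ → ℕ) (F : SL(2, ℤ) ⧸ Γ → ℍ → ℂ)
    (i₀ : SL(2, ℤ) ⧸ Γ) (w : ℕ) (G : ℍ → ℂ) (z : ℍ) :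
    frameMat Γ (Function.update κ i₀ w) (Function.update F i₀ G) z =
      (frameMat Γ κ F z).updateCol i₀ fun q => tr Γ w G q z := by
  ext q i
  by_cases hi : i = i₀
  · subst hi
    simp [frameMat]
  · simp [frameMat, hi]

/-- **Replacement lemma.**  If `P · G' = ∑ h_i F_i` (on all translates) for a minimal frame `F`
and the weight of `G'` is smaller than that of `F i₀`, then `h i₀ = 0`. -/
theorem IsMinFrame.replace {κ : SL(2, ℤ) ⧸ Γ → ℕ} {F : SL(2, ℤ) ⧸ Γ → ℍ → ℂ}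
    (hmin : IsMinFrame Γ κ F) {w' : ℤ} {G' : ℍ → ℂ} (hG' : IsMF Γ w' G') {P : ℍ → ℂ}
    {h : SL(2, ℤ) ⧸ Γ → ℍ → ℂ} (i₀ : SL(2, ℤ) ⧸ Γ) (hh : MDiff (h i₀))
    (hrel : ∀ q z, P z * tr Γ w' G' q z = ∑ i, h i z * tr Γ (κ i) (F i) q z)
    (hw : w' < κ i₀) : h i₀ = 0 := by
  have key : ∀ z, P z * ((frameMat Γ κ F z).updateCol i₀ fun q => tr Γ w' G' q z).det
      = h i₀ z * (frameMat Γ κ F z).det := by
    intro z
    rw [← Matrix.det_updateCol_smul]
    have : (P z • fun q => tr Γ w' G' q z) =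
        fun q => ∑ i, h i z • frameMat Γ κ F z q i := by
      ext q
      simp only [Pi.smul_apply, smul_eq_mul, hrel q z, frameMat, Matrix.of_apply]
    rw [this, Matrix.det_updateCol_sum, smul_eq_mul]
  by_contra hne
  have hdet : (fun z => (frameMat Γ κ F z).det) ≠ 0 := by
    obtain ⟨z, hz⟩ := hmin.1.2
    exact fun h0 => hz (congrFun h0 z)
  have hprod : h i₀ * (fun z => (frameMat Γ κ F z).det) ≠ 0 := by
    rw [Ne, UpperHalfPlane.mul_eq_zero_iff hh (mdiff_frameMat_det hmin.1.1)]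
    exact not_or.mpr ⟨hne, hdet⟩
  obtain ⟨z, hz⟩ : ∃ z, h i₀ z * (frameMat Γ κ F z).det ≠ 0 := by
    by_contra hcon
    push Not at hcon
    exact hprod (funext hcon)
  have hdet' : ((frameMat Γ κ F z).updateCol i₀ fun q => tr Γ w' G' q z).det ≠ 0 :=
    fun h0 => hz (by rw [← key, h0, mul_zero])
  by_cases hw0 : w' < 0
  · apply hdet'
    have hG0 : G' = 0 := hG'.eq_zero_of_neg hw0
    refine Matrix.det_eq_zero_of_column_eq_zero i₀ fun q => ?_
    rw [Matrix.updateCol_self, hG0, tr_zero]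
    rfl
  · lift w' to ℕ using (by omega)
    have hfr : IsFrame Γ (Function.update κ i₀ w') (Function.update F i₀ G') := by
      refine ⟨fun i => ?_, z, by rw [frameMat_update]; exact hdet'⟩
      by_cases hi : i = i₀
      · subst hi
        simpa using hG'
      · simpa [hi] using hmin.1.1 i
    have hle := hmin.2 _ _ hfr
    have h1 : ∑ i, Function.update κ i₀ w' i < ∑ i, κ i := by
      apply Finset.sum_lt_sum
      · intro i _
        by_cases hi : i = i₀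
        · subst hi
          simp only [Function.update_self]
          exact_mod_cast hw.le
        · simp [hi]
      · exact ⟨i₀, Finset.mem_univ _, by simp only [Function.update_self]; exact_mod_cast hw⟩
    omega

omit [Γ.FiniteIndex] in
theorem tr_top_mul {l k K : ℤ} {g f : ℍ → ℂ} (hg : IsMF ⊤ l g) (hK : l + k = K)
    (q : SL(2, ℤ) ⧸ Γ) : tr Γ K (g * f) q = g * tr Γ k f q := by
  subst hK
  rw [tr_mul, tr_of_top hg]

omit [Γ.FiniteIndex] in
theorem isMF_sum {K : ℤ} {ι : Type*} (s : Finset ι) {f : ι → ℍ → ℂ}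
    (hf : ∀ i ∈ s, IsMF Γ K (f i)) : IsMF Γ K (∑ i ∈ s, f i) :=
  (MFsub Γ K).sum_mem hf

/-- replacement lemma, for a relation `P · G' = ∑ h_i F_i` between forms -/
theorem IsMinFrame.replace' {κ : SL(2, ℤ) ⧸ Γ → ℕ} {F : SL(2, ℤ) ⧸ Γ → ℍ → ℂ}
    (hmin : IsMinFrame Γ κ F) {K w : ℤ} {P G' : ℍ → ℂ} (hP : IsMF ⊤ w P)
    (hG' : IsMF Γ (K - w) G') {h : SL(2, ℤ) ⧸ Γ → ℍ → ℂ} (hh : ∀ i, IsMF ⊤ (K - κ i) (h i))
    (hrel : P * G' = ∑ i, h i * F i) (i₀ : SL(2, ℤ) ⧸ Γ) (hw : K - w < κ i₀) : h i₀ = 0 := by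
  refine hmin.replace (P := P) hG' i₀ (hh i₀).holo (fun q z => ?_) hw
  have h1 := congrArg (fun f => tr Γ K f q z) hrel
  simp only [tr_sum, Finset.sum_apply] at h1
  rw [tr_top_mul hP (by ring : w + (K - w) = K)] at h1
  rw [Pi.mul_apply] at h1
  rw [h1]
  refine Finset.sum_congr rfl fun i _ => ?_
  rw [tr_top_mul (hh i) (by ring : K - κ i + κ i = K), Pi.mul_apply]

theorem exists_max_support (κ : SL(2, ℤ) ⧸ Γ → ℕ) {a : SL(2, ℤ) ⧸ Γ → ℂ} (ha : a ≠ 0) :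
    ∃ i₀, a i₀ ≠ 0 ∧ ∀ i, a i ≠ 0 → κ i ≤ κ i₀ := by
  classical
  have hne : (Finset.univ.filter fun i => a i ≠ 0).Nonempty := by
    obtain ⟨i, hi⟩ := Function.ne_iff.mp ha
    exact ⟨i, by simpa using hi⟩
  obtain ⟨i₀, hi₀, hmax⟩ := Finset.exists_max_image _ κ hne
  exact ⟨i₀, (Finset.mem_filter.mp hi₀).2, fun i hi => hmax i (by simp [hi])⟩

/-! ### Nonvanishing of the determinant on `ℍ` -/

/-- **Point lemma.**  Uniform treatment of generic points (`n = 2`, `d = 4`, `P = Pgen z₀`), zeros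
of `E₆` (`n = 4`, `d = 0`, `P = E₆`) and zeros of `E₄` (`n = 6`, `d = 0`, `P = E₄`). -/
theorem IsMinFrame.det_ne_of {κ : SL(2, ℤ) ⧸ Γ → ℕ} {F : SL(2, ℤ) ⧸ Γ → ℍ → ℂ}
    (hmin : IsMinFrame Γ κ F) {z₀ : ℍ} {n d : ℕ} {P : ℍ → ℂ} {w : ℤ}
    (hP : GoodDivisor P w z₀) (hn : (n : ℤ) ∣ d) (hdw : (d : ℤ) < w)
    (hvan : ∀ (k : ℤ) (f : ℍ → ℂ), IsMF ⊤ k f → ¬ (n : ℤ) ∣ k → f z₀ = 0)
    (hmult : ∀ t : ℕ, (n : ℤ) ∣ t → ∃ m, IsMF ⊤ ((t : ℤ) + d) m ∧ m z₀ ≠ 0) :
    (frameMat Γ κ F z₀).det ≠ 0 := by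
  classical
  intro hdet
  obtain ⟨a, ha, hMa⟩ := Matrix.exists_mulVec_eq_zero_iff.mpr hdet
  obtain ⟨i₀, hi₀, hmax⟩ := exists_max_support κ ha
  set K : ℤ := κ i₀ + d with hK
  have hmul : ∀ i, ∃ h : ℍ → ℂ, IsMF ⊤ (K - κ i) h ∧
      h z₀ = if (n : ℤ) ∣ (κ i₀ : ℤ) - κ i then a i else 0 := by
    intro i
    by_cases hc : (n : ℤ) ∣ (κ i₀ : ℤ) - κ i
    · by_cases hle : κ i ≤ κ i₀
      · obtain ⟨m, hm, hm0⟩ := hmult (κ i₀ - κ i) (by push_cast [hle]; exact hc)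
        refine ⟨(a i / m z₀) • m, (hm.smul _).congr_weight (by push_cast [hle]; ring), ?_⟩
        simp [hc, hm0]
      · have : a i = 0 := by
          by_contra h
          exact hle (hmax i h)
        exact ⟨0, IsMF.zero_fun, by simp [this]⟩
    · exact ⟨0, IsMF.zero_fun, by simp [hc]⟩
  choose h hhMF hhz using hmul
  set G : ℍ → ℂ := ∑ i, h i * F i with hG
  have hGMF : IsMF Γ K G := isMF_sum _ fun i _ =>
    ((hhMF i).of_top.mul (hmin.1.1 i)).congr_weight (by ring)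
  have htrG : ∀ q, tr Γ K G q = ∑ i, h i * tr Γ (κ i) (F i) q := by
    intro q
    rw [hG, tr_sum]
    exact Finset.sum_congr rfl fun i _ => tr_top_mul (hhMF i) (by ring) q
  have hv : ∀ q, tr Γ K G q z₀ = 0 := by
    have h0 := eq_zero_of_forall_pow_sum_eq_zero (fun q => tr Γ K G q z₀) ?_
    · exact fun q => congrFun h0 q
    intro m hm
    by_cases hdiv : (n : ℤ) ∣ m * K
    · obtain ⟨m', rfl⟩ : ∃ m', m = m' + 1 := ⟨m - 1, by omega⟩
      have hpair : ∀ i, ¬ (n : ℤ) ∣ (κ i₀ : ℤ) - κ i →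
          ∑ q, tr Γ K G q z₀ ^ m' * tr Γ (κ i) (F i) q z₀ = 0 := by
        intro i hc
        have h1 : IsMF Γ (m' * K + κ i) (G ^ m' * F i) := (hGMF.npow m').mul (hmin.1.1 i)
        have hnd : ¬ (n : ℤ) ∣ m' * K + κ i := by
          intro hx
          apply hc
          have h3 : (κ i₀ : ℤ) - κ i = ((m' + 1 : ℕ) : ℤ) * K - (m' * K + κ i) - d := by
            rw [hK]
            push_cast
            ring
          rw [h3]
          exact dvd_sub (dvd_sub hdiv hx) hn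
        have h2 := hvan _ _ h1.trace hnd
        rw [Finset.sum_apply] at h2
        simp_rw [tr_mul, tr_pow] at h2
        simpa using h2
      have hvq : ∀ q, tr Γ K G q z₀ =
          -∑ i, (if (n : ℤ) ∣ (κ i₀ : ℤ) - κ i then 0 else a i) * tr Γ (κ i) (F i) q z₀ := by
        intro q
        have e1 : tr Γ K G q z₀ =
            ∑ i, (if (n : ℤ) ∣ (κ i₀ : ℤ) - κ i then a i else 0) * tr Γ (κ i) (F i) q z₀ := by
          rw [htrG q, Finset.sum_apply]
          exact Finset.sum_congr rfl fun i _ => by rw [Pi.mul_apply, hhz i]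
        have e2 : ∑ i, tr Γ (κ i) (F i) q z₀ * a i = 0 := congrFun hMa q
        rw [e1, eq_neg_iff_add_eq_zero, ← Finset.sum_add_distrib]
        refine Eq.trans (Finset.sum_congr rfl fun i _ => ?_) e2
        split_ifs <;> ring
      calc ∑ q, tr Γ K G q z₀ ^ (m' + 1)
          = ∑ q, -∑ i, (if (n : ℤ) ∣ (κ i₀ : ℤ) - κ i then 0 else a i) *
              (tr Γ K G q z₀ ^ m' * tr Γ (κ i) (F i) q z₀) := by
            refine Finset.sum_congr rfl fun q _ => ?_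
            rw [pow_succ]
            nth_rewrite 2 [hvq q]
            rw [mul_neg, Finset.mul_sum]
            congr 1
            exact Finset.sum_congr rfl fun i _ => by ring
        _ = -∑ i, (if (n : ℤ) ∣ (κ i₀ : ℤ) - κ i then 0 else a i) *
              ∑ q, tr Γ K G q z₀ ^ m' * tr Γ (κ i) (F i) q z₀ := by
            rw [Finset.sum_neg_distrib, Finset.sum_comm]
            congr 1
            exact Finset.sum_congr rfl fun i _ => by rw [Finset.mul_sum]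
        _ = 0 := by
            rw [neg_eq_zero]
            refine Finset.sum_eq_zero fun i _ => ?_
            split_ifs with hc
            · rw [zero_mul]
            · rw [hpair i hc, mul_zero]
    · have h1 : IsMF ⊤ (m * K) (∑ q, tr Γ (m * K) (G ^ m) q) := (hGMF.npow m).trace
      have h2 := hvan _ _ h1 hdiv
      rw [Finset.sum_apply] at h2
      simp_rw [tr_pow] at h2
      simpa using h2
  obtain ⟨G', hG', hGG'⟩ := div_of_goodDivisor hP hGMF hv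
  have h0 := hmin.replace' hP.isMF hG' hhMF hGG'.symm i₀ (by omega)
  have h1 := hhz i₀
  rw [h0] at h1
  simp only [sub_self, dvd_zero, if_true] at h1
  exact hi₀ h1.symm

/-- **A minimal frame has nowhere vanishing determinant.** -/
theorem IsMinFrame.det_ne {κ : SL(2, ℤ) ⧸ Γ → ℕ} {F : SL(2, ℤ) ⧸ Γ → ℍ → ℂ}
    (hmin : IsMinFrame Γ κ F) (z : ℍ) : (frameMat Γ κ F z).det ≠ 0 := by
  by_cases h6 : E6 z = 0
  · refine hmin.det_ne_of (n := 4) (d := 0) (goodDivisor_E6 h6) (by norm_num) (by norm_num)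
      (fun k f hf hk => eq_zero_at_E6_zero hf hk h6) (fun t ht => ?_)
    have ht' : 4 ∣ t := by exact_mod_cast ht
    refine ⟨E4 ^ (t / 4), (LevelOne.isMF_pow isMF_E4 (t / 4)).congr_weight ?_, ?_⟩
    · have := Nat.div_mul_cancel ht'
      push_cast
      omega
    · simpa using pow_ne_zero (t / 4) (LevelOne.E4_ne_zero_of_E6_eq_zero h6)
  · by_cases h4 : E4 z = 0
    · refine hmin.det_ne_of (n := 6) (d := 0) (goodDivisor_E4 h4) (by norm_num) (by norm_num)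
        (fun k f hf hk => eq_zero_at_E4_zero hf hk h4) (fun t ht => ?_)
      have ht' : 6 ∣ t := by exact_mod_cast ht
      refine ⟨E6 ^ (t / 6), (LevelOne.isMF_pow isMF_E6 (t / 6)).congr_weight ?_, ?_⟩
      · have := Nat.div_mul_cancel ht'
        push_cast
        omega
      · simpa using pow_ne_zero (t / 6) h6
    · refine hmin.det_ne_of (n := 2) (d := 4) (goodDivisor_Pgen h4 h6) ⟨2, by norm_num⟩
        (by norm_num) (fun k f hf hk => ?_) (fun t ht => ?_)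
      · rw [eq_zero_of_odd_top hf (by rwa [← Int.not_even_iff_odd, even_iff_two_dvd])]
        rfl
      · have ht' : 2 ∣ t := by exact_mod_cast ht
        obtain ⟨r, hr⟩ := ht'
        obtain ⟨m, hm, -, hm0⟩ := LevelOne.exists_mono (k := (t : ℤ) + (4 : ℕ))
          ⟨(r : ℤ) + 2, by rw [hr]; push_cast; ring⟩ (Or.inr (by push_cast; omega))
        exact ⟨m, hm, hm0 z h4 h6⟩

/-! ### The cusp -/

/-- the weights of a frame are even if `-1 ∈ Γ` -/
theorem IsFrame.even (hneg : -1 ∈ Γ) {κ : SL(2, ℤ) ⧸ Γ → ℕ} {F : SL(2, ℤ) ⧸ Γ → ℍ → ℂ}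
    (hF : IsFrame Γ κ F) (i : SL(2, ℤ) ⧸ Γ) : Even (κ i) := by
  by_contra hodd
  rw [Nat.not_even_iff_odd] at hodd
  have h0 : F i = 0 := eq_zero_of_odd hneg (hF.1 i) (by exact_mod_cast hodd)
  obtain ⟨z, hz⟩ := hF.2
  apply hz
  refine Matrix.det_eq_zero_of_column_eq_zero i fun q => ?_
  simp [frameMat, h0, tr_zero]

theorem cuspVec_zero (K : ℤ) : cuspVec Γ K (0 : ℍ → ℂ) = 0 := by
  have := cuspVec_smul (Γ := Γ) (k := K) (0 : ℂ) (IsMF.zero_fun (Γ := Γ) (k := K))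
  simpa using this

theorem cuspVec_sum {K : ℤ} {ι : Type*} (s : Finset ι) {f : ι → ℍ → ℂ}
    (hf : ∀ i ∈ s, IsMF Γ K (f i)) :
    cuspVec Γ K (∑ i ∈ s, f i) = ∑ i ∈ s, cuspVec Γ K (f i) := by
  classical
  induction s using Finset.induction_on with
  | empty => simp [cuspVec_zero]
  | insert a s ha ih =>
    rw [Finset.sum_insert ha, Finset.sum_insert ha,
      cuspVec_add (hf a (Finset.mem_insert_self a s))
        (isMF_sum s fun i hi => hf i (Finset.mem_insert_of_mem hi)),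
      ih fun i hi => hf i (Finset.mem_insert_of_mem hi)]

/-- **A minimal frame has invertible matrix of cusp values.** -/
theorem IsMinFrame.cusp_det_ne (hneg : -1 ∈ Γ) {κ : SL(2, ℤ) ⧸ Γ → ℕ}
    {F : SL(2, ℤ) ⧸ Γ → ℍ → ℂ} (hmin : IsMinFrame Γ κ F) : (cuspMat Γ κ F).det ≠ 0 := by
  classical
  intro hdet
  obtain ⟨a, ha, hMa⟩ := Matrix.exists_mulVec_eq_zero_iff.mpr hdet
  obtain ⟨i₀, hi₀, hmax⟩ := exists_max_support κ ha
  set K : ℤ := κ i₀ + 4 with hK
  have hmul : ∀ i, ∃ h : ℍ → ℂ, IsMF ⊤ (K - κ i) h ∧ Tendsto h atImInfty (𝓝 (a i)) := by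
    intro i
    by_cases hle : κ i ≤ κ i₀
    · obtain ⟨r, hr⟩ := hmin.1.even hneg i₀
      obtain ⟨s, hs⟩ := hmin.1.even hneg i
      obtain ⟨m, hm, hm1, -⟩ := LevelOne.exists_mono (k := K - κ i)
        ⟨(r : ℤ) + 2 - s, by rw [hK, hr, hs]; push_cast; ring⟩ (Or.inr (by omega))
      refine ⟨a i • m, hm.smul _, ?_⟩
      have h2 := hm1.const_smul (a i)
      rw [smul_eq_mul, mul_one] at h2
      exact h2
    · have : a i = 0 := by
        by_contra h
        exact hle (hmax i h)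
      exact ⟨0, IsMF.zero_fun, by rw [this]; exact tendsto_const_nhds⟩
  choose h hhMF hhlim using hmul
  set G : ℍ → ℂ := ∑ i, h i * F i with hG
  have hterm : ∀ i, IsMF Γ K (h i * F i) := fun i =>
    ((hhMF i).of_top.mul (hmin.1.1 i)).congr_weight (by ring)
  have hGMF : IsMF Γ K G := isMF_sum _ fun i _ => hterm i
  have hcv : cuspVec Γ K G = 0 := by
    rw [hG, cuspVec_sum _ fun i _ => hterm i]
    ext q
    rw [Finset.sum_apply]
    have e2 : ∑ i, cuspVec Γ (κ i) (F i) q * a i = 0 := congrFun hMa q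
    refine Eq.trans (Finset.sum_congr rfl fun i _ => ?_) e2
    have := cuspVec_mul_top (Γ := Γ) (hhMF i) (hhlim i) (hmin.1.1 i)
    rw [sub_add_cancel] at this
    rw [this, Pi.smul_apply, smul_eq_mul, mul_comm]
  obtain ⟨G', hG', hGG'⟩ := dvd_Dl_of_cuspVec_eq_zero hGMF hcv
  have h0 := hmin.replace' isCF_Dl.isMF hG' hhMF hGG'.symm i₀ (by omega)
  have h1 := hhlim i₀
  rw [h0] at h1
  exact hi₀ (tendsto_nhds_unique h1 tendsto_const_nhds)

end Frame

/-- **Existence of good frames** (minimal total weight among frames). -/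
theorem exists_goodFrame (Γ : Subgroup SL(2, ℤ)) [Γ.FiniteIndex] (hneg : -1 ∈ Γ)
    (hsep : ∃ (k : ℤ) (f : ℍ → ℂ), IsMF Γ k f ∧ ∀ g : SL(2, ℤ), f ∣[k] g = f → g ∈ Γ) :
    ∃ (κ : SL(2, ℤ) ⧸ Γ → ℕ) (F : SL(2, ℤ) ⧸ Γ → ℍ → ℂ), GoodFrame Γ κ F := by
  obtain ⟨κ, F, hmin⟩ := Frame.exists_isMinFrame (Frame.exists_isFrame hsep)
  exact ⟨κ, F, hmin.1.1, hmin.det_ne, hmin.cusp_det_ne hneg⟩

end Fermat.Agent.S20
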