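import Fermat.Agent.S20.LevelOneTools

/-!
# S20 library: auxiliary lemmas for frames

* `FrameAux.exists_frame`: the Vandermonde frame built from a separating form.
-/

open UpperHalfPlane ModularForm Filter Matrix
open scoped MatrixGroups ModularForm Manifold Topology Real

namespace Fermat.Agent.S20

namespace FrameAux

/-- identity theorem on the upper half plane -/
theorem eq_zero_of_eventually_eq_zero {d : ℍ → ℂ} (hd : MDiff d) (τ₀ : ℍ)
    (h : ∀ᶠ τ in 𝓝 τ₀, d τ = 0) : d = 0 := by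
  have hD : DifferentiableOn ℂ (d ∘ ofComplex) upperHalfPlaneSet := mdifferentiable_iff.mp hd
  have hAn : AnalyticOnNhd ℂ (d ∘ ofComplex) upperHalfPlaneSet :=
    hD.analyticOnNhd isOpen_upperHalfPlaneSet
  have hcont : ContinuousAt ofComplex (τ₀ : ℂ) :=
    (mdifferentiableAt_ofComplex τ₀.im_pos).continuousAt
  have hev : ∀ᶠ z in 𝓝 (τ₀ : ℂ), (d ∘ ofComplex) z = 0 := by
    have h' : ∀ᶠ τ in 𝓝 (ofComplex (τ₀ : ℂ)), d τ = 0 := by rwa [ofComplex_apply]
    exact hcont.eventually h'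
  have hzero := hAn.eqOn_zero_of_preconnected_of_eventuallyEq_zero
    (Convex.isPreconnected (convex_halfSpace_im_gt 0)) τ₀.im_pos hev
  funext τ
  have := hzero τ.im_pos
  simpa [ofComplex_apply] using this

/-- the product of two nonzero holomorphic functions on `ℍ` is nonzero -/
theorem mul_ne_zero_of_mdiff {f g : ℍ → ℂ} (hf : MDiff f) (hg : MDiff g) (hf0 : f ≠ 0)
    (hg0 : g ≠ 0) : f * g ≠ 0 := by
  intro h
  obtain ⟨τ₀, hτ₀⟩ : ∃ τ₀, f τ₀ ≠ 0 := by
    by_contra hcon
    push Not at hcon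
    exact hf0 (funext hcon)
  have hev : ∀ᶠ τ in 𝓝 τ₀, f τ ≠ 0 := hf.continuous.continuousAt.eventually_ne hτ₀
  refine hg0 (eq_zero_of_eventually_eq_zero hg τ₀ ?_)
  filter_upwards [hev] with τ hτ
  have := congrFun h τ
  simpa [hτ] using this

/-- a finite product of nonzero holomorphic functions on `ℍ` is holomorphic and nonzero -/
theorem prod_ne_zero_of_mdiff {ι : Type*} (s : Finset ι) (F : ι → ℍ → ℂ)
    (hF : ∀ i ∈ s, MDiff (F i)) (hF0 : ∀ i ∈ s, F i ≠ 0) :
    MDiff (∏ i ∈ s, F i) ∧ (∏ i ∈ s, F i) ≠ 0 := by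
  classical
  induction s using Finset.induction_on with
  | empty =>
    refine ⟨?_, ?_⟩
    · simp only [Finset.prod_empty]
      show MDiff (fun _ : ℍ => (1 : ℂ))
      exact mdifferentiable_const
    · simp only [Finset.prod_empty]
      intro h
      have := congrFun h UpperHalfPlane.I
      simp at this
  | insert a s ha ih =>
    have h1 := ih (fun i hi => hF i (Finset.mem_insert_of_mem hi))
      (fun i hi => hF0 i (Finset.mem_insert_of_mem hi))
    rw [Finset.prod_insert ha]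
    exact ⟨(hF a (Finset.mem_insert_self a s)).mul h1.1,
      mul_ne_zero_of_mdiff (hF a (Finset.mem_insert_self a s)) h1.1
        (hF0 a (Finset.mem_insert_self a s)) h1.2⟩

variable {Γ : Subgroup SL(2, ℤ)} {k : ℤ} {f : ℍ → ℂ}

/-- translates of powers -/
theorem tr_pow (f : ℍ → ℂ) (n : ℕ) (q : SL(2, ℤ) ⧸ Γ) :
    tr Γ (n * k) (f ^ n) q = tr Γ k f q ^ n := by
  induction n with
  | zero =>
    simp only [Nat.cast_zero, zero_mul, pow_zero]
    exact tr_const 1 q
  | succ n ih =>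
    have h : ((n + 1 : ℕ) : ℤ) * k = n * k + k := by push_cast; ring
    rw [h, pow_succ, tr_mul, ih, pow_succ]

/-- distinct cosets give distinct translates of a separating form -/
theorem tr_injective (hf : ∀ γ ∈ Γ, f ∣[k] γ = f)
    (hsep : ∀ g : SL(2, ℤ), f ∣[k] g = f → g ∈ Γ) :
    Function.Injective (tr Γ k f) := by
  intro q q' h
  induction q using QuotientGroup.induction_on with
  | H g =>
    induction q' using QuotientGroup.induction_on with
    | H g' =>
      rw [tr_mk hf, tr_mk hf] at h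
      have h2 : f ∣[k] (g⁻¹ * g') = f := by
        rw [SlashAction.slash_mul, h, ← SlashAction.slash_mul, inv_mul_cancel,
          SlashAction.slash_one]
      exact QuotientGroup.eq.mpr (hsep _ h2)

/-- **The Vandermonde frame** attached to a separating form. -/
theorem exists_frame (Γ : Subgroup SL(2, ℤ)) [Γ.FiniteIndex]
    (hsep : ∃ (k : ℤ) (f : ℍ → ℂ), IsMF Γ k f ∧ ∀ g : SL(2, ℤ), f ∣[k] g = f → g ∈ Γ) :
    ∃ (κ : SL(2, ℤ) ⧸ Γ → ℕ) (F : SL(2, ℤ) ⧸ Γ → ℍ → ℂ), (∀ i, IsMF Γ (κ i) (F i)) ∧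
      ∃ z : ℍ, (Matrix.of fun q i => tr Γ (κ i) (F i) q z).det ≠ 0 := by
  obtain ⟨k, f, hf, hs⟩ := hsep
  classical
  let Ω := SL(2, ℤ) ⧸ Γ
  let e : Ω ≃ Fin (Fintype.card Ω) := Fintype.equivFin Ω
  have hw : ∀ i : Ω, ((e i : ℕ) : ℤ) * k = (((e i : ℕ) * k.toNat : ℕ) : ℤ) := by
    intro i
    rcases le_or_gt 0 k with hk | hk
    · push_cast
      rw [Int.toNat_of_nonneg hk]
    · have hf0 : f = 0 := hf.eq_zero_of_neg hk
      have hsub : Subsingleton Ω := by
        refine ⟨fun q q' => ?_⟩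
        induction q using QuotientGroup.induction_on with
        | H g =>
          induction q' using QuotientGroup.induction_on with
          | H g' => exact QuotientGroup.eq.mpr (hs _ (by rw [hf0, SlashAction.zero_slash]))
      have hcard : Fintype.card Ω ≤ 1 := Fintype.card_le_one_iff_subsingleton.mpr hsub
      have h0 : (e i : ℕ) = 0 := by
        have := (e i).isLt
        omega
      simp [h0]
  refine ⟨fun i => (e i : ℕ) * k.toNat, fun i => f ^ (e i : ℕ), fun i => ?_, ?_⟩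
  · exact (hf.npow (e i : ℕ)).congr_weight (hw i)
  · have hinj := tr_injective hf.inv hs
    obtain ⟨z, hz⟩ : ∃ z : ℍ, Function.Injective fun q : Ω => tr Γ k f q z := by
      have hprod := prod_ne_zero_of_mdiff (Finset.univ.offDiag : Finset (Ω × Ω))
        (fun p => tr Γ k f p.1 - tr Γ k f p.2)
        (fun p _ => (hf.tr_holo p.1).sub (hf.tr_holo p.2))
        (fun p hp => sub_ne_zero.mpr (fun h => (Finset.mem_offDiag.mp hp).2.2 (hinj h)))
      obtain ⟨z, hz⟩ : ∃ z, (∏ p ∈ (Finset.univ.offDiag : Finset (Ω × Ω)),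
          (tr Γ k f p.1 - tr Γ k f p.2)) z ≠ 0 := by
        by_contra hcon
        push Not at hcon
        exact hprod.2 (funext hcon)
      refine ⟨z, fun q q' hqq' => ?_⟩
      by_contra hne
      apply hz
      rw [Finset.prod_apply]
      refine Finset.prod_eq_zero (i := (q, q'))
        (Finset.mem_offDiag.mpr ⟨Finset.mem_univ _, Finset.mem_univ _, hne⟩) ?_
      simp only [Pi.sub_apply]
      exact sub_eq_zero.mpr hqq'
    refine ⟨z, ?_⟩
    have hM : (Matrix.of fun q i => tr Γ (((e i : ℕ) * k.toNat : ℕ) : ℤ) (f ^ (e i : ℕ)) q z)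
        = (Matrix.vandermonde (fun j : Fin (Fintype.card Ω) => tr Γ k f (e.symm j) z)).submatrix
            e e := by
      ext q i
      simp only [Matrix.of_apply, Matrix.submatrix_apply, Matrix.vandermonde_apply,
        Equiv.symm_apply_apply]
      rw [← hw i, tr_pow]
      rfl
    rw [hM, Matrix.det_submatrix_equiv_self, Matrix.det_vandermonde_ne_zero_iff]
    exact hz.comp e.symm.injective

/-- the matrix of translates (definitionally equal to `frameMat` of `Frame.lean`) -/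
noncomputable abbrev fmat (Γ : Subgroup SL(2, ℤ)) [Γ.FiniteIndex] (κ : SL(2, ℤ) ⧸ Γ → ℕ)
    (F : SL(2, ℤ) ⧸ Γ → ℍ → ℂ) (z : ℍ) : Matrix (SL(2, ℤ) ⧸ Γ) (SL(2, ℤ) ⧸ Γ) ℂ :=
  Matrix.of fun q i => tr Γ (κ i) (F i) q z

/-- a frame: a family of modular forms, indexed by the cosets, whose matrix of translates is
invertible at some point -/
def IsFrame (Γ : Subgroup SL(2, ℤ)) [Γ.FiniteIndex] (κ : SL(2, ℤ) ⧸ Γ → ℕ)
    (F : SL(2, ℤ) ⧸ Γ → ℍ → ℂ) : Prop :=
  (∀ i, IsMF Γ (κ i) (F i)) ∧ ∃ z : ℍ, (fmat Γ κ F z).det ≠ 0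

theorem exists_isFrame (Γ : Subgroup SL(2, ℤ)) [Γ.FiniteIndex]
    (hsep : ∃ (k : ℤ) (f : ℍ → ℂ), IsMF Γ k f ∧ ∀ g : SL(2, ℤ), f ∣[k] g = f → g ∈ Γ) :
    ∃ (κ : SL(2, ℤ) ⧸ Γ → ℕ) (F : SL(2, ℤ) ⧸ Γ → ℍ → ℂ), IsFrame Γ κ F :=
  exists_frame Γ hsep

end FrameAux

end Fermat.Agent.S20
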