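import Fermat.Agent.S20.CuspDefs

/-!
# S20 library: frames (definitions)

A frame is a family `(F i, κ i)`, indexed by the coset space `Ω` itself, of modular forms for `Γ`
whose matrix of translates `frameMat z = (tr Γ (κ i) (F i) q z)_{q,i}` has determinant `≢ 0`.
A frame of minimal total weight is a `GoodFrame`: its determinant vanishes nowhere on `ℍ`, and its
matrix of cusp values is invertible.
-/

open UpperHalfPlane ModularForm Filter Matrix
open scoped MatrixGroups ModularForm Manifold Topology Real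

namespace Fermat.Agent.S20

/-- matrix of translates: rows = cosets `q`, columns = frame members `i` -/
noncomputable def frameMat (Γ : Subgroup SL(2, ℤ)) [Γ.FiniteIndex] (κ : SL(2, ℤ) ⧸ Γ → ℕ)
    (F : SL(2, ℤ) ⧸ Γ → ℍ → ℂ) (z : ℍ) : Matrix (SL(2, ℤ) ⧸ Γ) (SL(2, ℤ) ⧸ Γ) ℂ :=
  Matrix.of fun q i => tr Γ (κ i) (F i) q z

/-- matrix of cusp values (in the coordinates of `cuspData Γ`) -/
noncomputable def cuspMat (Γ : Subgroup SL(2, ℤ)) [Γ.FiniteIndex] (κ : SL(2, ℤ) ⧸ Γ → ℕ)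
    (F : SL(2, ℤ) ⧸ Γ → ℍ → ℂ) : Matrix (SL(2, ℤ) ⧸ Γ) (SL(2, ℤ) ⧸ Γ) ℂ :=
  Matrix.of fun q i => cuspVec Γ (κ i) (F i) q

/-- a frame whose translate matrix is invertible at every point of `ℍ` and at the cusp -/
structure GoodFrame (Γ : Subgroup SL(2, ℤ)) [Γ.FiniteIndex] (κ : SL(2, ℤ) ⧸ Γ → ℕ)
    (F : SL(2, ℤ) ⧸ Γ → ℍ → ℂ) : Prop where
  isMF : ∀ i, IsMF Γ (κ i) (F i)
  det_ne : ∀ z : ℍ, (frameMat Γ κ F z).det ≠ 0
  cusp_det_ne : (cuspMat Γ κ F).det ≠ 0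

end Fermat.Agent.S20
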