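import Mathlib

/-!
# S20 library: vanishing power sums

A finite family of complex numbers all of whose power sums `∑ i, x i ^ m` (`m ≥ 1`) vanish is zero.
-/

namespace Fermat.Agent.S20.PowSum

/-- a family of complex numbers all of whose power sums vanish is zero -/
theorem eq_zero_of_forall_pow_sum_eq_zero {ι : Type*} [Fintype ι] (x : ι → ℂ)
    (h : ∀ m : ℕ, 1 ≤ m → ∑ i, x i ^ m = 0) : x = 0 := by
  classical
  -- every polynomial divisible by `X` sums to zero over the family
  have key : ∀ p : Polynomial ℂ, ∑ i, (Polynomial.X * p).eval (x i) = 0 := by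
    intro p
    simp only [Polynomial.eval_mul, Polynomial.eval_X]
    simp_rw [Polynomial.eval_eq_sum_range, Finset.mul_sum]
    rw [Finset.sum_comm]
    refine Finset.sum_eq_zero fun m _ => ?_
    have := h (m + 1) (by omega)
    calc ∑ i, x i * (p.coeff m * x i ^ m) = p.coeff m * ∑ i, x i ^ (m + 1) := by
          rw [Finset.mul_sum]
          refine Finset.sum_congr rfl fun i _ => ?_
          ring
      _ = 0 := by rw [this, mul_zero]
  funext j
  by_contra hj
  set S := (Finset.univ.image x).erase (x j) with hS
  set p : Polynomial ℂ := ∏ y ∈ S, (Polynomial.X - Polynomial.C y) with hp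
  have hk := key p
  have hval : ∀ i, (Polynomial.X * p).eval (x i) =
      if x i = x j then x j * ∏ y ∈ S, (x j - y) else 0 := by
    intro i
    simp only [Polynomial.eval_mul, Polynomial.eval_X, hp, Polynomial.eval_prod,
      Polynomial.eval_sub, Polynomial.eval_C]
    split_ifs with hij
    · rw [hij]
    · have : x i ∈ S := Finset.mem_erase.mpr ⟨hij, Finset.mem_image_of_mem x (Finset.mem_univ i)⟩
      rw [Finset.prod_eq_zero this (sub_self _), mul_zero]
  simp_rw [hval] at hk
  rw [Finset.sum_ite, Finset.sum_const_zero, add_zero, Finset.sum_const, nsmul_eq_mul] at hk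
  have hcard : ((Finset.univ.filter fun i => x i = x j).card : ℂ) ≠ 0 := by
    have : j ∈ Finset.univ.filter fun i => x i = x j := by simp
    exact_mod_cast (Finset.card_pos.mpr ⟨j, this⟩).ne'
  have hprod : ∏ y ∈ S, (x j - y) ≠ 0 := by
    rw [Finset.prod_ne_zero_iff]
    intro y hy
    exact sub_ne_zero.mpr (Finset.ne_of_mem_erase hy).symm
  rcases mul_eq_zero.mp hk with h1 | h1
  · exact hcard h1
  · rcases mul_eq_zero.mp h1 with h2 | h2
    · exact hj h2
    · exact hprod h2

end Fermat.Agent.S20.PowSum
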