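import Fermat.Agent.S20.LevelOneAPI
import Fermat.Agent.S20.Division
import Fermat.Agent.S20.FrameAux

/-!
# S20 library: splitting a kernel vector by weight classes at elliptic-type points

Let `z₀` be a point where every level-one form of weight `≢ 0 mod e` vanishes (`e = 4` at the
zeros of `E₆`, `e = 6` at the zeros of `E₄`), and let `∑ i, a i * V_{F i}(z₀) = 0` be a linear
relation between the vectors of translates of forms `F i` of weights `κ i`.  Then the relation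
splits according to the classes of `κ i` modulo `e` (`split_classes`).  Consequently one gets
"replacement data": a combination `∑ c i • (G i * F i)` (level-one coefficients `G i`) which is
divisible by the good divisor `P` at `z₀` (`exists_replace_data`, and the three concrete cases
`exists_replace_data_E6`, `exists_replace_data_E4`; the generic case is in `SplitGen.lean`).
-/

open UpperHalfPlane ModularForm Filter
open scoped MatrixGroups ModularForm Manifold Topology Real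

namespace Fermat.Agent.S20

variable {Γ : Subgroup SL(2, ℤ)}

namespace Split

/-- translate of (level-one form) * (form) -/
theorem tr_top_mul {l k K : ℤ} {h F : ℍ → ℂ} (hh : IsMF ⊤ l h) (hK : K = l + k)
    (q : SL(2, ℤ) ⧸ Γ) : tr Γ K (h * F) q = h * tr Γ k F q := by
  subst hK
  rw [tr_mul, tr_of_top hh]

/-- a finite combination of forms with level-one coefficients is a form -/
theorem isMF_comb {ι : Type*} (s : Finset ι) {K : ℤ} (κ : ι → ℤ) (c : ι → ℂ) (G F : ι → ℍ → ℂ)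
    (hG : ∀ i ∈ s, IsMF ⊤ (K - κ i) (G i)) (hF : ∀ i ∈ s, IsMF Γ (κ i) (F i)) :
    IsMF Γ K (∑ i ∈ s, c i • (G i * F i)) := by
  classical
  induction s using Finset.induction_on with
  | empty => simpa using (IsMF.zero_fun : IsMF Γ K 0)
  | insert b s hb ih =>
    rw [Finset.sum_insert hb]
    refine IsMF.add ?_ (ih (fun i hi => hG i (Finset.mem_insert_of_mem hi))
      (fun i hi => hF i (Finset.mem_insert_of_mem hi)))
    exact ((((hG b (Finset.mem_insert_self b s)).of_top).mul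
      (hF b (Finset.mem_insert_self b s))).congr_weight (by ring)).smul _

/-- translates of a finite combination of forms with level-one coefficients -/
theorem tr_comb {ι : Type*} (s : Finset ι) {K : ℤ} (κ : ι → ℤ) (c : ι → ℂ) (G F : ι → ℍ → ℂ)
    (hG : ∀ i ∈ s, IsMF ⊤ (K - κ i) (G i)) (q : SL(2, ℤ) ⧸ Γ) :
    tr Γ K (∑ i ∈ s, c i • (G i * F i)) q = ∑ i ∈ s, c i • (G i * tr Γ (κ i) (F i) q) := by
  rw [tr_sum]
  refine Finset.sum_congr rfl fun i hi => ?_
  rw [tr_smul, tr_top_mul (k := κ i) (hG i hi) (by ring)]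

end Split

open Split

/-- **Class splitting.** If level-one forms of weight `≢ 0 mod e` vanish at `z₀` and `U` is a
level-one form of weight `e` with `U z₀ = 1`, then a linear relation between vectors of translates
at `z₀` splits according to the weights modulo `e`. -/
theorem split_classes [Γ.FiniteIndex] {ι : Type*} [Fintype ι] (e : ℕ) (he : 0 < e) {z₀ : ℍ}
    (hvan : ∀ (k : ℤ) (f : ℍ → ℂ), IsMF ⊤ k f → ¬ (e : ℤ) ∣ k → f z₀ = 0)
    {U : ℍ → ℂ} (hU : IsMF ⊤ e U) (hU1 : U z₀ = 1)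
    (κ : ι → ℕ) (F : ι → ℍ → ℂ) (hF : ∀ i, IsMF Γ (κ i) (F i)) (a : ι → ℂ)
    (ha : ∀ q : SL(2, ℤ) ⧸ Γ, ∑ i, a i * tr Γ (κ i) (F i) q z₀ = 0) (c : ℕ) :
    ∀ q : SL(2, ℤ) ⧸ Γ, ∑ i with κ i % e = c, a i * tr Γ (κ i) (F i) q z₀ = 0 := by
  classical
  by_cases hc : c < e
  swap
  · intro q
    rw [Finset.filter_false_of_mem, Finset.sum_empty]
    intro i _
    have := Nat.mod_lt (κ i) he
    omega
  set I : Finset ι := Finset.univ.filter (fun i => κ i % e = c) with hI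
  set M : ℕ := ∑ i, κ i / e with hM
  have hmM : ∀ i, κ i / e ≤ M := fun i =>
    Finset.single_le_sum (f := fun i => κ i / e) (fun _ _ => Nat.zero_le _) (Finset.mem_univ i)
  set K : ℤ := ((c + e * M : ℕ) : ℤ) with hK
  have hκ : ∀ i ∈ I, (κ i : ℤ) = c + e * (κ i / e : ℕ) := by
    intro i hi
    have h1 : κ i % e = c := (Finset.mem_filter.mp hi).2
    have h2 := Nat.div_add_mod (κ i) e
    rw [h1] at h2
    have h3 : (κ i : ℤ) = ((e * (κ i / e) + c : ℕ) : ℤ) := by rw [h2]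
    rw [h3]
    push_cast
    ring
  have hGw : ∀ i ∈ I, IsMF ⊤ (K - κ i) (U ^ (M - κ i / e)) := by
    intro i hi
    refine (hU.npow (M - κ i / e)).congr_weight ?_
    rw [hK, hκ i hi, Nat.cast_sub (hmM i)]
    push_cast
    ring
  set G : ℍ → ℂ := ∑ i ∈ I, a i • (U ^ (M - κ i / e) * F i) with hG
  have hGmf : IsMF Γ K G := isMF_comb I (fun i => (κ i : ℤ)) a _ F hGw (fun i _ => hF i)
  have hv : ∀ q, tr Γ K G q z₀ = ∑ i ∈ I, a i * tr Γ (κ i) (F i) q z₀ := by
    intro q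
    rw [hG, tr_comb I (fun i => (κ i : ℤ)) a _ F hGw q]
    simp only [Finset.sum_apply, Pi.smul_apply, Pi.mul_apply, Pi.pow_apply, hU1, one_pow, one_mul,
      smul_eq_mul]
  suffices hzero : (fun q => tr Γ K G q z₀) = 0 by
    intro q
    rw [← hv q]
    exact congrFun hzero q
  apply eq_zero_of_forall_pow_sum_eq_zero
  intro m hm
  obtain ⟨n, rfl⟩ : ∃ n, m = n + 1 := ⟨m - 1, by omega⟩
  set T : ι → ℂ := fun i => ∑ q, tr Γ (κ i) (F i) q z₀ * (tr Γ K G q z₀) ^ n with hT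
  have hTvan : ∀ i, ¬ (e : ℤ) ∣ (κ i : ℤ) + n * K → T i = 0 := by
    intro i hi
    have h1 : IsMF Γ ((κ i : ℤ) + n * K) (F i * G ^ n) := (hF i).mul (hGmf.npow n)
    have h3 : T i = (∑ q, tr Γ ((κ i : ℤ) + n * K) (F i * G ^ n) q) z₀ := by
      rw [Finset.sum_apply]
      refine Finset.sum_congr rfl fun q _ => ?_
      rw [tr_mul, FrameAux.tr_pow]
      rfl
    rw [h3]
    exact hvan _ _ h1.trace hi
  have hsum_all : ∑ i, a i * T i = 0 := by
    simp only [hT, Finset.mul_sum]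
    rw [Finset.sum_comm]
    refine Finset.sum_eq_zero fun q _ => ?_
    calc ∑ i, a i * (tr Γ (κ i) (F i) q z₀ * tr Γ K G q z₀ ^ n)
        = (∑ i, a i * tr Γ (κ i) (F i) q z₀) * tr Γ K G q z₀ ^ n := by
          rw [Finset.sum_mul]
          exact Finset.sum_congr rfl fun i _ => by ring
      _ = 0 := by rw [ha q, zero_mul]
  have hpow : ∑ q, (tr Γ K G q z₀) ^ (n + 1) = ∑ i ∈ I, a i * T i := by
    symm
    calc ∑ i ∈ I, a i * T i
        = ∑ q, ∑ i ∈ I, a i * (tr Γ (κ i) (F i) q z₀ * tr Γ K G q z₀ ^ n) := by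
          simp only [hT, Finset.mul_sum]
          exact Finset.sum_comm
      _ = ∑ q, (tr Γ K G q z₀) ^ (n + 1) := by
          refine Finset.sum_congr rfl fun q _ => ?_
          have h1 : ∑ i ∈ I, a i * (tr Γ (κ i) (F i) q z₀ * tr Γ K G q z₀ ^ n)
              = (∑ i ∈ I, a i * tr Γ (κ i) (F i) q z₀) * tr Γ K G q z₀ ^ n := by
            rw [Finset.sum_mul]
            exact Finset.sum_congr rfl fun i _ => by ring
          rw [h1, ← hv q, pow_succ']
  show ∑ q, (tr Γ K G q z₀) ^ (n + 1) = 0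
  rw [hpow]
  by_cases hdiv : (e : ℤ) ∣ (c : ℤ) + n * K
  · rw [← hsum_all]
    refine Finset.sum_subset (Finset.subset_univ I) fun i _ hiI => ?_
    rw [hTvan i ?_, mul_zero]
    intro hd
    apply hiI
    have h1 : (e : ℤ) ∣ (κ i : ℤ) - c := by
      have := dvd_sub hd hdiv
      have h2 : (κ i : ℤ) + n * K - ((c : ℤ) + n * K) = (κ i : ℤ) - c := by ring
      rwa [h2] at this
    have h2 : c % e = κ i % e := (Nat.modEq_iff_dvd.mpr h1)
    rw [Nat.mod_eq_of_lt hc] at h2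
    exact Finset.mem_filter.mpr ⟨Finset.mem_univ i, h2.symm⟩
  · refine Finset.sum_eq_zero fun i hi => ?_
    rw [hTvan i ?_, mul_zero]
    intro hd
    apply hdiv
    rw [hκ i hi] at hd
    have h1 : (e : ℤ) ∣ (c : ℤ) + n * K + e * (κ i / e : ℕ) := by
      have h2 : (c : ℤ) + n * K + e * (κ i / e : ℕ) = (c : ℤ) + e * (κ i / e : ℕ) + n * K := by
        ring
      rwa [h2]
    exact (dvd_add_left (dvd_mul_right _ _)).mp h1

/-- **Replacement data at an elliptic-type point.** Given a nonzero linear relation between the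
vectors of translates at `z₀`, there are an index `j`, a weight `K`, level-one coefficients `G i`
and scalars `c i` such that `∑ c i • (G i * F i)` is divisible by the good divisor `P`, with
`c j • G j ≠ 0` and quotient of weight `K - w < κ j`. -/
theorem exists_replace_data [Γ.FiniteIndex] {ι : Type*} [Fintype ι] (e : ℕ) (he : 0 < e) {z₀ : ℍ}
    (hvan : ∀ (k : ℤ) (f : ℍ → ℂ), IsMF ⊤ k f → ¬ (e : ℤ) ∣ k → f z₀ = 0)
    {U : ℍ → ℂ} (hU : IsMF ⊤ e U) (hU1 : U z₀ = 1)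
    {P : ℍ → ℂ} {w : ℤ} (hP : GoodDivisor P w z₀) (hw : 0 < w)
    (κ : ι → ℕ) (F : ι → ℍ → ℂ) (hF : ∀ i, IsMF Γ (κ i) (F i)) (a : ι → ℂ) (ha0 : a ≠ 0)
    (ha : ∀ q : SL(2, ℤ) ⧸ Γ, ∑ i, a i * tr Γ (κ i) (F i) q z₀ = 0) :
    ∃ (j : ι) (K : ℤ) (H' : ℍ → ℂ) (G : ι → ℍ → ℂ) (c : ι → ℂ),
      (∀ i, IsMF ⊤ (K - κ i) (G i)) ∧ c j • G j ≠ 0 ∧ IsMF Γ (K - w) H' ∧
      P * H' = ∑ i, c i • (G i * F i) ∧ K - w < κ j := by
  classical
  obtain ⟨i1, hi1⟩ : ∃ i, a i ≠ 0 := by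
    by_contra h
    push Not at h
    exact ha0 (funext h)
  set cl := κ i1 % e with hcl
  set J : Finset ι := Finset.univ.filter (fun i => κ i % e = cl ∧ a i ≠ 0) with hJ
  have hJne : J.Nonempty := ⟨i1, Finset.mem_filter.mpr ⟨Finset.mem_univ _, rfl, hi1⟩⟩
  obtain ⟨j, hjJ, hjmax⟩ := Finset.exists_max_image J κ hJne
  have hjc : κ j % e = cl ∧ a j ≠ 0 := (Finset.mem_filter.mp hjJ).2
  set Gf : ι → ℍ → ℂ := fun i => if i ∈ J then U ^ ((κ j - κ i) / e) else 0 with hGfdef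
  have hGf : ∀ i, IsMF ⊤ ((κ j : ℤ) - κ i) (Gf i) := by
    intro i
    by_cases hi : i ∈ J
    · simp only [hGfdef, hi, if_true]
      have h1 := hjmax i hi
      have h2 : κ i % e = κ j % e := by rw [(Finset.mem_filter.mp hi).2.1, hjc.1]
      have h3 : e ∣ κ j - κ i := (Nat.modEq_iff_dvd' h1).mp h2
      obtain ⟨t, ht⟩ := h3
      refine (hU.npow ((κ j - κ i) / e)).congr_weight ?_
      rw [ht, Nat.mul_div_cancel_left t he]
      have h4 : ((κ j : ℤ) - κ i) = ((κ j - κ i : ℕ) : ℤ) := by rw [Nat.cast_sub h1]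
      rw [h4, ht]
      push_cast
      ring
    · simp only [hGfdef, hi, if_false]
      exact IsMF.zero_fun
  set H : ℍ → ℂ := ∑ i, a i • (Gf i * F i) with hHdef
  have hH : IsMF Γ (κ j) H :=
    isMF_comb Finset.univ (fun i => (κ i : ℤ)) a Gf F (fun i _ => hGf i) (fun i _ => hF i)
  have hHv : ∀ q, tr Γ (κ j) H q z₀ = 0 := by
    intro q
    rw [hHdef, tr_comb Finset.univ (fun i => (κ i : ℤ)) a Gf F (fun i _ => hGf i) q]
    have hsplit := split_classes e he hvan hU hU1 κ F hF a ha cl q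
    rw [← hsplit, Finset.sum_apply, Finset.sum_filter]
    refine Finset.sum_congr rfl fun i _ => ?_
    by_cases hi : i ∈ J
    · have hcl' : κ i % e = cl := (Finset.mem_filter.mp hi).2.1
      simp [hGfdef, hi, hcl', hU1]
    · by_cases hcl' : κ i % e = cl
      · have hai : a i = 0 := by
          by_contra h
          exact hi (Finset.mem_filter.mpr ⟨Finset.mem_univ i, hcl', h⟩)
        simp [hGfdef, hi, hcl', hai]
      · simp [hGfdef, hi, hcl']
  obtain ⟨H', hH', hHH'⟩ := div_of_goodDivisor hP hH hHv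
  refine ⟨j, κ j, H', Gf, a, hGf, ?_, hH', hHH'.symm, by linarith⟩
  have hGj : Gf j = 1 := by simp [hGfdef, hjJ]
  rw [hGj]
  intro h
  have := congrFun h z₀
  simp only [Pi.smul_apply, Pi.one_apply, smul_eq_mul, mul_one, Pi.zero_apply] at this
  exact hjc.2 this

/-- replacement data at a zero of `E₆` (weights split modulo `4`, divisor `E₆`) -/
theorem exists_replace_data_E6 [Γ.FiniteIndex] {ι : Type*} [Fintype ι] {z₀ : ℍ} (hz : E6 z₀ = 0)
    (κ : ι → ℕ) (F : ι → ℍ → ℂ) (hF : ∀ i, IsMF Γ (κ i) (F i)) (a : ι → ℂ) (ha0 : a ≠ 0)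
    (ha : ∀ q : SL(2, ℤ) ⧸ Γ, ∑ i, a i * tr Γ (κ i) (F i) q z₀ = 0) :
    ∃ (j : ι) (K : ℤ) (H' : ℍ → ℂ) (G : ι → ℍ → ℂ) (c : ι → ℂ),
      (∀ i, IsMF ⊤ (K - κ i) (G i)) ∧ c j • G j ≠ 0 ∧ IsMF Γ (K - 6) H' ∧
      E6 * H' = ∑ i, c i • (G i * F i) ∧ K - 6 < κ j := by
  have h4 : E4 z₀ ≠ 0 := LevelOne.E4_ne_zero_of_E6_eq_zero hz
  exact exists_replace_data 4 (by norm_num) (fun k f hf hk => eq_zero_at_E6_zero hf hk hz)
    (U := (E4 z₀)⁻¹ • E4) ((isMF_E4.smul _).congr_weight (by norm_num))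
    (by simp [h4]) (goodDivisor_E6 hz) (by norm_num) κ F hF a ha0 ha

/-- replacement data at a zero of `E₄` (weights split modulo `6`, divisor `E₄`) -/
theorem exists_replace_data_E4 [Γ.FiniteIndex] {ι : Type*} [Fintype ι] {z₀ : ℍ} (hz : E4 z₀ = 0)
    (κ : ι → ℕ) (F : ι → ℍ → ℂ) (hF : ∀ i, IsMF Γ (κ i) (F i)) (a : ι → ℂ) (ha0 : a ≠ 0)
    (ha : ∀ q : SL(2, ℤ) ⧸ Γ, ∑ i, a i * tr Γ (κ i) (F i) q z₀ = 0) :
    ∃ (j : ι) (K : ℤ) (H' : ℍ → ℂ) (G : ι → ℍ → ℂ) (c : ι → ℂ),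
      (∀ i, IsMF ⊤ (K - κ i) (G i)) ∧ c j • G j ≠ 0 ∧ IsMF Γ (K - 4) H' ∧
      E4 * H' = ∑ i, c i • (G i * F i) ∧ K - 4 < κ j := by
  have h6 : E6 z₀ ≠ 0 := LevelOne.E6_ne_zero_of_E4_eq_zero hz
  exact exists_replace_data 6 (by norm_num) (fun k f hf hk => eq_zero_at_E4_zero hf hk hz)
    (U := (E6 z₀)⁻¹ • E6) ((isMF_E6.smul _).congr_weight (by norm_num))
    (by simp [h6]) (goodDivisor_E4 hz) (by norm_num) κ F hF a ha0 ha

end Fermat.Agent.S20
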