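import Fermat.Agent.S20.LevelOne
import Fermat.Agent.S20.Division

/-!
# S20 library: replacement data at a generic point

If the vectors of translates of a family `F i` of forms of even weights `κ i` satisfy a nontrivial
linear relation at a point `z₀` which is neither a zero of `E₄` nor of `E₆`, then a suitable
combination `∑ c i • (G i * F i)` with level-one multipliers `G i` is divisible by `Pgen z₀`, and
the quotient has weight smaller than the largest weight occurring in the relation.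
-/

open UpperHalfPlane ModularForm Filter
open scoped MatrixGroups ModularForm Manifold Topology Real

namespace Fermat.Agent.S20

namespace SplitGen

variable {Γ : Subgroup SL(2, ℤ)}

theorem isMF_sum {ι : Type*} (s : Finset ι) {K : ℤ} (f : ι → ℍ → ℂ)
    (h : ∀ i ∈ s, IsMF Γ K (f i)) : IsMF Γ K (∑ i ∈ s, f i) := by
  classical
  induction s using Finset.induction_on with
  | empty => simpa using (IsMF.zero_fun : IsMF Γ K (0 : ℍ → ℂ))
  | insert i s his ih =>
    rw [Finset.sum_insert his]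
    exact (h i (Finset.mem_insert_self i s)).add
      (ih fun j hj => h j (Finset.mem_insert_of_mem hj))

theorem tr_mul_top {k l K : ℤ} (hK : k + l = K) {g f : ℍ → ℂ} (hg : IsMF ⊤ k g)
    (q : SL(2, ℤ) ⧸ Γ) : tr Γ K (g * f) q = g * tr Γ l f q := by
  subst hK
  rw [tr_mul, tr_of_top hg]

end SplitGen

open SplitGen in
theorem exists_replace_data_generic {Γ : Subgroup SL(2, ℤ)} [Γ.FiniteIndex] {ι : Type*}
    [Fintype ι] {z₀ : ℍ} (h4 : E4 z₀ ≠ 0) (h6 : E6 z₀ ≠ 0) (κ : ι → ℕ) (hκ : ∀ i, Even (κ i))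
    (F : ι → ℍ → ℂ) (hF : ∀ i, IsMF Γ (κ i) (F i)) (a : ι → ℂ) (ha0 : a ≠ 0)
    (ha : ∀ q : SL(2, ℤ) ⧸ Γ, ∑ i, a i * tr Γ (κ i) (F i) q z₀ = 0) :
    ∃ (j : ι) (K : ℤ) (H' : ℍ → ℂ) (G : ι → ℍ → ℂ) (c : ι → ℂ),
      (∀ i, IsMF ⊤ (K - κ i) (G i)) ∧ c j • G j ≠ 0 ∧ IsMF Γ (K - 12) H' ∧
      Pgen z₀ * H' = ∑ i, c i • (G i * F i) ∧ K - 12 < κ j := by
  classical
  -- the index of maximal weight in the support of the relation
  have hne : (Finset.univ.filter fun i => a i ≠ 0).Nonempty := by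
    by_contra hcon
    rw [Finset.not_nonempty_iff_eq_empty] at hcon
    apply ha0
    funext i
    by_contra hi
    have hi' : a i ≠ 0 := hi
    have : i ∈ Finset.univ.filter fun i => a i ≠ 0 := by simp [hi']
    rw [hcon] at this
    simp at this
  obtain ⟨j, hj, hmax⟩ := Finset.exists_max_image _ κ hne
  have haj : a j ≠ 0 := (Finset.mem_filter.mp hj).2
  have hmax' : ∀ i, a i ≠ 0 → κ i ≤ κ j := fun i hi => hmax i (by simp [hi])
  set K : ℤ := (κ j : ℤ) + 4 with hKdef
  -- level-one multipliers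
  have hm : ∀ i, ∃ m : ℍ → ℂ, IsMF ⊤ (K - κ i) m ∧ (a i ≠ 0 → m z₀ ≠ 0) := by
    intro i
    by_cases hi : a i = 0
    · exact ⟨0, IsMF.zero_fun, fun h => absurd hi h⟩
    · have hle := hmax' i hi
      have hev : Even (K - (κ i : ℤ)) := by
        obtain ⟨r, hr⟩ := hκ i
        obtain ⟨s, hs⟩ := hκ j
        exact ⟨s + 2 - r, by rw [hKdef, hr, hs]; push_cast; ring⟩
      obtain ⟨m, hm1, -, hm3⟩ := LevelOne.exists_mono hev (Or.inr (by rw [hKdef]; omega))
      exact ⟨m, hm1, fun _ => hm3 z₀ h4 h6⟩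
  choose G hG hGne using hm
  let c : ι → ℂ := fun i => a i * (G i z₀)⁻¹
  have hc : ∀ i, c i * G i z₀ = a i := by
    intro i
    by_cases hi : a i = 0
    · simp [c, hi]
    · simp only [c]
      rw [mul_assoc, inv_mul_cancel₀ (hGne i hi), mul_one]
  -- the combination
  have hterm : ∀ i, IsMF Γ K (c i • (G i * F i)) := fun i =>
    (((hG i).of_top.mul (hF i)).congr_weight (by ring)).smul (c i)
  have hH : IsMF Γ K (∑ i, c i • (G i * F i)) := isMF_sum _ _ fun i _ => hterm i
  have hv : ∀ q : SL(2, ℤ) ⧸ Γ, tr Γ K (∑ i, c i • (G i * F i)) q z₀ = 0 := by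
    intro q
    rw [tr_sum, Finset.sum_apply, ← ha q]
    refine Finset.sum_congr rfl fun i _ => ?_
    rw [tr_smul, tr_mul_top (by ring : K - (κ i : ℤ) + (κ i : ℤ) = K) (hG i)]
    simp only [Pi.smul_apply, Pi.mul_apply, smul_eq_mul]
    rw [← mul_assoc, hc i]
  obtain ⟨H', hH', hHeq⟩ := div_of_goodDivisor (goodDivisor_Pgen h4 h6) hH hv
  refine ⟨j, K, H', G, c, hG, ?_, hH', hHeq.symm, by rw [hKdef]; omega⟩
  intro h0
  have h1 := congrFun h0 z₀
  simp only [Pi.smul_apply, Pi.zero_apply, smul_eq_mul] at h1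
  rw [hc j] at h1
  exact haj h1

end Fermat.Agent.S20
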